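import Mathlib

/-!
# DIM-7: a modular form on `Γ₀(N)` whose stabiliser in `SL(2, ℤ)` is exactly `Γ₀(N)`

We take `F = Δ ∣[12] diag(N, 1)`, i.e. `F(z) = N ^ 11 * Δ(N z)`, as a modular form of weight 12
on `Γ₀(N)`, and show that `F ∣[12] γ = F` for `γ ∈ SL(2, ℤ)` forces `γ ∈ Γ₀(N)`.
-/

set_option autoImplicit false

namespace Fermat.Agent.H18

open UpperHalfPlane ModularForm CongruenceSubgroup MatrixGroups Matrix

/-- Restriction of a modular form to a smaller level. -/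
noncomputable def restrictLevel {Γ Γ' : Subgroup (GL (Fin 2) ℝ)} {k : ℤ} (h : Γ ≤ Γ')
    (f : ModularForm Γ' k) : ModularForm Γ k where
  toFun := f
  slash_action_eq' γ hγ := f.slash_action_eq' γ (h hγ)
  holo' := f.holo'
  bdd_at_cusps' hc := f.bdd_at_cusps' (hc.mono h)

@[simp]
lemma coe_restrictLevel {Γ Γ' : Subgroup (GL (Fin 2) ℝ)} {k : ℤ} (h : Γ ≤ Γ')
    (f : ModularForm Γ' k) : ⇑(restrictLevel h f) = ⇑f := rfl

/-- An upper triangular real matrix `(a, b; 0, d)` with `a d ≠ 0`, as an element of `GL(2, ℝ)`. -/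
noncomputable def upperGL (a b d : ℝ) (h : a * d ≠ 0) : GL (Fin 2) ℝ :=
  Matrix.GeneralLinearGroup.mkOfDetNeZero !![a, b; 0, d] (by simpa [Matrix.det_fin_two] using h)

lemma upperGL_val (a b d : ℝ) (h : a * d ≠ 0) :
    (upperGL a b d h : Matrix (Fin 2) (Fin 2) ℝ) = !![a, b; 0, d] := rfl

lemma upperGL_det (a b d : ℝ) (h : a * d ≠ 0) :
    (upperGL a b d h).det.val = a * d := by
  simp [upperGL, Matrix.GeneralLinearGroup.mkOfDetNeZero, Matrix.det_fin_two]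

lemma denom_upperGL (a b d : ℝ) (h : a * d ≠ 0) (z : ℂ) :
    denom (upperGL a b d h) z = d := by
  simp [denom, upperGL_val]

lemma num_upperGL (a b d : ℝ) (h : a * d ≠ 0) (z : ℂ) :
    num (upperGL a b d h) z = a * z + b := by
  simp [num, upperGL_val]

lemma coe_upperGL_smul (a b d : ℝ) (ha : 0 < a) (hd : 0 < d) (τ : ℍ) :
    ((upperGL a b d (mul_pos ha hd).ne' • τ : ℍ) : ℂ) = (a * τ + b) / d := by
  rw [coe_smul_of_det_pos (by rw [upperGL_det]; exact mul_pos ha hd), num_upperGL, denom_upperGL]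

lemma im_upperGL_smul (a b d : ℝ) (ha : 0 < a) (hd : 0 < d) (τ : ℍ) :
    (upperGL a b d (mul_pos ha hd).ne' • τ : ℍ).im = a * τ.im / d := by
  rw [im_smul_eq_div_normSq, upperGL_det, denom_upperGL, abs_of_pos (mul_pos ha hd),
    Complex.normSq_ofReal]
  field_simp

lemma slash_upperGL_apply (f : ℍ → ℂ) (k : ℤ) (a b d : ℝ) (ha : 0 < a) (hd : 0 < d) (τ : ℍ) :
    (f ∣[k] upperGL a b d (mul_pos ha hd).ne') τ =
      f (upperGL a b d (mul_pos ha hd).ne' • τ) * ((a * d : ℝ) : ℂ) ^ (k - 1) * (d : ℂ) ^ (-k) := by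
  rw [ModularForm.slash_apply, denom_upperGL]
  have hdet : 0 < (upperGL a b d (mul_pos ha hd).ne').det.val := by
    rw [upperGL_det]; exact mul_pos ha hd
  have hσ : σ (upperGL a b d (mul_pos ha hd).ne') = ContinuousAlgEquiv.refl ℝ ℂ := by
    rw [σ, if_pos hdet]
  rw [hσ, upperGL_det, abs_of_pos (mul_pos ha hd)]
  rfl

/-- The key matrix identity: if `σ * U₁ = U₂ * γ` entrywise over `ℤ` (with `U₁, U₂` upper
triangular), the same holds in `GL(2, ℝ)`. -/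
lemma mapGL_mul_upperGL_eq (σ γ : SL(2, ℤ)) (a₁ b₁ d₁ a₂ b₂ d₂ : ℤ)
    (h₁ : ((a₁ : ℝ) * (d₁ : ℝ)) ≠ 0) (h₂ : ((a₂ : ℝ) * (d₂ : ℝ)) ≠ 0)
    (e00 : σ 0 0 * a₁ = a₂ * γ 0 0 + b₂ * γ 1 0)
    (e01 : σ 0 0 * b₁ + σ 0 1 * d₁ = a₂ * γ 0 1 + b₂ * γ 1 1)
    (e10 : σ 1 0 * a₁ = d₂ * γ 1 0)
    (e11 : σ 1 0 * b₁ + σ 1 1 * d₁ = d₂ * γ 1 1) :
    (σ : GL (Fin 2) ℝ) * upperGL a₁ b₁ d₁ h₁ = upperGL a₂ b₂ d₂ h₂ * (γ : GL (Fin 2) ℝ) := by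
  apply Units.ext
  ext i j
  fin_cases i <;> fin_cases j
  · simp [Matrix.mul_apply, Fin.sum_univ_two, upperGL_val]
    exact_mod_cast e00
  · simp [Matrix.mul_apply, Fin.sum_univ_two, upperGL_val]
    exact_mod_cast e01
  · simp [Matrix.mul_apply, Fin.sum_univ_two, upperGL_val]
    exact_mod_cast e10
  · simp [Matrix.mul_apply, Fin.sum_univ_two, upperGL_val]
    exact_mod_cast e11

local notation "Δ" => ModularForm.discriminant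

open Real in
/-- Two-sided exponential bounds for `Δ` near `i∞`. -/
lemma exists_bound_discriminant : ∃ Y : ℝ, ∀ w : ℍ, Y ≤ w.im →
    (1 / 2) * Real.exp (-2 * π * w.im) ≤ ‖Δ w‖ ∧ ‖Δ w‖ ≤ (3 / 2) * Real.exp (-2 * π * w.im) := by
  have hprod := tendsto_atImInfty_tprod_one_sub_eta_q_pow.eventually
    (Metric.ball_mem_nhds 1 (by norm_num : (0 : ℝ) < 1/2))
  rw [Filter.Eventually, UpperHalfPlane.atImInfty_mem] at hprod
  obtain ⟨Y, hY⟩ := hprod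
  refine ⟨Y, fun w hw => ?_⟩
  have hτ := hY w hw
  change dist (∏' n, (1 - eta_q n w) ^ 24) 1 < 1 / 2 at hτ
  rw [discriminant_eq_q_prod, norm_mul]
  have hq_norm : ‖Function.Periodic.qParam 1 w‖ = Real.exp (-2 * π * w.im) := by
    simp [Function.Periodic.qParam, Complex.norm_exp]
  rw [hq_norm]
  have hsub : ‖∏' n, (1 - eta_q n w) ^ 24 - 1‖ < 1 / 2 := by
    rwa [Complex.dist_eq] at hτ
  have h1 := norm_sub_norm_le 1 (∏' n, (1 - eta_q n w) ^ 24)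
  have h2 := norm_sub_norm_le (∏' n, (1 - eta_q n w) ^ 24) 1
  rw [norm_one] at h1 h2
  rw [norm_sub_rev] at h1
  have hpos := Real.exp_pos (-2 * π * w.im)
  constructor
  · nlinarith
  · nlinarith

/-- The matrix `diag(N, 1)`. -/
noncomputable def levelMat (N : ℕ) [NeZero N] : GL (Fin 2) ℝ :=
  upperGL ((N : ℤ) : ℝ) ((0 : ℤ) : ℝ) ((1 : ℤ) : ℝ)
    (by simpa using (NeZero.ne N))

open ConjAct Pointwise in
lemma Gamma0_le_conj (N : ℕ) [NeZero N] :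
    ((Gamma0 N : Subgroup SL(2, ℤ)) : Subgroup (GL (Fin 2) ℝ)) ≤
      toConjAct (levelMat N)⁻¹ • 𝒮ℒ := by
  intro x hx
  obtain ⟨γ, hγ, rfl⟩ := Subgroup.mem_map.mp hx
  rw [Subgroup.mem_pointwise_smul_iff_inv_smul_mem, ConjAct.smul_def]
  simp only [map_inv, inv_inv, ofConjAct_toConjAct]
  rw [Gamma0_mem] at hγ
  obtain ⟨c', hc'⟩ : (N : ℤ) ∣ γ 1 0 := (ZMod.intCast_zmod_eq_zero_iff_dvd _ _).mp hγ
  have hdet : γ 0 0 * γ 1 1 - γ 0 1 * γ 1 0 = 1 := by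
    have := γ.det_coe
    rwa [Matrix.det_fin_two] at this
  let δ : SL(2, ℤ) := ⟨!![γ 0 0, N * γ 0 1; c', γ 1 1], by
    rw [Matrix.det_fin_two_of]
    rw [hc'] at hdet
    linear_combination hdet⟩
  refine ⟨δ, ?_⟩
  have key := mapGL_mul_upperGL_eq δ γ N 0 1 N 0 1
    (by simpa using (NeZero.ne N)) (by simpa using (NeZero.ne N))
    (by simp [δ]; ring) (by simp [δ]) (by simp [δ]; rw [hc']; ring) (by simp [δ])
  rw [eq_mul_inv_iff_mul_eq]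
  exact key

/-- The separating form `F = Δ ∣[12] diag(N, 1)` on `Γ₀(N)`. -/
noncomputable def separatingForm (N : ℕ) [NeZero N] : ModularForm (Gamma0 N) 12 :=
  restrictLevel (Gamma0_le_conj N) (ModularForm.translate CuspForm.discriminant (levelMat N))

lemma coe_separatingForm (N : ℕ) [NeZero N] :
    ⇑(separatingForm N) = Δ ∣[(12 : ℤ)] levelMat N := rfl

open Real in
/-- If `Δ ∣[12] upperGL g B D = Δ ∣[12] diag(N, 1)` with `g D = N`, then `D = 1`. -/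
lemma eq_one_of_slash_discriminant_eq (N g D : ℕ) (B : ℤ) (hg : 0 < g) (hD : 0 < D)
    (hN : N = g * D)
    (hne1 : (((g : ℤ) : ℝ) * ((D : ℤ) : ℝ)) ≠ 0) (hne2 : (((N : ℤ) : ℝ) * ((1 : ℤ) : ℝ)) ≠ 0)
    (h : Δ ∣[(12 : ℤ)] upperGL ((g : ℤ) : ℝ) (B : ℝ) ((D : ℤ) : ℝ) hne1 =
      Δ ∣[(12 : ℤ)] upperGL ((N : ℤ) : ℝ) ((0 : ℤ) : ℝ) ((1 : ℤ) : ℝ) hne2) :
    D = 1 := by
  by_contra hD1
  have hD2 : 2 ≤ D := by omega
  have hgR : (0 : ℝ) < ((g : ℤ) : ℝ) := by exact_mod_cast hg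
  have hDR : (0 : ℝ) < ((D : ℤ) : ℝ) := by exact_mod_cast hD
  have hNpos : 0 < N := by rw [hN]; exact Nat.mul_pos hg hD
  have hNR : (0 : ℝ) < ((N : ℤ) : ℝ) := by exact_mod_cast hNpos
  have h1R : (0 : ℝ) < ((1 : ℤ) : ℝ) := by norm_num
  have hNgD : ((N : ℤ) : ℝ) = ((g : ℤ) : ℝ) * ((D : ℤ) : ℝ) := by
    rw [hN]; push_cast; ring
  obtain ⟨Y, hY⟩ := exists_bound_discriminant
  -- ε = N - g / D > 0
  set ε : ℝ := ((N : ℤ) : ℝ) - ((g : ℤ) : ℝ) / ((D : ℤ) : ℝ) with hε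
  have hD2R : (2 : ℝ) ≤ ((D : ℤ) : ℝ) := by exact_mod_cast hD2
  have hεpos : 0 < ε := by
    rw [hε, hNgD]
    have h1 : ((g : ℤ) : ℝ) / ((D : ℤ) : ℝ) ≤ ((g : ℤ) : ℝ) / 2 :=
      div_le_div_of_nonneg_left hgR.le (by norm_num) hD2R
    nlinarith
  -- choose y
  set y : ℝ := max (max (Y * ((D : ℤ) : ℝ) / ((g : ℤ) : ℝ)) (Y / ((N : ℤ) : ℝ)))
    (max 1 ((3 * ((D : ℤ) : ℝ) ^ 12) / (2 * π * ε))) with hy
  have hy1 : 1 ≤ y := le_trans (le_max_left _ _) (le_max_right _ _)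
  have hypos : 0 < y := lt_of_lt_of_le one_pos hy1
  have hyA : Y * ((D : ℤ) : ℝ) / ((g : ℤ) : ℝ) ≤ y :=
    le_trans (le_max_left _ _) (le_max_left _ _)
  have hyB : Y / ((N : ℤ) : ℝ) ≤ y := le_trans (le_max_right _ _) (le_max_left _ _)
  have hyC : (3 * ((D : ℤ) : ℝ) ^ 12) / (2 * π * ε) ≤ y :=
    le_trans (le_max_right _ _) (le_max_right _ _)
  let τ : ℍ := ⟨⟨0, y⟩, by simpa using hypos⟩
  have hτim : τ.im = y := rfl
  have hval := congrFun h τ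
  rw [slash_upperGL_apply Δ 12 _ _ _ hgR hDR τ, slash_upperGL_apply Δ 12 _ _ _ hNR h1R τ] at hval
  have him1 := im_upperGL_smul ((g : ℤ) : ℝ) (B : ℝ) ((D : ℤ) : ℝ) hgR hDR τ
  have him2 := im_upperGL_smul ((N : ℤ) : ℝ) ((0 : ℤ) : ℝ) ((1 : ℤ) : ℝ) hNR h1R τ
  rw [hτim] at him1 him2
  set w₁ : ℍ := upperGL ((g : ℤ) : ℝ) (B : ℝ) ((D : ℤ) : ℝ) (mul_pos hgR hDR).ne' • τ with hw₁
  set w₂ : ℍ := upperGL ((N : ℤ) : ℝ) ((0 : ℤ) : ℝ) ((1 : ℤ) : ℝ) (mul_pos hNR h1R).ne' • τ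
    with hw₂
  have hYw₁ : Y ≤ w₁.im := by
    rw [him1, le_div_iff₀ hDR]
    rw [div_le_iff₀ hgR] at hyA
    linarith
  have hYw₂ : Y ≤ w₂.im := by
    rw [him2]
    rw [div_le_iff₀ hNR] at hyB
    simp only [Int.cast_one, div_one]
    linarith
  obtain ⟨hlow, -⟩ := hY w₁ hYw₁
  obtain ⟨-, hupp⟩ := hY w₂ hYw₂
  -- norms
  have hnorm := congrArg norm hval
  have e1 : ‖Δ w₁ * (((((g : ℤ) : ℝ) * ((D : ℤ) : ℝ) : ℝ)) : ℂ) ^ ((12 : ℤ) - 1) *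
      ((((D : ℤ) : ℝ)) : ℂ) ^ (-(12 : ℤ))‖ =
      ‖Δ w₁‖ * (((g : ℤ) : ℝ) * ((D : ℤ) : ℝ)) ^ (11 : ℕ) / ((D : ℤ) : ℝ) ^ (12 : ℕ) := by
    rw [norm_mul, norm_mul, norm_zpow, norm_zpow, Complex.norm_real, Complex.norm_real,
      Real.norm_of_nonneg (mul_pos hgR hDR).le, Real.norm_of_nonneg hDR.le]
    norm_num [_root_.zpow_neg, div_eq_mul_inv]
  have e2 : ‖Δ w₂ * (((((N : ℤ) : ℝ) * ((1 : ℤ) : ℝ) : ℝ)) : ℂ) ^ ((12 : ℤ) - 1) *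
      ((((1 : ℤ) : ℝ)) : ℂ) ^ (-(12 : ℤ))‖ = ‖Δ w₂‖ * ((N : ℤ) : ℝ) ^ (11 : ℕ) := by
    rw [norm_mul, norm_mul, norm_zpow, norm_zpow, Complex.norm_real, Complex.norm_real,
      Real.norm_of_nonneg (mul_pos hNR h1R).le, Real.norm_of_nonneg h1R.le]
    norm_num
  rw [e1, e2, ← hNgD] at hnorm
  have hN11 : (0 : ℝ) < ((N : ℤ) : ℝ) ^ (11 : ℕ) := pow_pos hNR 11
  have hD12 : (0 : ℝ) < ((D : ℤ) : ℝ) ^ (12 : ℕ) := pow_pos hDR 12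
  have hkey : ‖Δ w₁‖ = ((D : ℤ) : ℝ) ^ (12 : ℕ) * ‖Δ w₂‖ := by
    field_simp at hnorm
    nlinarith [hnorm, hN11, hD12, norm_nonneg (Δ w₁), norm_nonneg (Δ w₂)]
  -- the inequality
  have hineq : (1 / 2) * Real.exp (-2 * π * w₁.im) ≤
      ((D : ℤ) : ℝ) ^ (12 : ℕ) * ((3 / 2) * Real.exp (-2 * π * w₂.im)) := by
    calc (1 / 2) * Real.exp (-2 * π * w₁.im) ≤ ‖Δ w₁‖ := hlow
      _ = ((D : ℤ) : ℝ) ^ (12 : ℕ) * ‖Δ w₂‖ := hkey
      _ ≤ ((D : ℤ) : ℝ) ^ (12 : ℕ) * ((3 / 2) * Real.exp (-2 * π * w₂.im)) :=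
          mul_le_mul_of_nonneg_left hupp hD12.le
  rw [him1, him2] at hineq
  simp only [Int.cast_one, div_one] at hineq
  -- exp (2 π ε y) ≤ 3 D^12
  have hexp : Real.exp (2 * π * ε * y) ≤ 3 * ((D : ℤ) : ℝ) ^ (12 : ℕ) := by
    have hsplit : Real.exp (-2 * π * (((g : ℤ) : ℝ) * y / ((D : ℤ) : ℝ))) =
        Real.exp (2 * π * ε * y) * Real.exp (-2 * π * (((N : ℤ) : ℝ) * y)) := by
      rw [← Real.exp_add]
      congr 1
      rw [hε]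
      field_simp
      ring
    rw [hsplit] at hineq
    have hpos := Real.exp_pos (-2 * π * (((N : ℤ) : ℝ) * y))
    have : (1 / 2) * Real.exp (2 * π * ε * y) * Real.exp (-2 * π * (((N : ℤ) : ℝ) * y)) ≤
        ((3 / 2) * ((D : ℤ) : ℝ) ^ (12 : ℕ)) * Real.exp (-2 * π * (((N : ℤ) : ℝ) * y)) := by
      linarith
    have := le_of_mul_le_mul_right this hpos
    linarith
  have hlin : 2 * π * ε * y + 1 ≤ Real.exp (2 * π * ε * y) := Real.add_one_le_exp _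
  have hbig : 3 * ((D : ℤ) : ℝ) ^ (12 : ℕ) ≤ 2 * π * ε * y := by
    have hpe : 0 < 2 * π * ε := by positivity
    rw [div_le_iff₀ hpe] at hyC
    linarith
  linarith

/-- **DIM-7.** If `F ∣[12] γ = F` for `γ ∈ SL(2, ℤ)`, then `γ ∈ Γ₀(N)`. -/
theorem mem_Gamma0_of_slash_separatingForm_eq (N : ℕ) [NeZero N] (γ : SL(2, ℤ))
    (hγ : ⇑(separatingForm N) ∣[(12 : ℤ)] γ = ⇑(separatingForm N)) : γ ∈ Gamma0 N := by
  have hN0 : 0 < N := Nat.pos_of_ne_zero (NeZero.ne N)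
  have hdet : γ 0 0 * γ 1 1 - γ 0 1 * γ 1 0 = 1 := by
    have := γ.det_coe
    rwa [Matrix.det_fin_two] at this
  -- g = gcd(c, N), D = N / g, c₁ = c / g
  set g : ℕ := Int.gcd (γ 1 0) N with hg_def
  have hg_pos : 0 < g := Int.gcd_pos_of_ne_zero_right _ (by exact_mod_cast hN0.ne')
  have hgN : (g : ℤ) ∣ (N : ℤ) := Int.gcd_dvd_right _ _
  have hgc : (g : ℤ) ∣ γ 1 0 := Int.gcd_dvd_left _ _
  obtain ⟨D', hD'⟩ := hgN
  obtain ⟨c₁, hc₁⟩ := hgc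
  have hD'pos : 0 < D' := by
    have : (0 : ℤ) < (g : ℤ) * D' := by rw [← hD']; exact_mod_cast hN0
    exact pos_of_mul_pos_left (by rwa [mul_comm] at this) (by exact_mod_cast hg_pos.le)
  obtain ⟨D, rfl⟩ : ∃ D : ℕ, (D : ℤ) = D' := ⟨D'.toNat, Int.toNat_of_nonneg hD'pos.le⟩
  have hDpos : 0 < D := by exact_mod_cast hD'pos
  have hND : N = g * D := by exact_mod_cast hD'
  -- coprimality
  have hcop1 : IsCoprime c₁ (D : ℤ) := by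
    have h := Int.isCoprime_iff_gcd_eq_one.mpr
      (Int.gcd_div_gcd_div_gcd (i := γ 1 0) (j := (N : ℤ)) hg_pos)
    rw [← hg_def] at h
    have e1 : γ 1 0 / (g : ℤ) = c₁ := by
      rw [hc₁]; exact Int.mul_ediv_cancel_left _ (by exact_mod_cast hg_pos.ne')
    have e2 : (N : ℤ) / (g : ℤ) = D := by
      rw [hD']; exact Int.mul_ediv_cancel_left _ (by exact_mod_cast hg_pos.ne')
    rwa [e1, e2] at h
  have hcop2 : IsCoprime (γ 0 0) c₁ := by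
    refine ⟨γ 1 1, -(γ 0 1 * g), ?_⟩
    rw [hc₁] at hdet
    linear_combination hdet
  have hcop : IsCoprime ((D : ℤ) * γ 0 0) c₁ := IsCoprime.mul_left hcop1.symm hcop2
  obtain ⟨σ, hσ0, hσ1⟩ := hcop.exists_SL2_col 0
  have hσdet : σ 0 0 * σ 1 1 - σ 0 1 * σ 1 0 = 1 := by
    have := σ.det_coe
    rwa [Matrix.det_fin_two] at this
  rw [hσ0, hσ1] at hσdet
  set B : ℤ := σ 1 1 * N * γ 0 1 - σ 0 1 * γ 1 1 with hB
  have hne1 : (((g : ℤ) : ℝ) * ((D : ℤ) : ℝ)) ≠ 0 := by simp [hg_pos.ne', hDpos.ne']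
  have hne2 : (((N : ℤ) : ℝ) * ((1 : ℤ) : ℝ)) ≠ 0 := by simp [hN0.ne']
  have key := mapGL_mul_upperGL_eq σ γ g B D N 0 1 hne1 hne2
    (by linear_combination (g : ℤ) * hσ0 - (γ 0 0) * hD')
    (by linear_combination (B : ℤ) * hσ0 + ((D : ℤ) * γ 0 0) * hB + ((N : ℤ) * γ 0 1) * hσdet
          - (σ 0 1 * (D : ℤ)) * hdet - (σ 0 1 * (D : ℤ) * γ 0 1) * hc₁
          + (γ 0 1 * σ 0 1 * c₁) * hD')
    (by linear_combination (g : ℤ) * hσ1 - hc₁)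
    (by linear_combination (B : ℤ) * hσ1 + c₁ * hB + (γ 1 1) * hσdet
          - (σ 1 1 * (D : ℤ)) * hdet - (σ 1 1 * (D : ℤ) * γ 0 1) * hc₁
          + (c₁ * σ 1 1 * γ 0 1) * hD')
  -- the function identity
  have hfun : Δ ∣[(12 : ℤ)] upperGL ((g : ℤ) : ℝ) (B : ℝ) ((D : ℤ) : ℝ) hne1 =
      Δ ∣[(12 : ℤ)] upperGL ((N : ℤ) : ℝ) ((0 : ℤ) : ℝ) ((1 : ℤ) : ℝ) hne2 := by
    have h1 : Δ ∣[(12 : ℤ)] (σ : GL (Fin 2) ℝ) = Δ := by
      have := SlashInvariantFormClass.slash_action_eq CuspForm.discriminant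
        (σ : GL (Fin 2) ℝ) ⟨σ, rfl⟩
      simpa using this
    calc Δ ∣[(12 : ℤ)] upperGL ((g : ℤ) : ℝ) (B : ℝ) ((D : ℤ) : ℝ) hne1
        = (Δ ∣[(12 : ℤ)] (σ : GL (Fin 2) ℝ)) ∣[(12 : ℤ)]
            upperGL ((g : ℤ) : ℝ) (B : ℝ) ((D : ℤ) : ℝ) hne1 := by rw [h1]
      _ = Δ ∣[(12 : ℤ)] ((σ : GL (Fin 2) ℝ) *
            upperGL ((g : ℤ) : ℝ) (B : ℝ) ((D : ℤ) : ℝ) hne1) := by
          rw [SlashAction.slash_mul]
      _ = Δ ∣[(12 : ℤ)] (upperGL ((N : ℤ) : ℝ) ((0 : ℤ) : ℝ) ((1 : ℤ) : ℝ) hne2 *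
            (γ : GL (Fin 2) ℝ)) := by rw [key]
      _ = (Δ ∣[(12 : ℤ)] upperGL ((N : ℤ) : ℝ) ((0 : ℤ) : ℝ) ((1 : ℤ) : ℝ) hne2) ∣[(12 : ℤ)]
            (γ : GL (Fin 2) ℝ) := by rw [SlashAction.slash_mul]
      _ = Δ ∣[(12 : ℤ)] upperGL ((N : ℤ) : ℝ) ((0 : ℤ) : ℝ) ((1 : ℤ) : ℝ) hne2 := hγ
  have hD1 : D = 1 := eq_one_of_slash_discriminant_eq N g D B hg_pos hDpos hND hne1 hne2 hfun
  rw [Gamma0_mem, ZMod.intCast_zmod_eq_zero_iff_dvd]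
  rw [hD1] at hD'
  rw [hc₁, hD']
  simp

/-- **DIM-7** (statement as requested by P-DIM). -/
theorem exists_separating_form (N : ℕ) [NeZero N] :
    ∃ (k : ℤ) (F : ModularForm (Gamma0 N) k),
      ∀ γ : SL(2, ℤ), (⇑F ∣[k] γ = ⇑F) → γ ∈ Gamma0 N :=
  ⟨12, separatingForm N, mem_Gamma0_of_slash_separatingForm_eq N⟩

end Fermat.Agent.H18
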