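import Mathlib
import Fermat.Prelude.Def_ModularCurve_LaurentCoeff

/-!
# Bounded Laurent series over a rank-one valuation ring

`A` is a valuation subring of a field `L`.  A Laurent series over `L` is *integral* if all its
coefficients lie in `A`.  Main result (`rvIsInt_of_mul_eq`): if `w₋ * x = w₊` with `w₋, w₊`
integral, `w₋` having a unit coefficient, and `x` bounded (some nonzero multiple is integral),
then `x` is integral - provided `A` is archimedean (`RvArch`: every nonzero element divides a
power of every nonunit).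
-/

set_option autoImplicit false
set_option linter.unusedSectionVars false

noncomputable section

open ModularCurve

namespace Fermat.Agent.H18

section RedBdd

variable {L : Type*} [Field L] (A : ValuationSubring L)

/-- the archimedean (rank one) property of a valuation ring -/
def RvArch : Prop := ∀ a b : A, b ≠ 0 → ¬ IsUnit a → ∃ n : ℕ, b ∣ a ^ n

/-- a Laurent series over `L` is integral if all its coefficients lie in `A` -/
def RvIsInt (y : LaurentSeries L) : Prop := ∀ j, y.coeff j ∈ A

/-- the inclusion `A((q)) → L((q))` -/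
abbrev rvIota : LaurentSeries A →+* LaurentSeries L := coeffMap A.subtype

theorem rvIota_coeff (w : LaurentSeries A) (j : ℤ) : (rvIota A w).coeff j = (w.coeff j : L) := rfl

theorem rvIota_injective : Function.Injective (rvIota A) := by
  intro a b h
  ext k
  have := congrArg (fun x => HahnSeries.coeff x k) h
  simpa using this

theorem rvIsInt_iota (w : LaurentSeries A) : RvIsInt A (rvIota A w) := fun j => (w.coeff j).2

variable {A}

theorem RvIsInt.exists_eq {y : LaurentSeries L} (h : RvIsInt A y) :
    ∃ w : LaurentSeries A, rvIota A w = y := by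
  refine ⟨⟨fun j => ⟨y.coeff j, h j⟩, y.isPWO_support.mono ?_⟩, ?_⟩
  · intro j hj
    simp only [Function.mem_support, ne_eq] at hj ⊢
    intro h0
    exact hj (Subtype.ext h0)
  · ext j
    rfl

theorem rvIsInt_iff {y : LaurentSeries L} : RvIsInt A y ↔ ∃ w : LaurentSeries A, rvIota A w = y :=
  ⟨fun h => h.exists_eq, fun ⟨w, hw⟩ => hw ▸ rvIsInt_iota A w⟩

theorem RvIsInt.add {x y : LaurentSeries L} (hx : RvIsInt A x) (hy : RvIsInt A y) :
    RvIsInt A (x + y) := fun j => by
  rw [HahnSeries.coeff_add]
  exact A.add_mem _ _ (hx j) (hy j)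

theorem RvIsInt.mul {x y : LaurentSeries L} (hx : RvIsInt A x) (hy : RvIsInt A y) :
    RvIsInt A (x * y) := by
  obtain ⟨a, rfl⟩ := hx.exists_eq
  obtain ⟨b, rfl⟩ := hy.exists_eq
  rw [← map_mul]
  exact rvIsInt_iota A _

theorem RvIsInt.smul {x : LaurentSeries L} (hx : RvIsInt A x) {c : L} (hc : c ∈ A) :
    RvIsInt A (c • x) := fun j => by
  rw [HahnSeries.coeff_smul, smul_eq_mul]
  exact A.mul_mem _ _ hc (hx j)

theorem RvIsInt.neg {x : LaurentSeries L} (hx : RvIsInt A x) : RvIsInt A (-x) := fun j => by
  rw [HahnSeries.coeff_neg]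
  exact A.neg_mem _ (hx j)

theorem RvIsInt.sub {x y : LaurentSeries L} (hx : RvIsInt A x) (hy : RvIsInt A y) :
    RvIsInt A (x - y) := by
  rw [sub_eq_add_neg]
  exact hx.add hy.neg

theorem rvIsInt_zero : RvIsInt A (0 : LaurentSeries L) := fun _ => by
  rw [HahnSeries.coeff_zero]
  exact A.zero_mem

theorem rvIota_smul (c : A) (w : LaurentSeries A) :
    rvIota A (c • w) = (c : L) • rvIota A w := by
  ext j
  simp [HahnSeries.coeff_smul]

theorem rv_smul_def {K : Type*} [Field K] (c : K) (x : LaurentSeries K) :
    c • x = algebraMap K (LaurentSeries K) c * x := by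
  rw [algebraMap_laurentSeries_eq_single, ← HahnSeries.C_mul_eq_smul]
  rfl

theorem rv_mul_smul (c : L) (x y : LaurentSeries L) : x * (c • y) = c • (x * y) := by
  rw [← HahnSeries.C_mul_eq_smul, ← HahnSeries.C_mul_eq_smul]
  ring

/-- Key step: if the coefficients of `wm` below `i₀` are divisible by `a`, the coefficient at `i₀`
is a unit, `a • y` and `wm * y` are integral, then `y` is integral. -/
theorem rvIsInt_of_smul_of_mul {a : A} (ha : a ≠ 0) (wm : LaurentSeries A) (i₀ : ℤ)
    (hunit : IsUnit (wm.coeff i₀)) (hlow : ∀ i, i < i₀ → a ∣ wm.coeff i)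
    {y : LaurentSeries L} (h1 : RvIsInt A ((a : L) • y)) (h2 : RvIsInt A (rvIota A wm * y)) :
    RvIsInt A y := by
  obtain ⟨z, hz⟩ := h1.exists_eq
  obtain ⟨w, hw⟩ := h2.exists_eq
  -- `wm * z = a • w`
  have hmul : wm * z = a • w := by
    apply rvIota_injective A
    rw [map_mul, hz, rvIota_smul, hw, rv_mul_smul]
  -- reduce modulo `a`
  let B := A ⧸ Ideal.span {a}
  let q : LaurentSeries A →+* LaurentSeries B := coeffMap (Ideal.Quotient.mk (Ideal.span {a}))
  have hq0 : q (a • w) = 0 := by
    ext j
    simp only [q, coeffMap_coeff, HahnSeries.coeff_smul, smul_eq_mul, map_mul,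
      HahnSeries.coeff_zero]
    rw [Ideal.Quotient.eq_zero_iff_mem.mpr (Ideal.mem_span_singleton_self a), zero_mul]
  have hqu : IsUnit (q wm) := by
    rcases subsingleton_or_nontrivial B with hB | hB
    · have hsub : Subsingleton (LaurentSeries B) :=
        ⟨fun x y => by ext j; exact Subsingleton.elim _ _⟩
      exact isUnit_of_subsingleton _
    · have hc0 : (q wm).coeff i₀ ≠ 0 := by
        have : IsUnit ((q wm).coeff i₀) := hunit.map (Ideal.Quotient.mk (Ideal.span {a}))
        exact this.ne_zero
      have hne : q wm ≠ 0 := fun h => hc0 (by rw [h, HahnSeries.coeff_zero])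
      have hle : (q wm).order ≤ i₀ := HahnSeries.order_le_of_coeff_ne_zero hc0
      have hord : (q wm).order = i₀ := by
        refine le_antisymm hle (not_lt.mp fun hlt => ?_)
        have hcn : (q wm).coeff (q wm).order ≠ 0 := fun h0 =>
          hne (HahnSeries.coeff_order_eq_zero.mp h0)
        apply hcn
        show Ideal.Quotient.mk (Ideal.span {a}) (wm.coeff (q wm).order) = 0
        rw [Ideal.Quotient.eq_zero_iff_mem, Ideal.mem_span_singleton]
        exact hlow _ hlt
      refine HahnSeries.isUnit_of_isUnit_leadingCoeff_AddUnitOrder ?_ (AddGroup.isAddUnit _)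
      rw [HahnSeries.leadingCoeff_eq, hord]
      exact hunit.map (Ideal.Quotient.mk (Ideal.span {a}))
  have hqz : q z = 0 := by
    have h := congrArg q hmul
    rw [map_mul, hq0] at h
    exact (hqu.mul_right_eq_zero).mp h
  intro j
  have hj : a ∣ z.coeff j := by
    have := congrArg (fun s => HahnSeries.coeff s j) hqz
    simp only [q, coeffMap_coeff, HahnSeries.coeff_zero] at this
    rwa [Ideal.Quotient.eq_zero_iff_mem, Ideal.mem_span_singleton] at this
  obtain ⟨c, hc⟩ := hj
  have hzj : (z.coeff j : L) = (a : L) * y.coeff j := by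
    have := congrArg (fun s => HahnSeries.coeff s j) hz
    simpa [rvIota_coeff, HahnSeries.coeff_smul] using this
  have haL : (a : L) ≠ 0 := fun h => ha (Subtype.ext h)
  have : y.coeff j = (c : L) := by
    have h3 : (a : L) * y.coeff j = (a : L) * (c : L) := by
      rw [← hzj, hc]
      rfl
    exact mul_left_cancel₀ haL h3
  rw [this]
  exact c.2

/-- **Boundedness lemma.** If `wm * x = wp` with `wm`, `wp` integral, `wm` having a unit
coefficient, and `x` bounded, then `x` is integral. -/
theorem rvIsInt_of_mul_eq (hArch : RvArch A) (wm wp : LaurentSeries A)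
    (hw : ∃ i, IsUnit (wm.coeff i)) (x : LaurentSeries L)
    (hbdd : ∃ γ : A, γ ≠ 0 ∧ RvIsInt A ((γ : L) • x))
    (h : rvIota A wm * x = rvIota A wp) : RvIsInt A x := by
  classical
  -- the first index with a unit coefficient
  let S : Set ℤ := {i | IsUnit (wm.coeff i)}
  have hSsub : S ⊆ wm.support := fun i hi => by
    simp only [HahnSeries.mem_support]
    exact IsUnit.ne_zero hi
  have hSwf : S.IsWF := wm.isWF_support.mono hSsub
  have hSne : S.Nonempty := hw
  let i₀ := hSwf.min hSne
  have hi₀ : IsUnit (wm.coeff i₀) := hSwf.min_mem hSne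
  have hlowNU : ∀ i, i < i₀ → ¬ IsUnit (wm.coeff i) := fun i hi hu =>
    hSwf.not_lt_min hSne (show i ∈ S from hu) hi
  have hwm0 : wm ≠ 0 := fun h0 => by
    rw [h0, HahnSeries.coeff_zero] at hi₀
    exact not_isUnit_zero hi₀
  -- the ideal generated by the lower coefficients
  let T : Finset ℤ := Finset.Ico wm.order i₀
  let I : Ideal A := Ideal.span ((fun i => wm.coeff i) '' (T : Set ℤ))
  have hIfg : I.FG := ⟨T.image (fun i => wm.coeff i), by simp [I]⟩
  have hIpr : I.IsPrincipal := IsBezout.isPrincipal_of_FG I hIfg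
  obtain ⟨a, ha⟩ := hIpr
  have hlowmem : ∀ i, i < i₀ → wm.coeff i ∈ I := by
    intro i hi
    by_cases hio : wm.order ≤ i
    · exact Ideal.subset_span ⟨i, by simp [T, hio, hi], rfl⟩
    · rw [HahnSeries.coeff_eq_zero_of_lt_order (not_le.mp hio)]
      exact I.zero_mem
  have hlow : ∀ i, i < i₀ → a ∣ wm.coeff i := by
    intro i hi
    have := hlowmem i hi
    rw [ha] at this
    exact Ideal.mem_span_singleton.mp this
  have haI : a ∈ I := by
    rw [ha]
    exact Ideal.mem_span_singleton_self a
  have hanu : ¬ IsUnit a := by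
    have hIle : I ≤ IsLocalRing.maximalIdeal A := by
      refine Ideal.span_le.mpr ?_
      rintro _ ⟨i, hi, rfl⟩
      have hi' : i < i₀ := by
        have := Finset.mem_coe.mp hi
        exact (Finset.mem_Ico.mp this).2
      exact (IsLocalRing.mem_maximalIdeal _).mpr (hlowNU i hi')
    exact (IsLocalRing.mem_maximalIdeal _).mp (hIle haI)
  have hint : RvIsInt A (rvIota A wm * x) := h ▸ rvIsInt_iota A wp
  by_cases ha0 : a = 0
  · -- `wm` is a unit of `A((q))`
    have hlow0 : ∀ i, i < i₀ → wm.coeff i = 0 := fun i hi => by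
      have := hlow i hi
      rwa [ha0, zero_dvd_iff] at this
    have hord : wm.order = i₀ := by
      refine le_antisymm (HahnSeries.order_le_of_coeff_ne_zero hi₀.ne_zero)
        (not_lt.mp fun hlt => ?_)
      exact hwm0 (HahnSeries.coeff_order_eq_zero.mp (hlow0 _ hlt))
    have hu : IsUnit wm := by
      refine HahnSeries.isUnit_of_isUnit_leadingCoeff_AddUnitOrder ?_ (AddGroup.isAddUnit _)
      rw [HahnSeries.leadingCoeff_eq, hord]
      exact hi₀
    obtain ⟨u, hu⟩ := hu
    have hx : x = rvIota A ((↑u⁻¹ : LaurentSeries A) * wp) := by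
      have h1 : rvIota A (↑u⁻¹ : LaurentSeries A) * rvIota A wm = 1 := by
        rw [← map_mul, ← hu, Units.inv_mul, map_one]
      calc x = (rvIota A (↑u⁻¹ : LaurentSeries A) * rvIota A wm) * x := by rw [h1, one_mul]
        _ = rvIota A (↑u⁻¹ : LaurentSeries A) * (rvIota A wm * x) := by ring
        _ = _ := by rw [h, map_mul]
    rw [hx]
    exact rvIsInt_iota A _
  · obtain ⟨γ, hγ0, hγ⟩ := hbdd
    obtain ⟨n, c, hc⟩ := hArch a γ hγ0 hanu
    have hn : RvIsInt A (((a ^ n : A) : L) • x) := by
      have : ((a ^ n : A) : L) • x = (c : L) • ((γ : L) • x) := by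
        rw [smul_smul, hc]
        congr 1
        push_cast
        ring
      rw [this]
      exact hγ.smul c.2
    clear hc
    induction n with
    | zero => simpa using hn
    | succ n ih =>
      apply ih
      refine rvIsInt_of_smul_of_mul ha0 wm i₀ hi₀ hlow ?_ ?_
      · have : (a : L) • ((a ^ n : A) : L) • x = ((a ^ (n + 1) : A) : L) • x := by
          rw [smul_smul]
          congr 1
          push_cast
          ring
        rw [this]
        exact hn
      · rw [rv_mul_smul]
        exact hint.smul (a ^ n).2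

end RedBdd

end Fermat.Agent.H18
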