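import Mathlib
import Fermat.Prelude.Def_FLTPrelim_Ramification
import Fermat.Agent.H18.RedBdd

/-!
# Valuation subrings of algebraic extensions of `ℚ` over a prime are archimedean

`rvArch_of_liesOverPrime` : if `L / ℚ` is algebraic and `A ⊆ L` is a valuation subring with
`(ℓ : L) ∈ A.nonunits` (`ℓ` prime), then `RvArch A`: every nonzero element of `A` divides a power
of every nonunit.
-/

set_option autoImplicit false
set_option linter.unusedSectionVars false
set_option linter.style.haveILetI false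

noncomputable section

namespace Fermat.Agent.H18

section RedArch

variable {L : Type*} [Field L] [CharZero L] (A : ValuationSubring L) {ℓ : ℕ}

theorem rv_natCast_mem_maximalIdeal (hA : A.LiesOverPrime ℓ) :
    ((ℓ : ℕ) : A) ∈ IsLocalRing.maximalIdeal A := by
  obtain ⟨ha, hm⟩ := (ValuationSubring.mem_nonunits_iff_exists_mem_maximalIdeal).mp hA
  have : (⟨(ℓ : L), ha⟩ : A) = ((ℓ : ℕ) : A) := Subtype.ext (by simp)
  rwa [this] at hm

/-- integers prime to `ℓ` are units of `A` -/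
theorem rv_isUnit_intCast (hℓ : ℓ.Prime) (hA : A.LiesOverPrime ℓ) {n : ℤ}
    (hn : ¬ (ℓ : ℤ) ∣ n) : IsUnit ((n : ℤ) : A) := by
  have hcop : IsCoprime n (ℓ : ℤ) := by
    have hp : Prime (ℓ : ℤ) := Nat.prime_iff_prime_int.mp hℓ
    exact ((Prime.coprime_iff_not_dvd hp).mpr hn).symm
  obtain ⟨u, w, huw⟩ := hcop
  have h1 : ((u : ℤ) : A) * ((n : ℤ) : A) = 1 - ((w : ℤ) : A) * ((ℓ : ℕ) : A) := by
    have := congrArg (fun z : ℤ => (z : A)) huw
    simp only [Int.cast_add, Int.cast_mul, Int.cast_one, Int.cast_natCast] at this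
    rw [← this]
    ring
  have hm : ((w : ℤ) : A) * ((ℓ : ℕ) : A) ∈ IsLocalRing.maximalIdeal A :=
    Ideal.mul_mem_left _ _ (rv_natCast_mem_maximalIdeal A hA)
  have hu : IsUnit (1 - ((w : ℤ) : A) * ((ℓ : ℕ) : A)) :=
    IsLocalRing.isUnit_one_sub_self_of_mem_nonunits _ ((IsLocalRing.mem_maximalIdeal _).mp hm)
  rw [← h1] at hu
  exact isUnit_of_mul_isUnit_right hu

/-- (R1) every nonzero element of `A` divides a power of `ℓ` -/
theorem rv_dvd_pow_prime (hℓ : ℓ.Prime) (hA : A.LiesOverPrime ℓ)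
    (halg : ∀ x : L, IsAlgebraic ℤ x) {b : A} (hb : b ≠ 0) :
    ∃ e : ℕ, b ∣ ((ℓ : ℕ) : A) ^ e := by
  have hbL : (b : L) ≠ 0 := fun h => hb (Subtype.ext h)
  obtain ⟨n, hn0, hn⟩ := (halg (b : L)⁻¹).exists_integral_multiple
  have hint : IsIntegral A (n • (b : L)⁻¹) := hn.tower_top
  obtain ⟨y, hy⟩ := (IsIntegrallyClosed.isIntegral_iff (R := A) (K := L)).mp hint
  -- `n = b * y` in `A`
  have hny : ((n : ℤ) : A) = b * y := by
    apply Subtype.ext
    have hy' : (y : L) = n • (b : L)⁻¹ := hy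
    push_cast
    rw [hy', zsmul_eq_mul]
    field_simp
  -- split off the power of `ℓ`
  have hnat : n.natAbs ≠ 0 := Int.natAbs_ne_zero.mpr hn0
  obtain ⟨e, n', hn', hnn'⟩ := Nat.exists_eq_pow_mul_and_not_dvd hnat ℓ hℓ.ne_one
  have hu : IsUnit ((n' : ℤ) : A) := by
    refine rv_isUnit_intCast A hℓ hA ?_
    exact_mod_cast hn'
  obtain ⟨u, hu⟩ := hu
  have habs : ((n.natAbs : ℕ) : A) = ((ℓ : ℕ) : A) ^ e * ((n' : ℤ) : A) := by
    rw [hnn']
    push_cast
    ring
  have hdvd : b ∣ ((n.natAbs : ℕ) : A) := by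
    rcases Int.natAbs_eq n with h | h
    · refine ⟨y, ?_⟩
      rw [← hny]
      conv_rhs => rw [h]
      simp
    · refine ⟨-y, ?_⟩
      rw [mul_neg, ← hny]
      conv_rhs => rw [h]
      simp
  refine ⟨e, ?_⟩
  have : ((ℓ : ℕ) : A) ^ e = ((n.natAbs : ℕ) : A) * (↑u⁻¹ : A) := by
    rw [habs, ← hu, mul_assoc, Units.mul_inv, mul_one]
  rw [this]
  exact Dvd.dvd.mul_right hdvd _

/-- (R2) a power of every nonunit of `A` is divisible by `ℓ` -/
theorem rv_prime_dvd_pow (hℓ : ℓ.Prime) (hA : A.LiesOverPrime ℓ)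
    (halg : ∀ x : L, IsAlgebraic ℤ x) {a : A} (ha : ¬ IsUnit a) :
    ∃ n : ℕ, ((ℓ : ℕ) : A) ∣ a ^ n := by
  classical
  obtain ⟨p, hp0, hp⟩ := halg (a : L)
  set g : Polynomial ℤ := p.primPart with hg
  have hg0 : g ≠ 0 := Polynomial.primPart_ne_zero p
  have hgprim : g.IsPrimitive := Polynomial.isPrimitive_primPart p
  have hga : Polynomial.aeval (a : L) g = 0 := by
    have h1 : p = Polynomial.C p.content * g := Polynomial.eq_C_content_mul_primPart p
    rw [h1, map_mul, Polynomial.aeval_C] at hp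
    rcases mul_eq_zero.mp hp with h | h
    · exfalso
      have : p.content = 0 := by
        have h2 : ((p.content : ℤ) : L) = 0 := by simpa using h
        exact_mod_cast h2
      exact hp0 (Polynomial.content_eq_zero_iff.mp this)
    · exact h
  -- evaluation inside `A`
  have hgA : Polynomial.eval₂ (Int.castRingHom A) a g = 0 := by
    apply Subtype.ext
    have h1 : ((Polynomial.eval₂ (Int.castRingHom A) a g : A) : L) =
        Polynomial.eval₂ (Int.castRingHom L) (a : L) g := by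
      have := Polynomial.hom_eval₂ g (Int.castRingHom A) A.subtype a
      rw [show A.subtype.comp (Int.castRingHom A) = Int.castRingHom L from
        RingHom.ext_int _ _] at this
      exact this
    rw [h1]
    have h2 : Polynomial.aeval (a : L) g = Polynomial.eval₂ (Int.castRingHom L) (a : L) g := by
      rw [Polynomial.aeval_def]
      congr 1
    rw [← h2, hga]
    rfl
  -- the first coefficient prime to `ℓ`
  have hex : ∃ i, ¬ (ℓ : ℤ) ∣ g.coeff i := by
    by_contra hcon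
    push Not at hcon
    have hdvd : Polynomial.C (ℓ : ℤ) ∣ g := (Polynomial.C_dvd_iff_dvd_coeff _ _).mpr hcon
    have hu := hgprim _ hdvd
    have : (ℓ : ℤ).natAbs = 1 := Int.isUnit_iff_natAbs_eq.mp hu
    simp only [Int.natAbs_natCast] at this
    exact hℓ.ne_one this
  let i₁ := Nat.find hex
  have hi₁ : ¬ (ℓ : ℤ) ∣ g.coeff i₁ := Nat.find_spec hex
  have hlow : ∀ i, i < i₁ → (ℓ : ℤ) ∣ g.coeff i := fun i hi => by
    by_contra h
    exact Nat.find_min hex hi h
  refine ⟨i₁, ?_⟩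
  rw [Polynomial.eval₂_eq_sum_range] at hgA
  rw [← Finset.sum_filter_add_sum_filter_not _ (fun i => i < i₁)] at hgA
  set Slow := ∑ i ∈ (Finset.range (g.natDegree + 1)).filter (fun i => i < i₁),
    (Int.castRingHom A) (g.coeff i) * a ^ i with hSlow
  set Shigh := ∑ i ∈ (Finset.range (g.natDegree + 1)).filter (fun i => ¬ i < i₁),
    (Int.castRingHom A) (g.coeff i) * a ^ i with hShigh
  have hSlow_dvd : ((ℓ : ℕ) : A) ∣ Slow := by
    refine Finset.dvd_sum fun i hi => ?_
    have hi' : i < i₁ := (Finset.mem_filter.mp hi).2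
    obtain ⟨c, hc⟩ := hlow i hi'
    refine Dvd.dvd.mul_right ⟨((c : ℤ) : A), ?_⟩ _
    rw [hc]
    simp
  -- the high part is `a ^ i₁ * T`
  set T := ∑ i ∈ (Finset.range (g.natDegree + 1)).filter (fun i => ¬ i < i₁),
    (Int.castRingHom A) (g.coeff i) * a ^ (i - i₁) with hT
  have hST : Shigh = a ^ i₁ * T := by
    rw [hShigh, hT, Finset.mul_sum]
    refine Finset.sum_congr rfl fun i hi => ?_
    have hi' : i₁ ≤ i := not_lt.mp (Finset.mem_filter.mp hi).2
    have : a ^ i = a ^ i₁ * a ^ (i - i₁) := by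
      rw [← pow_add, Nat.add_sub_cancel' hi']
    rw [this]
    ring
  -- `T` is a unit
  have hi₁mem : i₁ ∈ (Finset.range (g.natDegree + 1)).filter (fun i => ¬ i < i₁) := by
    refine Finset.mem_filter.mpr ⟨?_, lt_irrefl _⟩
    rw [Finset.mem_range]
    have hc : g.coeff i₁ ≠ 0 := fun h0 => hi₁ (h0 ▸ dvd_zero _)
    exact Nat.lt_succ_of_le (Polynomial.le_natDegree_of_ne_zero hc)
  have hTunit : IsUnit T := by
    rw [hT, ← Finset.add_sum_erase _ _ hi₁mem]
    have hu : IsUnit ((Int.castRingHom A) (g.coeff i₁) * a ^ (i₁ - i₁)) := by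
      rw [Nat.sub_self, pow_zero, mul_one]
      exact rv_isUnit_intCast A hℓ hA hi₁
    have hm : ∑ i ∈ ((Finset.range (g.natDegree + 1)).filter (fun i => ¬ i < i₁)).erase i₁,
        (Int.castRingHom A) (g.coeff i) * a ^ (i - i₁) ∈ IsLocalRing.maximalIdeal A := by
      refine Ideal.sum_mem _ fun i hi => ?_
      have hne : i ≠ i₁ := (Finset.mem_erase.mp hi).1
      have hge : i₁ ≤ i := not_lt.mp (Finset.mem_filter.mp (Finset.mem_erase.mp hi).2).2
      have hpos : i - i₁ ≠ 0 := by omega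
      refine Ideal.mul_mem_left _ _ ?_
      exact Ideal.pow_mem_of_mem _ ((IsLocalRing.mem_maximalIdeal _).mpr ha) _
        (Nat.pos_of_ne_zero hpos)
    by_contra hnu
    have h1 : (Int.castRingHom A) (g.coeff i₁) * a ^ (i₁ - i₁) +
        ∑ i ∈ ((Finset.range (g.natDegree + 1)).filter (fun i => ¬ i < i₁)).erase i₁,
          (Int.castRingHom A) (g.coeff i) * a ^ (i - i₁) ∈ IsLocalRing.maximalIdeal A :=
      (IsLocalRing.mem_maximalIdeal _).mpr hnu
    have h2 := (Ideal.add_mem_iff_left _ hm).mp h1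
    exact (IsLocalRing.mem_maximalIdeal _).mp h2 hu
  obtain ⟨u, hu⟩ := hTunit
  have h3 : a ^ i₁ * T = -Slow := by
    rw [← hST]
    exact eq_neg_of_add_eq_zero_right hgA
  have h4 : a ^ i₁ = -Slow * (↑u⁻¹ : A) := by
    rw [← h3, ← hu, mul_assoc, Units.mul_inv, mul_one]
  rw [h4]
  exact Dvd.dvd.mul_right ((dvd_neg).mpr hSlow_dvd) _

/-- **Valuation subrings over a prime in an algebraic extension of `ℚ` are archimedean.** -/
theorem rvArch_of_liesOverPrime (hℓ : ℓ.Prime) (hA : A.LiesOverPrime ℓ)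
    (halg : ∀ x : L, IsAlgebraic ℤ x) : RvArch A := by
  intro a b hb ha
  obtain ⟨e, he⟩ := rv_dvd_pow_prime A hℓ hA halg hb
  obtain ⟨n, hn⟩ := rv_prime_dvd_pow A hℓ hA halg ha
  refine ⟨n * e, he.trans ?_⟩
  rw [pow_mul]
  exact pow_dvd_pow_of_dvd hn e

theorem rv_isAlgebraic_int_algebraicClosure (x : AlgebraicClosure ℚ) : IsAlgebraic ℤ x := by
  letI : Algebra ℚ (AlgebraicClosure ℚ) := AlgebraicClosure.instAlgebra ℚ
  have h1 : IsAlgebraic ℚ x := (AlgebraicClosure.isAlgebraic ℚ).isAlgebraic x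
  exact (IsFractionRing.isAlgebraic_iff ℤ ℚ (AlgebraicClosure ℚ)).mpr h1

/-- the case of `ℚ̄` -/
theorem rvArch_algebraicClosure (A : ValuationSubring (AlgebraicClosure ℚ)) {ℓ : ℕ}
    (hℓ : ℓ.Prime) (hA : A.LiesOverPrime ℓ) : RvArch A :=
  rvArch_of_liesOverPrime A hℓ hA rv_isAlgebraic_int_algebraicClosure

end RedArch

end Fermat.Agent.H18
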