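import Mathlib
import Fermat.Prelude.Def_ModularCurve_LaurentCoeff
import Fermat.Agent.H18.RedBdd

/-!
# The pivot lemma (Gaussian elimination on q-expansions)

`A ⊆ L` a valuation subring, `π : A →+* k` with kernel the nonunits.  If `U₁, …, U_j ∈ A((q))`
have `k`-linearly independent reductions, then every `G ∈ L((q))` can be corrected by an
`L`-linear combination of the `ι Uᵢ` to a series `G'` with the property: whenever
`G' = γ • ι W` with `γ ≠ 0` and `W` integral, the reduction of `W` is either zero or not a
`k`-linear combination of the reductions of the `Uᵢ`.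
-/

set_option autoImplicit false
set_option linter.unusedSectionVars false
set_option linter.style.haveILetI false

noncomputable section

open ModularCurve

namespace Fermat.Agent.H18

section RedPivot

variable {L : Type*} [Field L] {A : ValuationSubring L}
variable {k : Type*} [Field k] {π : A →+* k}

theorem rv_coeff_C_mul {R : Type*} [CommRing R] (c : R) (x : LaurentSeries R) (n : ℤ) :
    (HahnSeries.C c * x).coeff n = c * x.coeff n := by
  rw [HahnSeries.C_mul_eq_smul, HahnSeries.coeff_smul, smul_eq_mul]

theorem rv_coeffMap_C {R S : Type*} [CommRing R] [CommRing S] (f : R →+* S) (c : R) :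
    coeffMap f (HahnSeries.C c : LaurentSeries R) = HahnSeries.C (f c) :=
  coeffMap_single f 0 c

/-- explicit linear independence of a finite family of Laurent series -/
def RvIndep {j : ℕ} (V : Fin j → LaurentSeries k) : Prop :=
  ∀ g : Fin j → k, ∑ i, HahnSeries.C (g i) * V i = 0 → ∀ i, g i = 0

/-- the property produced by the pivot lemma -/
def RvPivoted (π : A →+* k) {j : ℕ} (U : Fin j → LaurentSeries A) (G' : LaurentSeries L) : Prop :=
  ∀ (γ : L) (W : LaurentSeries A), γ ≠ 0 → G' = HahnSeries.C γ * rvIota A W →
    ∀ g : Fin j → k, coeffMap π W = ∑ i, HahnSeries.C (g i) * coeffMap π (U i) →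
      coeffMap π W = 0

/-- **Pivot lemma.** -/
theorem rv_pivot (hker : ∀ a : A, π a = 0 ↔ ¬ IsUnit a) :
    ∀ (j : ℕ) (U : Fin j → LaurentSeries A), RvIndep (fun i => coeffMap π (U i)) →
      ∀ G : LaurentSeries L, ∃ c : Fin j → L,
        RvPivoted π U (G - ∑ i, HahnSeries.C (c i) * rvIota A (U i)) := by
  intro j
  induction j with
  | zero =>
    intro U _ G
    refine ⟨fun _ => 0, fun γ W _ _ g hg => ?_⟩
    rw [hg]
    simp
  | succ j ih =>
    intro U hU G
    -- a pivot index for `U 0`
    have hU0 : coeffMap π (U 0) ≠ 0 := by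
      intro h0
      have := hU (Pi.single 0 1) (by
        beta_reduce
        rw [Finset.sum_eq_single 0]
        · rw [h0, mul_zero]
        · intro i _ hi
          rw [Pi.single_eq_of_ne hi, map_zero, zero_mul]
        · intro h; exact absurd (Finset.mem_univ _) h) 0
      rw [Pi.single_eq_same] at this
      exact one_ne_zero this
    obtain ⟨n₀, hn₀⟩ : ∃ n₀, π ((U 0).coeff n₀) ≠ 0 := by
      by_contra hcon
      push Not at hcon
      apply hU0
      ext n
      rw [coeffMap_coeff, HahnSeries.coeff_zero]
      exact hcon n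
    have hu : IsUnit ((U 0).coeff n₀) := by
      by_contra hnu
      exact hn₀ ((hker _).mpr hnu)
    obtain ⟨u, hu⟩ := hu
    set v₀ : A := ↑u⁻¹ with hv₀
    have hvu : v₀ * (U 0).coeff n₀ = 1 := by
      rw [← hu]
      exact Units.inv_mul u
    have hvuL : (v₀ : L) * ((U 0).coeff n₀ : L) = 1 := by
      have := congrArg Subtype.val hvu
      simpa using this
    have hvuk : π v₀ * π ((U 0).coeff n₀) = 1 := by
      rw [← map_mul, hvu, map_one]
    -- the modified family
    let a : Fin j → A := fun i => (U i.succ).coeff n₀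
    let U' : Fin j → LaurentSeries A := fun i => U i.succ - HahnSeries.C (a i * v₀) * U 0
    have hU'n : ∀ i, (U' i).coeff n₀ = 0 := by
      intro i
      show (U i.succ - HahnSeries.C (a i * v₀) * U 0).coeff n₀ = 0
      rw [HahnSeries.coeff_sub, rv_coeff_C_mul, mul_assoc, hvu, mul_one]
      exact sub_self _
    have hρU' : ∀ i, coeffMap π (U' i) =
        coeffMap π (U i.succ) - HahnSeries.C (π (a i * v₀)) * coeffMap π (U 0) := by
      intro i
      show coeffMap π (U i.succ - HahnSeries.C (a i * v₀) * U 0) = _
      rw [map_sub, map_mul, rv_coeffMap_C]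
    have hιU' : ∀ i, rvIota A (U' i) =
        rvIota A (U i.succ) - HahnSeries.C ((a i : L) * (v₀ : L)) * rvIota A (U 0) := by
      intro i
      show rvIota A (U i.succ - HahnSeries.C (a i * v₀) * U 0) = _
      rw [map_sub, map_mul, rv_coeffMap_C]
      rfl
    have hU'ind : RvIndep (fun i => coeffMap π (U' i)) := by
      intro g hg
      have key : ∑ i : Fin (j + 1),
          HahnSeries.C ((Fin.cons (-∑ i, g i * π (a i * v₀)) g : Fin (j + 1) → k) i) *
            coeffMap π (U i) = 0 := by
        rw [Fin.sum_univ_succ]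
        simp only [Fin.cons_zero, Fin.cons_succ]
        rw [← hg]
        simp only [hρU', mul_sub, Finset.sum_sub_distrib]
        rw [map_neg, map_sum, neg_mul, Finset.sum_mul]
        have : ∀ i : Fin j, HahnSeries.C (g i * π (a i * v₀)) * coeffMap π (U 0)
            = HahnSeries.C (g i) * (HahnSeries.C (π (a i * v₀)) * coeffMap π (U 0)) := by
          intro i
          rw [map_mul]
          ring
        simp only [this]
        ring
      have h2 := hU _ key
      intro i
      have := h2 i.succ
      rwa [Fin.cons_succ] at this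
    -- first correction of `G`
    let G₁ : LaurentSeries L := G - HahnSeries.C (G.coeff n₀ * (v₀ : L)) * rvIota A (U 0)
    have hG₁n : G₁.coeff n₀ = 0 := by
      show (G - HahnSeries.C (G.coeff n₀ * (v₀ : L)) * rvIota A (U 0)).coeff n₀ = 0
      rw [HahnSeries.coeff_sub, rv_coeff_C_mul, rvIota_coeff, mul_assoc, hvuL, mul_one]
      exact sub_self _
    obtain ⟨c', hc'⟩ := ih U' hU'ind G₁
    refine ⟨Fin.cons (G.coeff n₀ * (v₀ : L) - ∑ i, c' i * ((a i : L) * (v₀ : L))) c', ?_⟩
    have hG'eq : G - ∑ i : Fin (j + 1),
          HahnSeries.C ((Fin.cons (G.coeff n₀ * (v₀ : L) - ∑ i, c' i * ((a i : L) * (v₀ : L))) c'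
            : Fin (j + 1) → L) i) * rvIota A (U i)
        = G₁ - ∑ i, HahnSeries.C (c' i) * rvIota A (U' i) := by
      rw [Fin.sum_univ_succ]
      simp only [Fin.cons_zero, Fin.cons_succ]
      simp only [hιU', mul_sub, Finset.sum_sub_distrib]
      rw [map_sub, map_sum, sub_mul, Finset.sum_mul]
      have : ∀ i : Fin j, HahnSeries.C (c' i * ((a i : L) * (v₀ : L))) * rvIota A (U 0)
          = HahnSeries.C (c' i) * (HahnSeries.C ((a i : L) * (v₀ : L)) * rvIota A (U 0)) := by
        intro i
        rw [map_mul (HahnSeries.C) (c' i)]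
        ring
      simp only [this]
      show _ = G - HahnSeries.C (G.coeff n₀ * (v₀ : L)) * rvIota A (U 0) - _
      ring
    rw [hG'eq]
    intro γ W hγ hW g hg
    -- the coefficient of `W` at the pivot vanishes
    have hWn : W.coeff n₀ = 0 := by
      have h1 := congrArg (fun s => HahnSeries.coeff s n₀) hW
      simp only [HahnSeries.coeff_sub, hG₁n, HahnSeries.coeff_sum, rv_coeff_C_mul,
        rvIota_coeff, hU'n, ZeroMemClass.coe_zero, mul_zero, Finset.sum_const_zero,
        sub_zero] at h1
      have h2 : ((W.coeff n₀ : A) : L) = 0 := by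
        rcases mul_eq_zero.mp h1.symm with h | h
        · exact absurd h hγ
        · exact h
      exact Subtype.ext h2
    -- rewrite the combination in terms of `U 0` and `U'`
    have hcomb : coeffMap π W = HahnSeries.C (g 0 + ∑ i : Fin j, g i.succ * π (a i * v₀)) *
        coeffMap π (U 0) + ∑ i : Fin j, HahnSeries.C (g i.succ) * coeffMap π (U' i) := by
      rw [hg, Fin.sum_univ_succ]
      simp only [hρU', mul_sub, Finset.sum_sub_distrib]
      rw [map_add, map_sum, add_mul, Finset.sum_mul]
      have : ∀ i : Fin j, HahnSeries.C (g i.succ * π (a i * v₀)) * coeffMap π (U 0)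
          = HahnSeries.C (g i.succ) * (HahnSeries.C (π (a i * v₀)) * coeffMap π (U 0)) := by
        intro i
        rw [map_mul (HahnSeries.C) (g i.succ)]
        ring
      simp only [this]
      ring
    have hlam : g 0 + ∑ i : Fin j, g i.succ * π (a i * v₀) = 0 := by
      have h1 := congrArg (fun s => HahnSeries.coeff s n₀) hcomb
      simp only [HahnSeries.coeff_add, HahnSeries.coeff_sum, rv_coeff_C_mul, coeffMap_coeff,
        hU'n, hWn, map_zero, mul_zero, Finset.sum_const_zero, add_zero] at h1
      rcases mul_eq_zero.mp h1.symm with h | h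
      · exact h
      · exact absurd h hn₀
    rw [hlam, map_zero, zero_mul, zero_add] at hcomb
    exact hc' γ W hγ hW (fun i => g i.succ) hcomb

end RedPivot

end Fermat.Agent.H18
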