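import Mathlib
import Fermat.Prelude.Def_ModularCurve_ReductionModL
import Fermat.Agent.H18.RedBdd

/-!
# The Gauss valuation ring of the modular function field and its reduction map

Setting of the prelude's `ReductionInputsAlong A π N`: `A` a valuation subring of `L`,
`π : A →+* k`.  `F_L := laurentBaseChange L (modularFunctionFieldFull N)`,
`F_k := modularFunctionFieldFullC k N`.

* `rvRing A π N : Subring F_L` : fractions `ι y₊ / ι y₋` of integral Laurent series with
  `ρ y₋ ≠ 0` and `ρ y± ∈ F_k`;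
* `rvRed A π N : rvRing A π N →+* F_k` : the reduction map `ι y₊ / ι y₋ ↦ ρ y₊ / ρ y₋`.
-/

set_option autoImplicit false
set_option linter.unusedSectionVars false
set_option linter.style.haveILetI false

noncomputable section

open ModularCurve AlgebraicCurve

namespace Fermat.Agent.H18

section RedVal

variable {L : Type*} [Field L] [Algebra ℚ L] (A : ValuationSubring L)
variable {k : Type*} [Field k] (π : A →+* k) (N : ℕ)

/-- the function field `F_L` -/
abbrev rvFL (L : Type*) [Field L] [Algebra ℚ L] (N : ℕ) :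
    IntermediateField L (LaurentSeries L) :=
  laurentBaseChange L (modularFunctionFieldFull N)

/-- the function field `F_k` -/
abbrev rvFk (k : Type*) [Field k] (N : ℕ) : IntermediateField k (LaurentSeries k) :=
  modularFunctionFieldFullC k N

/-- coefficientwise reduction `A((q)) → k((q))` -/
abbrev rvRho : LaurentSeries A →+* LaurentSeries k := coeffMap π

/-- integral series in `F_L` whose reduction lies in `F_k` -/
def RvNum (y : LaurentSeries A) : Prop :=
  rvIota A y ∈ rvFL L N ∧ rvRho A π y ∈ rvFk k N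

/-- good denominators: moreover the reduction is nonzero -/
def RvGood (y : LaurentSeries A) : Prop :=
  rvIota A y ∈ rvFL L N ∧ rvRho A π y ∈ rvFk k N ∧ rvRho A π y ≠ 0

variable {A π N}

theorem RvGood.num {y : LaurentSeries A} (h : RvGood A π N y) : RvNum A π N y := ⟨h.1, h.2.1⟩

theorem RvGood.ne_zero {y : LaurentSeries A} (h : RvGood A π N y) : y ≠ 0 := fun h0 =>
  h.2.2 (by rw [h0, map_zero])

theorem RvGood.iota_ne_zero {y : LaurentSeries A} (h : RvGood A π N y) : rvIota A y ≠ 0 :=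
  fun h0 => h.ne_zero (rvIota_injective A (by rw [h0, map_zero]))

theorem rvGood_one : RvGood A π N 1 := by
  refine ⟨?_, ?_, ?_⟩
  · rw [map_one]; exact one_mem _
  · rw [map_one]; exact one_mem _
  · rw [map_one]; exact one_ne_zero

theorem RvGood.mul {y z : LaurentSeries A} (hy : RvGood A π N y) (hz : RvGood A π N z) :
    RvGood A π N (y * z) := by
  refine ⟨?_, ?_, ?_⟩
  · rw [map_mul]; exact mul_mem hy.1 hz.1
  · rw [map_mul]; exact mul_mem hy.2.1 hz.2.1
  · rw [map_mul]; exact mul_ne_zero hy.2.2 hz.2.2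

theorem RvNum.mul {y z : LaurentSeries A} (hy : RvNum A π N y) (hz : RvNum A π N z) :
    RvNum A π N (y * z) := by
  refine ⟨?_, ?_⟩
  · rw [map_mul]; exact mul_mem hy.1 hz.1
  · rw [map_mul]; exact mul_mem hy.2 hz.2

theorem RvNum.add {y z : LaurentSeries A} (hy : RvNum A π N y) (hz : RvNum A π N z) :
    RvNum A π N (y + z) := by
  refine ⟨?_, ?_⟩
  · rw [map_add]; exact add_mem hy.1 hz.1
  · rw [map_add]; exact add_mem hy.2 hz.2

theorem RvNum.neg {y : LaurentSeries A} (hy : RvNum A π N y) : RvNum A π N (-y) := by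
  refine ⟨?_, ?_⟩
  · rw [map_neg]; exact neg_mem hy.1
  · rw [map_neg]; exact neg_mem hy.2

theorem rvNum_zero : RvNum A π N 0 := by
  refine ⟨?_, ?_⟩
  · rw [map_zero]; exact zero_mem _
  · rw [map_zero]; exact zero_mem _

variable (A π N)

/-- the relation "`f = ι yp / ι ym`" -/
def RvRep (f : LaurentSeries L) (yp ym : LaurentSeries A) : Prop :=
  RvGood A π N ym ∧ RvNum A π N yp ∧ f * rvIota A ym = rvIota A yp

/-- The Gauss valuation ring (as a subring of `F_L`). -/
def rvRing : Subring ↥(rvFL L N) where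
  carrier := {f | ∃ yp ym : LaurentSeries A, RvRep A π N (f : LaurentSeries L) yp ym}
  mul_mem' := by
    rintro f g ⟨yp, ym, hm, hp, h⟩ ⟨zp, zm, hm', hp', h'⟩
    refine ⟨yp * zp, ym * zm, hm.mul hm', hp.mul hp', ?_⟩
    rw [map_mul, map_mul, ← h, ← h']
    push_cast
    ring
  one_mem' := ⟨1, 1, rvGood_one, rvGood_one.num, by simp⟩
  add_mem' := by
    rintro f g ⟨yp, ym, hm, hp, h⟩ ⟨zp, zm, hm', hp', h'⟩
    refine ⟨yp * zm + zp * ym, ym * zm, hm.mul hm', (hp.mul hm'.num).add (hp'.mul hm.num), ?_⟩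
    rw [map_mul, map_add, map_mul, map_mul, ← h, ← h']
    push_cast
    ring
  zero_mem' := ⟨0, 1, rvGood_one, rvNum_zero, by simp⟩
  neg_mem' := by
    rintro f ⟨yp, ym, hm, hp, h⟩
    refine ⟨-yp, ym, hm, hp.neg, ?_⟩
    rw [map_neg, ← h]
    push_cast
    ring

variable {A π N}

theorem mem_rvRing {f : ↥(rvFL L N)} :
    f ∈ rvRing A π N ↔ ∃ yp ym : LaurentSeries A, RvRep A π N (f : LaurentSeries L) yp ym :=
  Iff.rfl

/-- the value of the reduction is independent of the representation -/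
theorem rvRep_unique {f : LaurentSeries L} {yp ym zp zm : LaurentSeries A}
    (h : RvRep A π N f yp ym) (h' : RvRep A π N f zp zm) :
    rvRho A π yp * rvRho A π zm = rvRho A π zp * rvRho A π ym := by
  have e : yp * zm = zp * ym := by
    apply rvIota_injective A
    rw [map_mul, map_mul, ← h.2.2, ← h'.2.2]
    ring
  rw [← map_mul, ← map_mul, e]

variable (A π N)

/-- the reduction map as a function -/
def rvRedFun (f : rvRing A π N) : ↥(rvFk k N) :=
  ⟨rvRho A π (Classical.choose (mem_rvRing.mp f.2)) /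
      rvRho A π (Classical.choose (Classical.choose_spec (mem_rvRing.mp f.2))),
    div_mem (Classical.choose_spec (Classical.choose_spec (mem_rvRing.mp f.2))).2.1.2
      (Classical.choose_spec (Classical.choose_spec (mem_rvRing.mp f.2))).1.2.1⟩

variable {A π N}

theorem rvRedFun_spec (f : rvRing A π N) {yp ym : LaurentSeries A}
    (h : RvRep A π N ((f : ↥(rvFL L N)) : LaurentSeries L) yp ym) :
    ((rvRedFun A π N f : ↥(rvFk k N)) : LaurentSeries k) * rvRho A π ym = rvRho A π yp := by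
  have hc := Classical.choose_spec (Classical.choose_spec (mem_rvRing.mp f.2))
  have hu := rvRep_unique hc h
  show rvRho A π (Classical.choose (mem_rvRing.mp f.2)) /
      rvRho A π (Classical.choose (Classical.choose_spec (mem_rvRing.mp f.2))) * rvRho A π ym
        = rvRho A π yp
  rw [div_mul_eq_mul_div, hu, mul_div_assoc, div_self hc.1.2.2, mul_one]

theorem rvRedFun_eq_of (f : rvRing A π N) {yp ym : LaurentSeries A}
    (h : RvRep A π N ((f : ↥(rvFL L N)) : LaurentSeries L) yp ym) (g : ↥(rvFk k N))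
    (hg : (g : LaurentSeries k) * rvRho A π ym = rvRho A π yp) : rvRedFun A π N f = g := by
  apply Subtype.ext
  have h1 := rvRedFun_spec f h
  have h2 : ((rvRedFun A π N f : ↥(rvFk k N)) : LaurentSeries k) * rvRho A π ym
      = (g : LaurentSeries k) * rvRho A π ym := by rw [h1, hg]
  exact mul_right_cancel₀ h.1.2.2 h2

variable (A π N)

/-- **The reduction map** `O_v → F_k`. -/
def rvRed : rvRing A π N →+* ↥(rvFk k N) where
  toFun := rvRedFun A π N
  map_one' := by
    refine rvRedFun_eq_of _ (yp := 1) (ym := 1) ⟨rvGood_one, rvGood_one.num, by simp⟩ 1 ?_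
    simp
  map_mul' := by
    rintro ⟨f, yp, ym, hf⟩ ⟨g, zp, zm, hg⟩
    refine rvRedFun_eq_of _ (yp := yp * zp) (ym := ym * zm)
      ⟨hf.1.mul hg.1, hf.2.1.mul hg.2.1, ?_⟩ _ ?_
    · rw [map_mul, map_mul, ← hf.2.2, ← hg.2.2]
      push_cast
      ring
    · have h1 := rvRedFun_spec ⟨f, yp, ym, hf⟩ hf
      have h2 := rvRedFun_spec ⟨g, zp, zm, hg⟩ hg
      rw [map_mul, map_mul, ← h1, ← h2]
      push_cast
      ring
  map_zero' := by
    refine rvRedFun_eq_of _ (yp := 0) (ym := 1) ⟨rvGood_one, rvNum_zero, by simp⟩ 0 ?_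
    simp
  map_add' := by
    rintro ⟨f, yp, ym, hf⟩ ⟨g, zp, zm, hg⟩
    refine rvRedFun_eq_of _ (yp := yp * zm + zp * ym) (ym := ym * zm)
      ⟨hf.1.mul hg.1, (hf.2.1.mul hg.1.num).add (hg.2.1.mul hf.1.num), ?_⟩ _ ?_
    · rw [map_mul, map_add, map_mul, map_mul, ← hf.2.2, ← hg.2.2]
      push_cast
      ring
    · have h1 := rvRedFun_spec ⟨f, yp, ym, hf⟩ hf
      have h2 := rvRedFun_spec ⟨g, zp, zm, hg⟩ hg
      rw [map_mul, map_add, map_mul, map_mul, ← h1, ← h2]
      push_cast
      ring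

variable {A π N}

theorem rvRed_spec (f : rvRing A π N) {yp ym : LaurentSeries A}
    (h : RvRep A π N ((f : ↥(rvFL L N)) : LaurentSeries L) yp ym) :
    ((rvRed A π N f : ↥(rvFk k N)) : LaurentSeries k) * rvRho A π ym = rvRho A π yp :=
  rvRedFun_spec f h

theorem rvRed_eq_of (f : rvRing A π N) {yp ym : LaurentSeries A}
    (h : RvRep A π N ((f : ↥(rvFL L N)) : LaurentSeries L) yp ym) (g : ↥(rvFk k N))
    (hg : (g : LaurentSeries k) * rvRho A π ym = rvRho A π yp) : rvRed A π N f = g :=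
  rvRedFun_eq_of f h g hg

/-- if the reduction is nonzero, the numerator is good -/
theorem RvRep.good_of_red_ne_zero {f : rvRing A π N} {yp ym : LaurentSeries A}
    (h : RvRep A π N ((f : ↥(rvFL L N)) : LaurentSeries L) yp ym) (hf : rvRed A π N f ≠ 0) :
    RvGood A π N yp := by
  refine ⟨h.2.1.1, h.2.1.2, ?_⟩
  rw [← rvRed_spec f h]
  refine mul_ne_zero (fun h0 => hf (Subtype.ext h0)) h.1.2.2

/-- units of the Gauss valuation ring -/
theorem inv_mem_rvRing_of_red_ne_zero {f : rvRing A π N} (hf : rvRed A π N f ≠ 0) :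
    (f : ↥(rvFL L N))⁻¹ ∈ rvRing A π N := by
  obtain ⟨yp, ym, h⟩ := f.2
  have hg := h.good_of_red_ne_zero hf
  refine ⟨ym, yp, hg, h.1.num, ?_⟩
  have h0 : rvIota A yp ≠ 0 := hg.iota_ne_zero
  have hf0 : ((f : ↥(rvFL L N)) : LaurentSeries L) ≠ 0 := by
    intro h1
    have h2 := h.2.2
    rw [h1, zero_mul] at h2
    exact h0 h2.symm
  rw [← h.2.2]
  push_cast
  field_simp

theorem rvRed_inv {f : rvRing A π N} (hf : rvRed A π N f ≠ 0) :
    rvRed A π N ⟨(f : ↥(rvFL L N))⁻¹, inv_mem_rvRing_of_red_ne_zero hf⟩ = (rvRed A π N f)⁻¹ := by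
  have hf0 : (f : ↥(rvFL L N)) ≠ 0 := by
    intro h
    apply hf
    have : f = 0 := Subtype.ext h
    rw [this, map_zero]
  have h1 : f * ⟨(f : ↥(rvFL L N))⁻¹, inv_mem_rvRing_of_red_ne_zero hf⟩ = 1 :=
    Subtype.ext (mul_inv_cancel₀ hf0)
  have h2 := congrArg (rvRed A π N) h1
  rw [map_mul, map_one] at h2
  exact eq_inv_of_mul_eq_one_right h2

end RedVal

end Fermat.Agent.H18
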