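import Mathlib
import Fermat.Prelude.Def_ModularCurve_ReductionModL
import Fermat.Agent.H18.RedVal

/-!
# Properties of the Gauss valuation ring under the prelude's reduction inputs

`RvHyp A π N r` bundles `IsPlaceReductionAlong A π N r`, `PrincipalGeneratedByIntegral A π N`
and three basic facts (existence of divisors of functions in `F_L`, "trivial divisor implies
constant" in `F_L`, `ker π = 𝔪_A`).  Under it:

* `RvHyp.exists_rep` : every nonzero `f ∈ F_L` is `c • ι y₊ / ι y₋` with `y±` good;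
* `RvHyp.mem_or_inv_mem` : `rvRing` is a valuation ring of `F_L`;
* `RvHyp.num_of_iota_mem`, `RvHyp.iota_mem_rvRing`, `rvRed_of_num` : an integral Laurent series
  in `F_L` lies in `rvRing`, its coefficientwise reduction lies in `F_k` and equals its image
  under `rvRed` (q-expansion principle);
* `RvHyp.isInt_of_bdd` : a bounded element of `rvRing` is an integral Laurent series;
* `RvHyp.mapDomain_eq` : `r_* div f = div (rvRed f)` for `f ∈ rvRing` with nonzero reduction.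
-/

set_option autoImplicit false
set_option linter.unusedSectionVars false
set_option linter.style.haveILetI false

noncomputable section

open ModularCurve AlgebraicCurve

namespace Fermat.Agent.H18

section RedValThm

variable {L : Type*} [Field L] [Algebra ℚ L] {A : ValuationSubring L}
variable {k : Type*} [Field k] {π : A →+* k} {N : ℕ}
variable {r : Place L ↥(rvFL L N) → Place k ↥(rvFk k N)}

/-- The hypotheses under which the Gauss valuation is developed. -/
structure RvHyp (A : ValuationSubring L) (π : A →+* k) (N : ℕ)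
    (r : Place L ↥(rvFL L N) → Place k ↥(rvFk k N)) : Prop where
  hr : IsPlaceReductionAlong A π N r
  hgen : PrincipalGeneratedByIntegral A π N
  hdiv : ∀ f : ↥(rvFL L N), f ≠ 0 → ∃ D : Divisor L ↥(rvFL L N), ∀ P, D P = P.ord f
  htd : ∀ f : ↥(rvFL L N), f ≠ 0 → (∀ P : Place L ↥(rvFL L N), P.ord f = 0) →
    ∃ c : L, algebraMap L ↥(rvFL L N) c = f
  hker : ∀ a : A, π a = 0 ↔ ¬ IsUnit a

theorem rvRho_smul (c : A) (y : LaurentSeries A) :
    rvRho A π (c • y) = π c • rvRho A π y := by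
  ext j
  simp [HahnSeries.coeff_smul]

theorem RvNum.smul {y : LaurentSeries A} (hy : RvNum A π N y) (c : A) :
    RvNum A π N (c • y) := by
  refine ⟨?_, ?_⟩
  · rw [rvIota_smul, rv_smul_def]
    exact mul_mem ((rvFL L N).algebraMap_mem _) hy.1
  · rw [rvRho_smul, rv_smul_def]
    exact mul_mem ((rvFk k N).algebraMap_mem _) hy.2

/-- elements of the closure of the integral principal divisors are divisors of quotients of
good series -/
theorem rv_closure_rep {D : Divisor L ↥(rvFL L N)}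
    (hD : D ∈ AddSubgroup.closure (integralPrincipalDivisors A π N)) :
    ∃ (yp ym : LaurentSeries A) (hp : RvGood A π N yp) (hm : RvGood A π N ym),
      ∀ P : Place L ↥(rvFL L N),
        D P = P.ord (⟨rvIota A yp, hp.1⟩ : ↥(rvFL L N)) -
          P.ord (⟨rvIota A ym, hm.1⟩ : ↥(rvFL L N)) := by
  have h1 : (⟨rvIota A (1 : LaurentSeries A), (rvGood_one (A := A) (π := π) (N := N)).1⟩ :
      ↥(rvFL L N)) = 1 := Subtype.ext (map_one _)
  have hne : ∀ {y : LaurentSeries A} (hy : RvGood A π N y),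
      (⟨rvIota A y, hy.1⟩ : ↥(rvFL L N)) ≠ 0 := fun hy h0 =>
    hy.iota_ne_zero (congrArg Subtype.val h0)
  have hmul : ∀ {y z : LaurentSeries A} (hy : RvGood A π N y) (hz : RvGood A π N z)
      (P : Place L ↥(rvFL L N)),
      P.ord (⟨rvIota A (y * z), (hy.mul hz).1⟩ : ↥(rvFL L N)) =
        P.ord (⟨rvIota A y, hy.1⟩ : ↥(rvFL L N)) + P.ord (⟨rvIota A z, hz.1⟩ : ↥(rvFL L N)) := by
    intro y z hy hz P
    rw [← P.ord_mul (hne hy) (hne hz)]
    congr 1
    exact Subtype.ext (map_mul _ _ _)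
  induction hD using AddSubgroup.closure_induction with
  | mem E hE =>
    obtain ⟨y, hy, hyk, hne', hE⟩ := hE
    refine ⟨y, 1, ⟨hy, hyk, hne'⟩, rvGood_one, fun P => ?_⟩
    rw [hE P, h1, Place.ord_one, sub_zero]
  | zero =>
    refine ⟨1, 1, rvGood_one, rvGood_one, fun P => ?_⟩
    rw [sub_self]
    rfl
  | add E E' _ _ hE hE' =>
    obtain ⟨yp, ym, hp, hm, h⟩ := hE
    obtain ⟨zp, zm, hp', hm', h'⟩ := hE'
    refine ⟨yp * zp, ym * zm, hp.mul hp', hm.mul hm', fun P => ?_⟩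
    rw [Finsupp.add_apply, h P, h' P, hmul hp hp', hmul hm hm']
    ring
  | neg E _ hE =>
    obtain ⟨yp, ym, hp, hm, h⟩ := hE
    refine ⟨ym, yp, hm, hp, fun P => ?_⟩
    rw [Finsupp.neg_apply, h P]
    ring

/-- **Normal form.** Every nonzero element of `F_L` is `c • ι y₊ / ι y₋`. -/
theorem RvHyp.exists_rep (H : RvHyp A π N r) (f : ↥(rvFL L N)) (hf : f ≠ 0) :
    ∃ (c : L) (yp ym : LaurentSeries A), c ≠ 0 ∧ RvGood A π N yp ∧ RvGood A π N ym ∧
      (f : LaurentSeries L) * rvIota A ym = c • rvIota A yp := by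
  obtain ⟨D, hD⟩ := H.hdiv f hf
  have hDp : D ∈ Divisor.principal (K := L) (F := ↥(rvFL L N)) := ⟨f, hf, hD⟩
  obtain ⟨yp, ym, hp, hm, h⟩ := rv_closure_rep (H.hgen hDp)
  set Yp : ↥(rvFL L N) := ⟨rvIota A yp, hp.1⟩ with hYp
  set Ym : ↥(rvFL L N) := ⟨rvIota A ym, hm.1⟩ with hYm
  have hYp0 : Yp ≠ 0 := fun h0 => hp.iota_ne_zero (congrArg Subtype.val h0)
  have hYm0 : Ym ≠ 0 := fun h0 => hm.iota_ne_zero (congrArg Subtype.val h0)
  have hg0 : f * Ym * Yp⁻¹ ≠ 0 := mul_ne_zero (mul_ne_zero hf hYm0) (inv_ne_zero hYp0)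
  have hord : ∀ P : Place L ↥(rvFL L N), P.ord (f * Ym * Yp⁻¹) = 0 := by
    intro P
    rw [P.ord_mul (mul_ne_zero hf hYm0) (inv_ne_zero hYp0), P.ord_mul hf hYm0, P.ord_inv,
      ← hD P, h P]
    ring
  obtain ⟨c, hc⟩ := H.htd _ hg0 hord
  have hc0 : c ≠ 0 := by
    rintro rfl
    rw [map_zero] at hc
    exact hg0 hc.symm
  refine ⟨c, yp, ym, hc0, hp, hm, ?_⟩
  have e : f * Ym = algebraMap L ↥(rvFL L N) c * Yp := by
    rw [hc]
    field_simp
  have e' := congrArg (Subtype.val) e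
  rw [rv_smul_def]
  exact e'

/-- `rvRing` is a valuation ring of `F_L`. -/
theorem RvHyp.mem_or_inv_mem (H : RvHyp A π N r) (f : ↥(rvFL L N)) :
    f ∈ rvRing A π N ∨ f⁻¹ ∈ rvRing A π N := by
  rcases eq_or_ne f 0 with rfl | hf
  · exact Or.inl (rvRing A π N).zero_mem
  obtain ⟨c, yp, ym, hc0, hp, hm, h⟩ := H.exists_rep f hf
  rcases A.mem_or_inv_mem c with hc | hc
  · left
    refine ⟨(⟨c, hc⟩ : A) • yp, ym, hm, hp.num.smul _, ?_⟩
    rw [h, rvIota_smul]
  · right
    refine ⟨(⟨c⁻¹, hc⟩ : A) • ym, yp, hp, hm.num.smul _, ?_⟩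
    rw [rvIota_smul]
    have hf0 : (f : LaurentSeries L) ≠ 0 := fun h0 => hf (Subtype.ext h0)
    have h1 : rvIota A ym = (f : LaurentSeries L)⁻¹ * (c • rvIota A yp) := by
      rw [← h]
      field_simp
    show ((f⁻¹ : ↥(rvFL L N)) : LaurentSeries L) * rvIota A yp = c⁻¹ • rvIota A ym
    rw [h1, rv_mul_smul, smul_smul, inv_mul_cancel₀ hc0, one_smul]
    push_cast
    rfl

/-- **Normalisation.** Every nonzero `f ∈ F_L` is a constant times a unit of `rvRing`. -/
theorem RvHyp.exists_normalize (H : RvHyp A π N r) (f : ↥(rvFL L N)) (hf : f ≠ 0) :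
    ∃ (c : L) (u : rvRing A π N), c ≠ 0 ∧ rvRed A π N u ≠ 0 ∧
      f = algebraMap L ↥(rvFL L N) c * (u : ↥(rvFL L N)) := by
  obtain ⟨c, yp, ym, hc0, hp, hm, h⟩ := H.exists_rep f hf
  have hmem : (algebraMap L ↥(rvFL L N) c)⁻¹ * f ∈ rvRing A π N := by
    refine ⟨yp, ym, hm, hp.num, ?_⟩
    show ((algebraMap L ↥(rvFL L N) c)⁻¹ * f : ↥(rvFL L N)).1 * rvIota A ym = rvIota A yp
    have : ((algebraMap L ↥(rvFL L N) c)⁻¹ * f : ↥(rvFL L N)).1
        = (algebraMap L (LaurentSeries L) c)⁻¹ * (f : LaurentSeries L) := rfl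
    rw [this, mul_assoc, h, rv_smul_def, ← mul_assoc, inv_mul_cancel₀, one_mul]
    exact fun h0 => hc0 ((map_eq_zero _).mp h0)
  refine ⟨c, ⟨_, hmem⟩, hc0, ?_, ?_⟩
  · intro h0
    have hs := rvRed_spec ⟨_, hmem⟩ (yp := yp) (ym := ym) ⟨hm, hp.num, by
      show ((algebraMap L ↥(rvFL L N) c)⁻¹ * f : ↥(rvFL L N)).1 * rvIota A ym = rvIota A yp
      have : ((algebraMap L ↥(rvFL L N) c)⁻¹ * f : ↥(rvFL L N)).1
          = (algebraMap L (LaurentSeries L) c)⁻¹ * (f : LaurentSeries L) := rfl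
      rw [this, mul_assoc, h, rv_smul_def, ← mul_assoc, inv_mul_cancel₀, one_mul]
      exact fun h0 => hc0 ((map_eq_zero _).mp h0)⟩
    rw [h0] at hs
    simp only [ZeroMemClass.coe_zero, zero_mul] at hs
    exact hp.2.2 hs.symm
  · show f = algebraMap L ↥(rvFL L N) c * ((algebraMap L ↥(rvFL L N) c)⁻¹ * f)
    rw [← mul_assoc, mul_inv_cancel₀, one_mul]
    exact fun h0 => hc0 ((map_eq_zero _).mp h0)

/-- a good series has a unit coefficient -/
theorem RvHyp.exists_isUnit_coeff (H : RvHyp A π N r) {y : LaurentSeries A}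
    (hy : rvRho A π y ≠ 0) : ∃ i, IsUnit (y.coeff i) := by
  by_contra hcon
  push Not at hcon
  apply hy
  ext i
  rw [coeffMap_coeff, HahnSeries.coeff_zero]
  exact (H.hker _).mpr (hcon i)

/-- **q-expansion principle, part 1.** The coefficientwise reduction of an integral Laurent
series lying in `F_L` lies in `F_k`. -/
theorem RvHyp.num_of_iota_mem (H : RvHyp A π N r) (y : LaurentSeries A)
    (hy : rvIota A y ∈ rvFL L N) : RvNum A π N y := by
  refine ⟨hy, ?_⟩
  rcases eq_or_ne y 0 with rfl | hy0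
  · rw [map_zero]; exact zero_mem _
  have hf : (⟨rvIota A y, hy⟩ : ↥(rvFL L N)) ≠ 0 := fun h0 =>
    hy0 (rvIota_injective A (by rw [map_zero]; exact congrArg Subtype.val h0))
  obtain ⟨c, yp, ym, hc0, hp, hm, h⟩ := H.exists_rep _ hf
  have h' : rvIota A y * rvIota A ym = c • rvIota A yp := h
  have hcA : c ∈ A := by
    by_contra hc
    have hci : c⁻¹ ∈ A := (A.mem_or_inv_mem c).resolve_left hc
    have hnu : ¬ IsUnit (⟨c⁻¹, hci⟩ : A) := by
      intro hu
      obtain ⟨u, hu⟩ := hu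
      apply hc
      have : ((↑u⁻¹ : A) : L) = c := by
        have h1 : (u : A) * (↑u⁻¹ : A) = 1 := Units.mul_inv u
        have h2 := congrArg (Subtype.val) h1
        rw [hu] at h2
        have h3 : c⁻¹ * ((↑u⁻¹ : A) : L) = 1 := h2
        field_simp at h3
        exact h3
      rw [← this]
      exact (↑u⁻¹ : A).2
    have e : (⟨c⁻¹, hci⟩ : A) • (y * ym) = yp := by
      apply rvIota_injective A
      rw [rvIota_smul, map_mul]
      show c⁻¹ • (rvIota A y * rvIota A ym) = rvIota A yp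
      rw [h', smul_smul, inv_mul_cancel₀ hc0, one_smul]
    apply hp.2.2
    rw [← e, rvRho_smul, (H.hker _).mpr hnu, zero_smul]
  have e : y * ym = (⟨c, hcA⟩ : A) • yp := by
    apply rvIota_injective A
    rw [rvIota_smul, map_mul]
    exact h'
  have e2 : rvRho A π y = (π ⟨c, hcA⟩ • rvRho A π yp) / rvRho A π ym := by
    rw [← rvRho_smul, ← e, map_mul, mul_div_assoc, div_self hm.2.2, mul_one]
  rw [e2, rv_smul_def]
  exact div_mem (mul_mem ((rvFk k N).algebraMap_mem _) hp.2.1) hm.2.1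

theorem RvNum.rep_one {y : LaurentSeries A} (hy : RvNum A π N y) :
    RvRep A π N (rvIota A y) y 1 :=
  ⟨rvGood_one, hy, by rw [map_one, mul_one]⟩

/-- **q-expansion principle, part 2.** An integral Laurent series lying in `F_L` belongs to the
Gauss valuation ring. -/
theorem RvHyp.iota_mem_rvRing (H : RvHyp A π N r) (y : LaurentSeries A)
    (hy : rvIota A y ∈ rvFL L N) : (⟨rvIota A y, hy⟩ : ↥(rvFL L N)) ∈ rvRing A π N :=
  ⟨y, 1, (H.num_of_iota_mem y hy).rep_one⟩

/-- **q-expansion principle, part 3.** The reduction of an integral Laurent series is its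
coefficientwise reduction. -/
theorem rvRed_of_num {y : LaurentSeries A} (hy : RvNum A π N y) (f : rvRing A π N)
    (hf : ((f : ↥(rvFL L N)) : LaurentSeries L) = rvIota A y) :
    ((rvRed A π N f : ↥(rvFk k N)) : LaurentSeries k) = rvRho A π y := by
  have hrep : RvRep A π N ((f : ↥(rvFL L N)) : LaurentSeries L) y 1 := by
    rw [hf]
    exact hy.rep_one
  have := rvRed_spec f hrep
  rwa [map_one, mul_one] at this

/-- **Bounded elements are integral.** -/
theorem RvHyp.isInt_of_bdd (H : RvHyp A π N r) (hArch : RvArch A) {f : ↥(rvFL L N)}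
    (hf : f ∈ rvRing A π N)
    (hbdd : ∃ γ : A, γ ≠ 0 ∧ RvIsInt A ((γ : L) • (f : LaurentSeries L))) :
    RvIsInt A (f : LaurentSeries L) := by
  obtain ⟨yp, ym, hm, hp, h⟩ := hf
  refine rvIsInt_of_mul_eq hArch ym yp (H.exists_isUnit_coeff hm.2.2) _ hbdd ?_
  rw [mul_comm]
  exact h

/-- **Compatibility with the reduction of places**: `r_* div f = div (red f)`. -/
theorem RvHyp.mapDomain_eq (H : RvHyp A π N r) (f : rvRing A π N) (hf : rvRed A π N f ≠ 0)
    (D : Divisor L ↥(rvFL L N)) (hD : ∀ P, D P = P.ord (f : ↥(rvFL L N)))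
    (Q : Place k ↥(rvFk k N)) :
    Finsupp.mapDomain r D Q = Q.ord (rvRed A π N f) := by
  obtain ⟨yp, ym, hrep⟩ := mem_rvRing.mp f.2
  have hp : RvGood A π N yp := hrep.good_of_red_ne_zero hf
  have hm : RvGood A π N ym := hrep.1
  set Yp : ↥(rvFL L N) := ⟨rvIota A yp, hp.1⟩ with hYp
  set Ym : ↥(rvFL L N) := ⟨rvIota A ym, hm.1⟩ with hYm
  have hYp0 : Yp ≠ 0 := fun h0 => hp.iota_ne_zero (congrArg Subtype.val h0)
  have hYm0 : Ym ≠ 0 := fun h0 => hm.iota_ne_zero (congrArg Subtype.val h0)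
  obtain ⟨Dp, hDp⟩ := H.hdiv Yp hYp0
  obtain ⟨Dm, hDm⟩ := H.hdiv Ym hYm0
  have hf0 : (f : ↥(rvFL L N)) ≠ 0 := by
    intro h
    apply hf
    have : f = 0 := Subtype.ext h
    rw [this, map_zero]
  have hfY : (f : ↥(rvFL L N)) * Ym = Yp := Subtype.ext hrep.2.2
  have hDeq : D = Dp - Dm := by
    ext P
    rw [Finsupp.sub_apply, hD P, hDp P, hDm P, ← hfY, P.ord_mul hf0 hYm0]
    ring
  have h1 := H.hr.2 yp hp.1 hp.2.1 hp.2.2 Dp hDp Q
  have h2 := H.hr.2 ym hm.1 hm.2.1 hm.2.2 Dm hDm Q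
  rw [hDeq, Finsupp.mapDomain_sub, Finsupp.sub_apply, h1, h2]
  have hs := rvRed_spec f hrep
  have hs' : rvRed A π N f * (⟨rvRho A π ym, hm.2.1⟩ : ↥(rvFk k N))
      = (⟨rvRho A π yp, hp.2.1⟩ : ↥(rvFk k N)) := Subtype.ext hs
  have hm0 : (⟨rvRho A π ym, hm.2.1⟩ : ↥(rvFk k N)) ≠ 0 := fun h0 =>
    hm.2.2 (congrArg Subtype.val h0)
  rw [← hs', Q.ord_mul hf hm0]
  ring

end RedValThm

end Fermat.Agent.H18
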