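import Mathlib
import Fermat.Prelude.Def_ModularCurve_ReductionModL
import Fermat.Agent.H18.RedValThm
import Fermat.Agent.H18.RedPivot

/-!
# Semicontinuity for the Gauss valuation

Under `RvHyp A π N r` and the archimedean property of `A`:

* `RvHyp.exists_extend` : a family in the Gauss valuation ring with linearly independent
  reductions can be extended by (a normalised correction of) any element outside its span;
* `RvHyp.exists_indep_red` : a subspace `V ⊆ F_L` containing `n` linearly independent elements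
  contains `n` elements of the Gauss valuation ring with linearly independent reductions.
-/

set_option autoImplicit false
set_option linter.unusedSectionVars false
set_option linter.style.haveILetI false
set_option synthInstance.maxHeartbeats 400000
set_option maxHeartbeats 1600000

noncomputable section

open ModularCurve AlgebraicCurve

namespace Fermat.Agent.H18

section Bdd

variable {L : Type*} [Field L] {A : ValuationSubring L}

/-- bounded Laurent series -/
def RvBdd (A : ValuationSubring L) (x : LaurentSeries L) : Prop :=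
  ∃ γ : A, γ ≠ 0 ∧ RvIsInt A ((γ : L) • x)

theorem rvBdd_iota (W : LaurentSeries A) : RvBdd A (rvIota A W) :=
  ⟨1, one_ne_zero, by
    have : ((1 : A) : L) • rvIota A W = rvIota A W := by
      show (1 : L) • rvIota A W = rvIota A W
      rw [one_smul]
    rw [this]
    exact rvIsInt_iota A W⟩

theorem rvBdd_zero : RvBdd A (0 : LaurentSeries L) :=
  ⟨1, one_ne_zero, by rw [smul_zero]; exact rvIsInt_zero⟩

theorem RvBdd.add {x y : LaurentSeries L} (hx : RvBdd A x) (hy : RvBdd A y) :
    RvBdd A (x + y) := by
  obtain ⟨γ, hγ, hx⟩ := hx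
  obtain ⟨δ, hδ, hy⟩ := hy
  refine ⟨γ * δ, mul_ne_zero hγ hδ, ?_⟩
  have : ((γ * δ : A) : L) • (x + y) = (δ : L) • ((γ : L) • x) + (γ : L) • ((δ : L) • y) := by
    rw [smul_add, smul_smul, smul_smul]
    congr 1
    · congr 1
      push_cast
      ring
  rw [this]
  exact (hx.smul δ.2).add (hy.smul γ.2)

theorem RvBdd.neg {x : LaurentSeries L} (hx : RvBdd A x) : RvBdd A (-x) := by
  obtain ⟨γ, hγ, hx⟩ := hx
  exact ⟨γ, hγ, by rw [smul_neg]; exact hx.neg⟩

theorem RvBdd.sub {x y : LaurentSeries L} (hx : RvBdd A x) (hy : RvBdd A y) :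
    RvBdd A (x - y) := by
  rw [sub_eq_add_neg]
  exact hx.add hy.neg

theorem RvBdd.C_mul {x : LaurentSeries L} (hx : RvBdd A x) (c : L) :
    RvBdd A (HahnSeries.C c * x) := by
  obtain ⟨γ, hγ, hx⟩ := hx
  rcases A.mem_or_inv_mem c with hc | hc
  · refine ⟨γ, hγ, ?_⟩
    have : (γ : L) • (HahnSeries.C c * x) = c • ((γ : L) • x) := by
      rw [HahnSeries.C_mul_eq_smul, smul_smul, smul_smul, mul_comm]
    rw [this]
    exact hx.smul hc
  · rcases eq_or_ne c 0 with rfl | hc0
    · rw [map_zero, zero_mul]
      exact rvBdd_zero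
    refine ⟨γ * ⟨c⁻¹, hc⟩, mul_ne_zero hγ (fun h => inv_ne_zero hc0 (congrArg Subtype.val h)), ?_⟩
    have : ((γ * ⟨c⁻¹, hc⟩ : A) : L) • (HahnSeries.C c * x) = (γ : L) • x := by
      rw [HahnSeries.C_mul_eq_smul, smul_smul]
      congr 1
      push_cast
      field_simp
    rw [this]
    exact hx

theorem rvBdd_sum {ι : Type*} (s : Finset ι) (x : ι → LaurentSeries L)
    (h : ∀ i ∈ s, RvBdd A (x i)) : RvBdd A (∑ i ∈ s, x i) := by
  classical
  induction s using Finset.induction_on with
  | empty => simpa using rvBdd_zero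
  | insert a s ha ih =>
    rw [Finset.sum_insert ha]
    exact (h a (Finset.mem_insert_self a s)).add
      (ih fun i hi => h i (Finset.mem_insert_of_mem hi))

end Bdd

section Coe

theorem rv_algebraMap_eq_C {K : Type*} [Field K] (c : K) :
    algebraMap K (LaurentSeries K) c = HahnSeries.C c :=
  algebraMap_laurentSeries_eq_single K c

theorem rv_coe_smul {K : Type*} [Field K] (F : IntermediateField K (LaurentSeries K)) (c : K)
    (f : ↥F) : ((c • f : ↥F) : LaurentSeries K) = HahnSeries.C c * (f : LaurentSeries K) := by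
  rw [Algebra.smul_def, ← rv_algebraMap_eq_C]
  rfl

theorem rv_coe_sum_smul {K : Type*} [Field K] (F : IntermediateField K (LaurentSeries K))
    {ι : Type*} (s : Finset ι) (c : ι → K) (f : ι → ↥F) :
    ((∑ i ∈ s, c i • f i : ↥F) : LaurentSeries K)
      = ∑ i ∈ s, HahnSeries.C (c i) * (f i : LaurentSeries K) := by
  classical
  induction s using Finset.induction_on with
  | empty => simp
  | insert a s ha ih =>
    rw [Finset.sum_insert ha, Finset.sum_insert ha, AddMemClass.coe_add, ih, rv_coe_smul]

end Coe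

section RedSemi

variable {L : Type*} [Field L] [Algebra ℚ L] {A : ValuationSubring L}
variable {k : Type*} [Field k] {π : A →+* k} {N : ℕ}
variable {r : Place L ↥(rvFL L N) → Place k ↥(rvFk k N)}

theorem rvGood_prod {ι : Type*} (s : Finset ι) (b : ι → LaurentSeries A)
    (h : ∀ i ∈ s, RvGood A π N (b i)) : RvGood A π N (∏ i ∈ s, b i) := by
  classical
  induction s using Finset.induction_on with
  | empty => simpa using rvGood_one
  | insert a s ha ih =>
    rw [Finset.prod_insert ha]
    exact (h a (Finset.mem_insert_self a s)).mul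
      (ih fun i hi => h i (Finset.mem_insert_of_mem hi))

/-- **Extension lemma.** -/
theorem RvHyp.exists_extend (H : RvHyp A π N r) (hArch : RvArch A) {j : ℕ}
    (w : Fin j → rvRing A π N)
    (hw : LinearIndependent k (fun i => rvRed A π N (w i)))
    (g : ↥(rvFL L N))
    (hg : g ∉ Submodule.span L (Set.range (fun i => ((w i : rvRing A π N) : ↥(rvFL L N))))) :
    ∃ u : rvRing A π N,
      (u : ↥(rvFL L N)) ∈ Submodule.span L
        (insert g (Set.range (fun i => ((w i : rvRing A π N) : ↥(rvFL L N))))) ∧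
      rvRed A π N u ∉ Submodule.span k (Set.range (fun i => rvRed A π N (w i))) := by
  classical
  -- representations
  have hrepw : ∀ i, ∃ a b : LaurentSeries A,
      RvRep A π N (((w i : rvRing A π N) : ↥(rvFL L N)) : LaurentSeries L) a b :=
    fun i => mem_rvRing.mp (w i).2
  choose a b hab using hrepw
  have hg0 : g ≠ 0 := fun h => hg (h ▸ Submodule.zero_mem _)
  obtain ⟨cg, ag, bg, hcg0, hag, hbg, hgrep⟩ := H.exists_rep g hg0
  -- common denominator
  set Y : LaurentSeries A := bg * ∏ i, b i with hY
  have hYgood : RvGood A π N Y := hbg.mul (rvGood_prod _ _ fun i _ => (hab i).1)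
  let U : Fin j → LaurentSeries A := fun i => a i * (bg * ∏ i' ∈ Finset.univ.erase i, b i')
  have hYi : ∀ i, Y = b i * (bg * ∏ i' ∈ Finset.univ.erase i, b i') := by
    intro i
    rw [hY, ← Finset.mul_prod_erase Finset.univ b (Finset.mem_univ i)]
    ring
  have hUrep : ∀ i, RvRep A π N (((w i : rvRing A π N) : ↥(rvFL L N)) : LaurentSeries L)
      (U i) Y := by
    intro i
    refine ⟨hYgood, (hab i).2.1.mul (hbg.mul (rvGood_prod _ _ fun i' _ => (hab i').1)).num, ?_⟩
    have e1 : rvIota A Y = rvIota A (b i) *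
        rvIota A (bg * ∏ i' ∈ Finset.univ.erase i, b i') := by
      rw [← map_mul, ← hYi i]
    have e2 : rvIota A (U i) = rvIota A (a i) *
        rvIota A (bg * ∏ i' ∈ Finset.univ.erase i, b i') := by
      rw [← map_mul]
    rw [e1, e2, ← mul_assoc, (hab i).2.2]
  have hρU : ∀ i, coeffMap π (U i) =
      ((rvRed A π N (w i) : ↥(rvFk k N)) : LaurentSeries k) * coeffMap π Y := fun i =>
    (rvRed_spec (w i) (hUrep i)).symm
  have hρY : coeffMap π Y ≠ 0 := hYgood.2.2
  -- independence of the reductions of the `U i`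
  have hUind : RvIndep (fun i => coeffMap π (U i)) := by
    intro c hc
    beta_reduce at hc
    simp only [hρU] at hc
    have h1 : (∑ i, HahnSeries.C (c i) *
        ((rvRed A π N (w i) : ↥(rvFk k N)) : LaurentSeries k)) * coeffMap π Y = 0 := by
      rw [Finset.sum_mul, ← hc]
      refine Finset.sum_congr rfl fun i _ => ?_
      ring
    have h2 : ∑ i, HahnSeries.C (c i) *
        ((rvRed A π N (w i) : ↥(rvFk k N)) : LaurentSeries k) = 0 :=
      (mul_eq_zero.mp h1).resolve_right hρY
    have h3 : ∑ i, c i • rvRed A π N (w i) = 0 := by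
      apply Subtype.ext
      rw [rv_coe_sum_smul]
      exact h2
    exact Fintype.linearIndependent_iff.mp hw c h3
  -- the bounded series `G = g * ι Y`
  set Ag : LaurentSeries A := ag * ∏ i, b i with hAg
  have hG : (g : LaurentSeries L) * rvIota A Y = HahnSeries.C cg * rvIota A Ag := by
    rw [hY, hAg, map_mul, map_mul, ← mul_assoc, hgrep, HahnSeries.C_mul_eq_smul,
      ← HahnSeries.C_mul_eq_smul, ← HahnSeries.C_mul_eq_smul]
    ring
  obtain ⟨c, hc⟩ := rv_pivot H.hker j U hUind ((g : LaurentSeries L) * rvIota A Y)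
  -- the corrected element
  set g' : ↥(rvFL L N) := g - ∑ i, c i • ((w i : rvRing A π N) : ↥(rvFL L N)) with hg'
  have hg'0 : g' ≠ 0 := by
    intro h0
    apply hg
    have : g = ∑ i, c i • ((w i : rvRing A π N) : ↥(rvFL L N)) := sub_eq_zero.mp h0
    rw [this]
    exact Submodule.sum_mem _ fun i _ =>
      Submodule.smul_mem _ _ (Submodule.subset_span ⟨i, rfl⟩)
  have hg'G : (g' : LaurentSeries L) * rvIota A Y =
      (g : LaurentSeries L) * rvIota A Y - ∑ i, HahnSeries.C (c i) * rvIota A (U i) := by
    have h1 : (g' : LaurentSeries L) = (g : LaurentSeries L) -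
        ∑ i, HahnSeries.C (c i) * (((w i : rvRing A π N) : ↥(rvFL L N)) : LaurentSeries L) := by
      rw [hg', AddSubgroupClass.coe_sub, rv_coe_sum_smul]
    rw [h1, sub_mul, Finset.sum_mul]
    congr 1
    refine Finset.sum_congr rfl fun i _ => ?_
    rw [mul_assoc, (hUrep i).2.2]
  -- normalise
  obtain ⟨γ, u, hγ0, hu0, hgu⟩ := H.exists_normalize g' hg'0
  -- `u * ι Y` is in the ring, bounded, hence integral
  have hYmem : (⟨rvIota A Y, hYgood.1⟩ : ↥(rvFL L N)) ∈ rvRing A π N :=
    ⟨Y, 1, hYgood.num.rep_one⟩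
  set x : rvRing A π N := u * ⟨_, hYmem⟩ with hx
  have hxval : ((x : ↥(rvFL L N)) : LaurentSeries L) =
      ((u : ↥(rvFL L N)) : LaurentSeries L) * rvIota A Y := rfl
  have hγu : (g' : LaurentSeries L) = HahnSeries.C γ * ((u : ↥(rvFL L N)) : LaurentSeries L) := by
    rw [hgu]
    push_cast
    rw [← rv_algebraMap_eq_C]
  have hxG : HahnSeries.C γ * ((x : ↥(rvFL L N)) : LaurentSeries L) =
      (g : LaurentSeries L) * rvIota A Y - ∑ i, HahnSeries.C (c i) * rvIota A (U i) := by
    rw [hxval, ← mul_assoc, ← hγu, hg'G]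
  have hxbdd : RvBdd A ((x : ↥(rvFL L N)) : LaurentSeries L) := by
    have h1 : ((x : ↥(rvFL L N)) : LaurentSeries L) = HahnSeries.C γ⁻¹ *
        ((g : LaurentSeries L) * rvIota A Y - ∑ i, HahnSeries.C (c i) * rvIota A (U i)) := by
      rw [← hxG, ← mul_assoc, ← map_mul, inv_mul_cancel₀ hγ0, map_one, one_mul]
    rw [h1]
    refine RvBdd.C_mul ?_ _
    refine RvBdd.sub ?_ (rvBdd_sum _ _ fun i _ => (rvBdd_iota _).C_mul _)
    rw [hG]
    exact (rvBdd_iota _).C_mul _
  have hxint : RvIsInt A ((x : ↥(rvFL L N)) : LaurentSeries L) :=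
    H.isInt_of_bdd hArch x.2 hxbdd
  obtain ⟨W, hW⟩ := hxint.exists_eq
  have hWnum : RvNum A π N W := H.num_of_iota_mem W (by rw [hW]; exact (x : ↥(rvFL L N)).2)
  have hredx : ((rvRed A π N x : ↥(rvFk k N)) : LaurentSeries k) = coeffMap π W :=
    rvRed_of_num hWnum x hW.symm
  have hredY : ((rvRed A π N ⟨_, hYmem⟩ : ↥(rvFk k N)) : LaurentSeries k) = coeffMap π Y :=
    rvRed_of_num hYgood.num ⟨_, hYmem⟩ rfl
  have hredx' : coeffMap π W =
      ((rvRed A π N u : ↥(rvFk k N)) : LaurentSeries k) * coeffMap π Y := by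
    rw [← hredx, hx, map_mul]
    push_cast
    rw [hredY]
  have hW0 : coeffMap π W ≠ 0 := by
    rw [hredx']
    exact mul_ne_zero (fun h0 => hu0 (Subtype.ext h0)) hρY
  refine ⟨u, ?_, ?_⟩
  · -- membership in the span
    have hu_eq : (u : ↥(rvFL L N)) = γ⁻¹ • g' := by
      rw [hgu, Algebra.smul_def, ← mul_assoc, ← map_mul, inv_mul_cancel₀ hγ0, map_one, one_mul]
    rw [hu_eq]
    refine Submodule.smul_mem _ _ (Submodule.sub_mem _ (Submodule.subset_span
      (Set.mem_insert _ _)) (Submodule.sum_mem _ fun i _ => Submodule.smul_mem _ _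
        (Submodule.subset_span (Set.mem_insert_of_mem _ ⟨i, rfl⟩))))
  · -- the reduction is not in the span
    intro hmem
    obtain ⟨lam, hlam⟩ : ∃ lam : Fin j → k, ∑ i, lam i • rvRed A π N (w i) = rvRed A π N u :=
      (Submodule.mem_span_range_iff_exists_fun k).mp hmem
    apply hW0
    refine hc γ W hγ0 ?_ lam ?_
    · rw [← hxG, hW]
    · rw [hredx', ← hlam, rv_coe_sum_smul, Finset.sum_mul]
      refine Finset.sum_congr rfl fun i _ => ?_
      rw [hρU i]
      ring

/-- **Semicontinuity.** A subspace of `F_L` containing `n` linearly independent elements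
contains `n` elements of the Gauss valuation ring whose reductions are linearly independent. -/
theorem RvHyp.exists_indep_red (H : RvHyp A π N r) (hArch : RvArch A)
    (V : Submodule L ↥(rvFL L N)) {n : ℕ} (f : Fin n → ↥(rvFL L N)) (hfV : ∀ i, f i ∈ V)
    (hf : LinearIndependent L f) :
    ∃ w : Fin n → rvRing A π N, (∀ i, ((w i : rvRing A π N) : ↥(rvFL L N)) ∈ V) ∧
      LinearIndependent k (fun i => rvRed A π N (w i)) := by
  classical
  suffices h : ∀ m, m ≤ n → ∃ w : Fin m → rvRing A π N,
      (∀ i, ((w i : rvRing A π N) : ↥(rvFL L N)) ∈ V) ∧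
        LinearIndependent k (fun i => rvRed A π N (w i)) from h n le_rfl
  intro m
  induction m with
  | zero =>
    intro _
    exact ⟨Fin.elim0, fun i => i.elim0, linearIndependent_empty_type⟩
  | succ m ih =>
    intro hm
    obtain ⟨w, hwV, hw⟩ := ih (Nat.le_of_succ_le hm)
    -- some `f i` is outside the span of the `w`
    obtain ⟨i₀, hi₀⟩ : ∃ i₀, f i₀ ∉
        Submodule.span L (Set.range (fun i => ((w i : rvRing A π N) : ↥(rvFL L N)))) := by
      by_contra hcon
      push Not at hcon
      have hle : Submodule.span L (Set.range f) ≤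
          Submodule.span L (Set.range (fun i => ((w i : rvRing A π N) : ↥(rvFL L N)))) :=
        Submodule.span_le.mpr (by rintro _ ⟨i, rfl⟩; exact hcon i)
      have h1 : Module.finrank L (Submodule.span L (Set.range f)) = n := by
        rw [finrank_span_eq_card hf, Fintype.card_fin]
      have h2 : Module.finrank L (Submodule.span L
          (Set.range (fun i => ((w i : rvRing A π N) : ↥(rvFL L N))))) ≤ m := by
        have := finrank_range_le_card (R := L)
          (fun i => ((w i : rvRing A π N) : ↥(rvFL L N)))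
        rw [Fintype.card_fin] at this
        exact this
      haveI : Module.Finite L (Submodule.span L
          (Set.range (fun i => ((w i : rvRing A π N) : ↥(rvFL L N))))) :=
        FiniteDimensional.span_of_finite L (Set.finite_range _)
      have h3 := Submodule.finrank_mono hle
      omega
    obtain ⟨u, huV, hu⟩ := H.exists_extend hArch w hw (f i₀) hi₀
    refine ⟨Fin.cons u w, ?_, ?_⟩
    · intro i
      refine Fin.cases ?_ (fun i => ?_) i
      · rw [Fin.cons_zero]
        refine (Submodule.span_le.mpr ?_) huV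
        rintro _ (rfl | ⟨i, rfl⟩)
        · exact hfV i₀
        · exact hwV i
      · rw [Fin.cons_succ]
        exact hwV i
    · have : (fun i => rvRed A π N ((Fin.cons u w : Fin (m + 1) → rvRing A π N) i))
          = Fin.cons (rvRed A π N u) (fun i => rvRed A π N (w i)) := by
        funext i
        refine Fin.cases ?_ (fun i => ?_) i
        · simp
        · simp
      rw [this]
      exact (linearIndependent_finCons).mpr ⟨hw, hu⟩

end RedSemi

end Fermat.Agent.H18
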