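import Mathlib
import Fermat.Prelude.Def_ModularCurve_ReductionModL
import Fermat.Prelude.Def_AlgebraicCurve_Repartitions
import Fermat.Agent.H18.RedSemi

/-!
# Surjectivity of the reduction map and of the reduction of places; Riemann-Roch spaces

Under `H : RvHyp A π N r` and surjectivity of `π`:

* `RvHyp.rvRed_surjective` : `rvRed : rvRing → F_k` is onto;
* `RvHyp.r_surjective` : `r` is onto;
* `RvHyp.red_mem_riemannRochSpace` : reductions of elements of `L(D)` lie in `L(r_* D)`;
* `RvHyp.exists_indep_rr` : semicontinuity `ℓ_L(D) ≤ ℓ_k(r_* D)` in terms of the prelude's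
  `riemannRochSpace`.
-/

set_option autoImplicit false
set_option linter.unusedSectionVars false
set_option linter.style.haveILetI false
set_option synthInstance.maxHeartbeats 400000
set_option maxHeartbeats 1600000

noncomputable section

open ModularCurve AlgebraicCurve

namespace Fermat.Agent.H18

section RedSurj

variable {L : Type*} [Field L] [Algebra ℚ L] {A : ValuationSubring L}
variable {k : Type*} [Field k] {π : A →+* k} {N : ℕ}
variable {r : Place L ↥(rvFL L N) → Place k ↥(rvFk k N)}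

/-- pointwise nonnegativity is preserved by `Finsupp.mapDomain` -/
theorem rv_mapDomain_nonneg {α β : Type*} (f : α → β) (F : α →₀ ℤ) (hF : ∀ a, 0 ≤ F a) (b : β) :
    0 ≤ Finsupp.mapDomain f F b := by
  classical
  rw [Finsupp.mapDomain, Finsupp.sum_apply, Finsupp.sum]
  refine Finset.sum_nonneg fun a _ => ?_
  rw [Finsupp.single_apply]
  split_ifs
  · exact hF a
  · exact le_rfl

/-- the constants of `A` lie in the Gauss ring, with the expected reduction -/
theorem rv_C_rep (c : A) : RvRep A π N (HahnSeries.C (c : L)) (HahnSeries.C c) 1 := by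
  refine ⟨rvGood_one, ⟨?_, ?_⟩, ?_⟩
  · rw [rv_coeffMap_C]
    show HahnSeries.C (c : L) ∈ rvFL L N
    rw [← rv_algebraMap_eq_C]
    exact (rvFL L N).algebraMap_mem _
  · rw [rv_coeffMap_C, ← rv_algebraMap_eq_C]
    exact (rvFk k N).algebraMap_mem _
  · rw [map_one, mul_one, rv_coeffMap_C]
    rfl

theorem rv_algebraMap_mem_rvRing (c : A) :
    algebraMap L ↥(rvFL L N) (c : L) ∈ rvRing A π N := by
  refine ⟨HahnSeries.C c, 1, ?_⟩
  have : ((algebraMap L ↥(rvFL L N) (c : L) : ↥(rvFL L N)) : LaurentSeries L)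
      = HahnSeries.C (c : L) := rv_algebraMap_eq_C _
  rw [this]
  exact rv_C_rep c

theorem rvRed_algebraMap (c : A) :
    rvRed A π N ⟨algebraMap L ↥(rvFL L N) (c : L), rv_algebraMap_mem_rvRing c⟩
      = algebraMap k ↥(rvFk k N) (π c) := by
  have h : ((algebraMap L ↥(rvFL L N) (c : L) : ↥(rvFL L N)) : LaurentSeries L)
      = HahnSeries.C (c : L) := rv_algebraMap_eq_C _
  refine rvRed_eq_of _ (yp := HahnSeries.C c) (ym := 1) (by rw [h]; exact rv_C_rep c) _ ?_
  rw [map_one, mul_one, rv_coeffMap_C]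
  exact rv_algebraMap_eq_C _

/-- the generators `j(q^d)` -/
theorem rv_gen_rep {d : ℕ} [NeZero d] (hd : d ∣ N) :
    RvRep A π N (qExpand L d (jqModC L)) (qExpand A d (jqModC A)) 1 := by
  have h1 : rvIota A (qExpand A d (jqModC A)) = qExpand L d (jqModC L) := by
    rw [coeffMap_qExpand, coeffMap_jqModC]
  have h2 : rvRho A π (qExpand A d (jqModC A)) = qExpand k d (jqModC k) := by
    rw [coeffMap_qExpand, coeffMap_jqModC]
  refine ⟨rvGood_one, ⟨?_, ?_⟩, ?_⟩
  · rw [h1]
    have h3 : qExpand L d (jqModC L) = coeffEmb L (qExpand ℚ d (jqModC ℚ)) := by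
      rw [coeffEmb, coeffMap_qExpand, coeffMap_jqModC]
    rw [h3]
    exact coeffEmb_mem_laurentBaseChange L (jqd_mem_full N hd)
  · rw [h2]
    exact jqModCd_mem_full k N hd
  · rw [map_one, mul_one, h1]

/-- **The reduction map is onto.** -/
theorem rvRed_surjective (hsurj : Function.Surjective π) :
    Function.Surjective (rvRed A π N) := by
  rintro ⟨x, hx⟩
  suffices h : ∃ u : rvRing A π N, ((rvRed A π N u : ↥(rvFk k N)) : LaurentSeries k) = x by
    obtain ⟨u, hu⟩ := h
    exact ⟨u, Subtype.ext hu⟩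
  induction hx using IntermediateField.adjoin_induction with
  | mem x hx =>
    obtain ⟨d, hd0, hd, rfl⟩ := hx
    haveI := hd0
    have hrep := rv_gen_rep (A := A) (π := π) (N := N) hd
    have hmem : qExpand L d (jqModC L) ∈ rvFL L N := by
      have := hrep.2.1.1
      rwa [coeffMap_qExpand, coeffMap_jqModC] at this
    refine ⟨⟨⟨_, hmem⟩, _, _, hrep⟩, ?_⟩
    have := rvRed_spec (⟨⟨_, hmem⟩, _, _, hrep⟩ : rvRing A π N) hrep
    rw [map_one, mul_one] at this
    rw [this, coeffMap_qExpand, coeffMap_jqModC]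
  | algebraMap c =>
    obtain ⟨a, rfl⟩ := hsurj c
    refine ⟨⟨_, rv_algebraMap_mem_rvRing a⟩, ?_⟩
    rw [rvRed_algebraMap]
    rfl
  | add x y _ _ hx hy =>
    obtain ⟨u, rfl⟩ := hx
    obtain ⟨w, rfl⟩ := hy
    exact ⟨u + w, by rw [map_add]; rfl⟩
  | inv x _ hx =>
    obtain ⟨u, rfl⟩ := hx
    by_cases h0 : rvRed A π N u = 0
    · refine ⟨0, ?_⟩
      rw [h0, map_zero]
      simp
    · refine ⟨⟨_, inv_mem_rvRing_of_red_ne_zero h0⟩, ?_⟩
      rw [rvRed_inv h0]
      rfl
  | mul x y _ _ hx hy =>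
    obtain ⟨u, rfl⟩ := hx
    obtain ⟨w, rfl⟩ := hy
    exact ⟨u * w, by rw [map_mul]; rfl⟩

/-- a place has a function of order one -/
theorem rv_exists_ord_eq_one {K F : Type*} [Field K] [Field F] [Algebra K F] (v : Place K F) :
    ∃ t : F, v.ord t = 1 := by
  obtain ⟨ϖ, hϖ⟩ := IsDiscreteValuationRing.exists_irreducible v.toValuationSubring
  exact ⟨(ϖ : F), v.ord_coe_irreducible hϖ⟩

/-- **The reduction of places is onto.** -/
theorem RvHyp.r_surjective (H : RvHyp A π N r) (hsurj : Function.Surjective π) :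
    Function.Surjective r := by
  classical
  intro Q
  obtain ⟨t, ht⟩ := rv_exists_ord_eq_one Q
  obtain ⟨u, hu⟩ := rvRed_surjective (A := A) (N := N) hsurj t
  have ht0 : t ≠ 0 := by
    rintro rfl
    rw [Place.ord_zero] at ht
    exact zero_ne_one ht
  have hu0 : rvRed A π N u ≠ 0 := by rw [hu]; exact ht0
  have huF : (u : ↥(rvFL L N)) ≠ 0 := by
    intro h
    apply hu0
    have : u = 0 := Subtype.ext h
    rw [this, map_zero]
  obtain ⟨D, hD⟩ := H.hdiv _ huF
  have h1 := H.mapDomain_eq u hu0 D hD Q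
  rw [hu, ht] at h1
  have hmem : Q ∈ (Finsupp.mapDomain r D).support := by
    rw [Finsupp.mem_support_iff, h1]
    exact one_ne_zero
  obtain ⟨P, -, hP⟩ := Finset.mem_image.mp (Finsupp.mapDomain_support hmem)
  exact ⟨P, hP⟩

/-- **Reductions of elements of `L(D)` lie in `L(r_* D)`.** -/
theorem RvHyp.red_mem_riemannRochSpace (H : RvHyp A π N r) (D : Divisor L ↥(rvFL L N))
    (u : rvRing A π N) (hu : (u : ↥(rvFL L N)) ∈ riemannRochSpace D) :
    rvRed A π N u ∈ riemannRochSpace (Finsupp.mapDomain r D) := by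
  rw [mem_riemannRochSpace_iff] at hu ⊢
  intro Q
  by_cases hu0 : rvRed A π N u = 0
  · exact Or.inl hu0
  right
  have huF : (u : ↥(rvFL L N)) ≠ 0 := by
    intro h
    apply hu0
    have : u = 0 := Subtype.ext h
    rw [this, map_zero]
  obtain ⟨E, hE⟩ := H.hdiv _ huF
  have h1 := H.mapDomain_eq u hu0 E hE Q
  have h2 : ∀ P, 0 ≤ (E + D) P := by
    intro P
    rw [Finsupp.add_apply, hE P]
    rcases hu P with h | h
    · exact absurd h huF
    · omega
  have h3 := rv_mapDomain_nonneg r (E + D) h2 Q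
  rw [Finsupp.mapDomain_add, Finsupp.add_apply, h1] at h3
  omega

/-- **Semicontinuity for Riemann-Roch spaces**: `ℓ_L(D) ≤ ℓ_k(r_* D)`. -/
theorem RvHyp.exists_indep_rr (H : RvHyp A π N r) (hArch : RvArch A)
    (D : Divisor L ↥(rvFL L N)) {n : ℕ} (f : Fin n → ↥(rvFL L N))
    (hfD : ∀ i, f i ∈ riemannRochSpace D) (hf : LinearIndependent L f) :
    ∃ w : Fin n → rvRing A π N,
      (∀ i, ((w i : rvRing A π N) : ↥(rvFL L N)) ∈ riemannRochSpace D) ∧
      (∀ i, rvRed A π N (w i) ∈ riemannRochSpace (Finsupp.mapDomain r D)) ∧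
      LinearIndependent k (fun i => rvRed A π N (w i)) := by
  obtain ⟨w, hwD, hw⟩ := H.exists_indep_red hArch (riemannRochSpace D) f hfD hf
  exact ⟨w, hwD, fun i => H.red_mem_riemannRochSpace D (w i) (hwD i), hw⟩

/-- numerical form of the semicontinuity -/
theorem RvHyp.finrank_rr_le (H : RvHyp A π N r) (hArch : RvArch A)
    (D : Divisor L ↥(rvFL L N)) [Module.Finite L (riemannRochSpace D)]
    [Module.Finite k (riemannRochSpace (Finsupp.mapDomain r D))] :
    Module.finrank L (riemannRochSpace D) ≤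
      Module.finrank k (riemannRochSpace (Finsupp.mapDomain r D)) := by
  classical
  set n := Module.finrank L (riemannRochSpace D) with hn
  let b := Module.finBasis L (riemannRochSpace D)
  let f : Fin n → ↥(rvFL L N) := fun i => ((b i : riemannRochSpace D) : ↥(rvFL L N))
  have hf : LinearIndependent L f :=
    b.linearIndependent.map' (riemannRochSpace D).subtype (Submodule.ker_subtype _)
  obtain ⟨w, -, hwk, hw⟩ := H.exists_indep_rr hArch D f (fun i => (b i).2) hf
  let w' : Fin n → riemannRochSpace (Finsupp.mapDomain r D) :=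
    fun i => ⟨rvRed A π N (w i), hwk i⟩
  have hw' : LinearIndependent k w' := by
    refine LinearIndependent.of_comp (riemannRochSpace (Finsupp.mapDomain r D)).subtype ?_
    exact hw
  have := hw'.fintype_card_le_finrank
  simpa using this

end RedSurj

end Fermat.Agent.H18
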