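import Mathlib
import Fermat.Agent.H27.ESD.Interfaces
import Fermat.Agent.H18.RedSurj
import Fermat.Agent.H18.RedArch

/-!
# The Gauss valuation in the setting of S18: instantiation, genus inequality, lifting

* `rp_const_of_ord_nonneg` : in a function field with a Riemann package, functions without poles
  are constants;
* `rvHyp_of_inputs` : `RvHyp A (residue A) N (placeReductionModL h)` from the reduction inputs
  `h` and a Riemann package for `F_L`;
* `RvHyp.genus_le` : `g_k ≤ g_L` (semicontinuity);
* `RvHyp.lifting` : if moreover `g_L ≤ g_k`, then for `deg D` large every element of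
  `L_k(r_* D)` is the reduction of an element of `L_L(D)` lying in the Gauss ring.
-/

set_option autoImplicit false
set_option linter.unusedSectionVars false
set_option linter.style.haveILetI false
set_option synthInstance.maxHeartbeats 400000
set_option maxHeartbeats 1600000

noncomputable section

open ModularCurve AlgebraicCurve Fermat.Agent.H27.ESD

namespace Fermat.Agent.H18

section RP

variable {K F : Type*} [Field K] [Field F] [Algebra K F] {g : ℕ}

theorem rp_one_mem_zero : (1 : F) ∈ riemannRochSpace (0 : Divisor K F) := by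
  rw [mem_riemannRochSpace_iff]
  intro v
  right
  rw [Place.ord_one]
  simp

/-- **Functions without poles are constants.** -/
theorem rp_const_of_ord_nonneg (hP : RiemannPackage K F g) (f : F)
    (hf : ∀ v : Place K F, f = 0 ∨ 0 ≤ v.ord f) : ∃ c : K, algebraMap K F c = f := by
  have hmem : f ∈ riemannRochSpace (0 : Divisor K F) := by
    rw [mem_riemannRochSpace_iff]
    intro v
    rcases hf v with h | h
    · exact Or.inl h
    · right
      simpa using h
  have hne : (⟨1, rp_one_mem_zero⟩ : riemannRochSpace (0 : Divisor K F)) ≠ 0 := by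
    intro h
    have := congrArg Subtype.val h
    exact one_ne_zero this
  obtain ⟨c, hc⟩ := (finrank_eq_one_iff_of_nonzero' _ hne).mp hP.finrank_zero ⟨f, hmem⟩
  refine ⟨c, ?_⟩
  have := congrArg Subtype.val hc
  rw [Algebra.algebraMap_eq_smul_one]
  exact this

theorem rp_exists_divisor (hP : RiemannPackage K F g) (f : F) (hf : f ≠ 0) :
    ∃ D : Divisor K F, ∀ v : Place K F, D v = v.ord f := by
  obtain ⟨D, hD, -⟩ := hP.principal.exists_divisor f hf
  exact ⟨D, hD⟩

end RP

section Inst

variable {L : Type*} [Field L] [Algebra ℚ L] {A : ValuationSubring L}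
variable {k : Type*} [Field k] {π : A →+* k} {N : ℕ}
variable {r : Place L ↥(rvFL L N) → Place k ↥(rvFk k N)}

/-- `RvHyp` from the prelude axioms and a Riemann package for `F_L`. -/
theorem rvHyp_of_package {gL : ℕ} (hr : IsPlaceReductionAlong A π N r)
    (hgen : PrincipalGeneratedByIntegral A π N)
    (hL : RiemannPackage L ↥(rvFL L N) gL) (hker : ∀ a : A, π a = 0 ↔ ¬ IsUnit a) :
    RvHyp A π N r where
  hr := hr
  hgen := hgen
  hdiv := fun f hf => rp_exists_divisor hL f hf
  htd := fun f _ h => rp_const_of_ord_nonneg hL f fun v => Or.inr (h v).ge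
  hker := hker

theorem rv_residue_ker (A : ValuationSubring L) (a : A) :
    IsLocalRing.residue A a = 0 ↔ ¬ IsUnit a := by
  rw [IsLocalRing.residue_eq_zero_iff, IsLocalRing.mem_maximalIdeal, mem_nonunits_iff]

/-- **Genus inequality** `g_k ≤ g_L`. -/
theorem RvHyp.genus_le (H : RvHyp A π N r) (hArch : RvArch A) {gL gk : ℕ}
    (hL : RiemannPackage L ↥(rvFL L N) gL) (hk : RiemannPackage k ↥(rvFk k N) gk) :
    gk ≤ gL := by
  classical
  obtain ⟨cL, hcL⟩ := hL.eq_of_large
  obtain ⟨ck, hck⟩ := hk.eq_of_large
  haveI := hL.infinite_places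
  obtain ⟨P₀⟩ : Nonempty (Place L ↥(rvFL L N)) := inferInstance
  set n : ℕ := (max cL ck).toNat with hn
  set D : Divisor L ↥(rvFL L N) := Finsupp.single P₀ (n : ℤ) with hD
  have hdeg : Divisor.degree D = n := by
    rw [hD, Divisor.degree_single, hL.deg_one, Nat.cast_one, mul_one]
  have hdeg' : Divisor.degree (Finsupp.mapDomain r D) = n := by
    rw [degree_mapDomain_of_deg_eq H.hr.1, hdeg]
  have hn1 : cL ≤ (n : ℤ) := le_trans (le_max_left _ _) (Int.self_le_toNat _)
  have hn2 : ck ≤ (n : ℤ) := le_trans (le_max_right _ _) (Int.self_le_toNat _)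
  have e1 := hcL D (by rw [hdeg]; exact hn1)
  have e2 := hck (Finsupp.mapDomain r D) (by rw [hdeg']; exact hn2)
  haveI := hL.finite D
  haveI := hk.finite (Finsupp.mapDomain r D)
  have h3 := H.finrank_rr_le hArch D
  rw [hdeg] at e1
  rw [hdeg'] at e2
  have h4 : (Module.finrank L (riemannRochSpace D) : ℤ) ≤
      Module.finrank k (riemannRochSpace (Finsupp.mapDomain r D)) := by exact_mod_cast h3
  omega

/-- **Lifting.** If `g_L ≤ g_k`, then for `deg D` large, `L_k(r_* D)` consists of reductions of
elements of `L_L(D)` lying in the Gauss ring. -/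
theorem RvHyp.lifting (H : RvHyp A π N r) (hArch : RvArch A) (hsurj : Function.Surjective π)
    {gL gk : ℕ} (hL : RiemannPackage L ↥(rvFL L N) gL)
    (hk : RiemannPackage k ↥(rvFk k N) gk) (hg : gL ≤ gk) :
    ∃ c : ℤ, ∀ D : Divisor L ↥(rvFL L N), c ≤ Divisor.degree D →
      ∀ x ∈ riemannRochSpace (Finsupp.mapDomain r D),
        ∃ u : rvRing A π N, (u : ↥(rvFL L N)) ∈ riemannRochSpace D ∧ rvRed A π N u = x := by
  classical
  obtain ⟨cL, hcL⟩ := hL.eq_of_large
  obtain ⟨ck, hck⟩ := hk.eq_of_large
  refine ⟨max cL ck, fun D hD x hx => ?_⟩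
  have hdeg' : Divisor.degree (Finsupp.mapDomain r D) = Divisor.degree D :=
    degree_mapDomain_of_deg_eq H.hr.1 D
  have e1 := hcL D (le_trans (le_max_left _ _) hD)
  have e2 := hck (Finsupp.mapDomain r D) (by rw [hdeg']; exact le_trans (le_max_right _ _) hD)
  rw [hdeg'] at e2
  haveI := hL.finite D
  haveI := hk.finite (Finsupp.mapDomain r D)
  set n := Module.finrank L (riemannRochSpace D) with hn
  let b := Module.finBasis L (riemannRochSpace D)
  let f : Fin n → ↥(rvFL L N) := fun i => ((b i : riemannRochSpace D) : ↥(rvFL L N))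
  have hf : LinearIndependent L f :=
    b.linearIndependent.map' (riemannRochSpace D).subtype (Submodule.ker_subtype _)
  obtain ⟨w, hwD, hwk, hw⟩ := H.exists_indep_rr hArch D f (fun i => (b i).2) hf
  let w' : Fin n → riemannRochSpace (Finsupp.mapDomain r D) :=
    fun i => ⟨rvRed A π N (w i), hwk i⟩
  have hw' : LinearIndependent k w' := by
    refine LinearIndependent.of_comp (riemannRochSpace (Finsupp.mapDomain r D)).subtype ?_
    exact hw
  have hcard : Fintype.card (Fin n) =
      Module.finrank k (riemannRochSpace (Finsupp.mapDomain r D)) := by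
    rw [Fintype.card_fin]
    have h1 := hw'.fintype_card_le_finrank
    rw [Fintype.card_fin] at h1
    have h2 : (Module.finrank k (riemannRochSpace (Finsupp.mapDomain r D)) : ℤ) ≤ n := by
      have : (gL : ℤ) ≤ gk := by exact_mod_cast hg
      omega
    have h3 : Module.finrank k (riemannRochSpace (Finsupp.mapDomain r D)) ≤ n := by
      exact_mod_cast h2
    omega
  have hspan := hw'.span_eq_top_of_card_eq_finrank' hcard
  have hxmem : (⟨x, hx⟩ : riemannRochSpace (Finsupp.mapDomain r D)) ∈
      Submodule.span k (Set.range w') := by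
    rw [hspan]
    exact Submodule.mem_top
  obtain ⟨lam, hlam⟩ := (Submodule.mem_span_range_iff_exists_fun k).mp hxmem
  choose c hc using fun i => hsurj (lam i)
  let u : rvRing A π N :=
    ∑ i, ⟨algebraMap L ↥(rvFL L N) (c i : L), rv_algebraMap_mem_rvRing (c i)⟩ * w i
  refine ⟨u, ?_, ?_⟩
  · have : (u : ↥(rvFL L N)) = ∑ i, (c i : L) • ((w i : rvRing A π N) : ↥(rvFL L N)) := by
      show ((∑ i, ⟨algebraMap L ↥(rvFL L N) (c i : L), rv_algebraMap_mem_rvRing (c i)⟩ * w i :
        rvRing A π N) : ↥(rvFL L N)) = _
      rw [AddSubmonoidClass.coe_finsetSum]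
      refine Finset.sum_congr rfl fun i _ => ?_
      rw [Algebra.smul_def]
      rfl
    rw [this]
    exact Submodule.sum_mem _ fun i _ => Submodule.smul_mem _ _ (hwD i)
  · have h1 : rvRed A π N u = ∑ i, lam i • rvRed A π N (w i) := by
      show rvRed A π N (∑ i, ⟨algebraMap L ↥(rvFL L N) (c i : L),
        rv_algebraMap_mem_rvRing (c i)⟩ * w i) = _
      rw [map_sum]
      refine Finset.sum_congr rfl fun i _ => ?_
      rw [map_mul, rvRed_algebraMap, hc i, Algebra.smul_def]
    rw [h1]
    have h2 : ((∑ i, lam i • w' i : riemannRochSpace (Finsupp.mapDomain r D)) : ↥(rvFk k N))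
        = x := congrArg Subtype.val hlam
    rw [← h2, AddSubmonoidClass.coe_finsetSum]
    rfl

end Inst

section S18Setting

variable (A : ValuationSubring (AlgebraicClosure ℚ)) (N : ℕ)

/-- The hypotheses `RvHyp` in the setting of S18. -/
theorem rvHyp_of_inputs {gL : ℕ} (h : ReductionInputsModL A N)
    (hL : RiemannPackage (AlgebraicClosure ℚ) ↥(modularFunctionFieldBar N) gL) :
    RvHyp A (IsLocalRing.residue A) N (placeReductionModL h) :=
  rvHyp_of_package (isPlaceReductionModL_placeReductionModL h) h.choose_spec.2 hL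
    (rv_residue_ker A)

theorem rv_residue_surjective : Function.Surjective (IsLocalRing.residue A) :=
  IsLocalRing.residue_surjective

end S18Setting

end Fermat.Agent.H18
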