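import Mathlib
import Fermat.Agent.H18.RedInst

/-!
# Value lemma and coordinates on residue discs

Under `H : RvHyp A π N r`:

* `rv_le_mapDomain` : if a divisor `D` is `≥ 0` on the fibre `r⁻¹(Q)` then `D P ≤ (r_* D) Q` for
  every `P` in the fibre;
* `RvHyp.value_lemma` : if `y` in the Gauss ring has no pole in the disc `r⁻¹(Q)` and takes the
  value `c ∈ L` at a place `P` of the disc, then `c ∈ A` and `red y` takes the value `π c` at `Q`;
* `RvHyp.exists_coord` (needs Riemann packages on both sides and `g_L ≤ g_k`): for every place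
  `Q` of `F_k` and every `P` with `r P = Q` there is `t` in the Gauss ring, without poles in the
  disc of `Q`, vanishing at `P`, whose reduction is a local parameter at `Q`;
* `RvHyp.ord_eq_of_coord` : such a `t` has a simple zero at `P` and no other zero in the disc.
-/

set_option autoImplicit false
set_option linter.unusedSectionVars false
set_option linter.style.haveILetI false
set_option synthInstance.maxHeartbeats 400000
set_option maxHeartbeats 1600000

noncomputable section

open ModularCurve AlgebraicCurve Fermat.Agent.H27.ESD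

namespace Fermat.Agent.H18

section RedCoord

variable {L : Type*} [Field L] [Algebra ℚ L] {A : ValuationSubring L}
variable {k : Type*} [Field k] {π : A →+* k} {N : ℕ}
variable {r : Place L ↥(rvFL L N) → Place k ↥(rvFk k N)}

/-- fibre bound -/
theorem rv_le_mapDomain {α β : Type*} (f : α → β) (D : α →₀ ℤ) (b : β) (a : α) (ha : f a = b)
    (hD : ∀ a', f a' = b → 0 ≤ D a') : D a ≤ Finsupp.mapDomain f D b := by
  classical
  rw [Finsupp.mapDomain, Finsupp.sum_apply, Finsupp.sum]
  have hnn : ∀ a' ∈ D.support, 0 ≤ (Finsupp.single (f a') (D a')) b := by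
    intro a' _
    rw [Finsupp.single_apply]
    split_ifs with h
    · exact hD a' h
    · exact le_rfl
  by_cases hmem : a ∈ D.support
  · have h1 := Finset.single_le_sum hnn hmem
    rw [Finsupp.single_apply, if_pos ha] at h1
    exact h1
  · rw [Finsupp.notMem_support_iff.mp hmem]
    exact Finset.sum_nonneg hnn

/-- sum over a fibre: if `D ≥ 0` on the fibre of `b` and `(f_* D) b = D a` for some `a` in the
fibre, then `D` vanishes at the other points of the fibre -/
theorem rv_eq_zero_of_mapDomain {α β : Type*} (f : α → β) (D : α →₀ ℤ) (b : β) (a : α)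
    (ha : f a = b) (hD : ∀ a', f a' = b → 0 ≤ D a') (h : Finsupp.mapDomain f D b ≤ D a)
    (a' : α) (ha' : f a' = b) (hne : a' ≠ a) : D a' = 0 := by
  classical
  by_contra h0
  have hpos : 0 < D a' := lt_of_le_of_ne (hD a' ha') (Ne.symm h0)
  -- remove the point `a'`
  set D' : α →₀ ℤ := D - Finsupp.single a' (D a') with hD'
  have hD'a : D' a = D a := by
    rw [hD', Finsupp.sub_apply, Finsupp.single_apply, if_neg hne, sub_zero]
  have hD'nn : ∀ a'', f a'' = b → 0 ≤ D' a'' := by
    intro a'' h''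
    rw [hD', Finsupp.sub_apply, Finsupp.single_apply]
    split_ifs with h1
    · subst h1; simp
    · rw [sub_zero]; exact hD a'' h''
  have h1 := rv_le_mapDomain f D' b a ha hD'nn
  rw [hD'a, hD', Finsupp.mapDomain_sub, Finsupp.sub_apply, Finsupp.mapDomain_single,
    Finsupp.single_apply, if_pos ha'] at h1
  omega

theorem rv_mapDomain_nonneg_fibre {α β : Type*} (f : α → β) (D : α →₀ ℤ) (b : β)
    (hD : ∀ a', f a' = b → 0 ≤ D a') : 0 ≤ Finsupp.mapDomain f D b := by
  classical
  rw [Finsupp.mapDomain, Finsupp.sum_apply, Finsupp.sum]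
  refine Finset.sum_nonneg fun a' _ => ?_
  rw [Finsupp.single_apply]
  split_ifs with h
  · exact hD a' h
  · exact le_rfl

theorem rv_coe_ne_zero_of_red_ne_zero {u : rvRing A π N} (hu : rvRed A π N u ≠ 0) :
    (u : ↥(rvFL L N)) ≠ 0 := by
  intro h
  apply hu
  have : u = 0 := Subtype.ext h
  rw [this, map_zero]

/-- **Fibre inequality for functions**: if `u` in the Gauss ring has nonzero reduction and no
pole in the disc of `Q`, then `ord_P u ≤ ord_Q (red u)` for every `P` in the disc. -/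
theorem RvHyp.ord_le_ord_red (H : RvHyp A π N r) (u : rvRing A π N)
    (hu : rvRed A π N u ≠ 0) (Q : Place k ↥(rvFk k N))
    (hnp : ∀ P1, r P1 = Q → 0 ≤ P1.ord (u : ↥(rvFL L N)))
    (P : Place L ↥(rvFL L N)) (hP : r P = Q) :
    P.ord (u : ↥(rvFL L N)) ≤ Q.ord (rvRed A π N u) := by
  obtain ⟨D, hD⟩ := H.hdiv _ (rv_coe_ne_zero_of_red_ne_zero hu)
  have h1 := H.mapDomain_eq u hu D hD Q
  have h2 := rv_le_mapDomain r D Q P hP (fun P1 h => by rw [hD]; exact hnp P1 h)
  rw [hD P, h1] at h2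
  exact h2

/-- no poles in the disc implies no pole of the reduction -/
theorem RvHyp.ord_red_nonneg (H : RvHyp A π N r) (u : rvRing A π N)
    (hu : rvRed A π N u ≠ 0) (Q : Place k ↥(rvFk k N))
    (hnp : ∀ P1, r P1 = Q → 0 ≤ P1.ord (u : ↥(rvFL L N))) :
    0 ≤ Q.ord (rvRed A π N u) := by
  obtain ⟨D, hD⟩ := H.hdiv _ (rv_coe_ne_zero_of_red_ne_zero hu)
  have h1 := H.mapDomain_eq u hu D hD Q
  rw [← h1]
  refine rv_mapDomain_nonneg_fibre r D Q ?_
  intro P1 h
  rw [hD]
  exact hnp P1 h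

/-- **Value lemma.** -/
theorem RvHyp.value_lemma (H : RvHyp A π N r) (y : rvRing A π N) (Q : Place k ↥(rvFk k N))
    (hnp : ∀ P1, r P1 = Q → 0 ≤ P1.ord (y : ↥(rvFL L N)))
    (P : Place L ↥(rvFL L N)) (hP : r P = Q) (c : L)
    (hc : 1 ≤ P.ord ((y : ↥(rvFL L N)) - algebraMap L ↥(rvFL L N) c))
    (hyc : (y : ↥(rvFL L N)) ≠ algebraMap L ↥(rvFL L N) c) :
    ∃ hcA : c ∈ A, rvRed A π N y = algebraMap k ↥(rvFk k N) (π ⟨c, hcA⟩) ∨
      1 ≤ Q.ord (rvRed A π N y - algebraMap k ↥(rvFk k N) (π ⟨c, hcA⟩)) := by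
  have hord_c : ∀ (P1 : Place L ↥(rvFL L N)) (c' : L),
      0 ≤ P1.ord (algebraMap L ↥(rvFL L N) c') := by
    intro P1 c'
    rcases eq_or_ne c' 0 with rfl | hc'
    · rw [map_zero, Place.ord_zero]
    · have h1 : P1.adicValuation (algebraMap L ↥(rvFL L N) c') ≤ 1 :=
        P1.adicValuation_algebraMap_le_one c'
      rcases (P1.adicValuation_le_one_iff).mp h1 with h | h
      · exact absurd ((map_eq_zero _).mp h) hc'
      · exact h
  -- `y - c` has no pole in the disc
  have hsub_nonneg : ∀ (P1 : Place L ↥(rvFL L N)) (f g : ↥(rvFL L N)), 0 ≤ P1.ord f →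
      0 ≤ P1.ord g → f - g ≠ 0 → 0 ≤ P1.ord (f - g) := by
    intro P1 f g hf hg hfg
    have h1 : P1.adicValuation f ≤ 1 := (P1.adicValuation_le_one_iff).mpr (Or.inr hf)
    have h2 : P1.adicValuation g ≤ 1 := (P1.adicValuation_le_one_iff).mpr (Or.inr hg)
    have h3 : P1.adicValuation (f - g) ≤ 1 :=
      (Valuation.map_sub _ _ _).trans (max_le h1 h2)
    rcases (P1.adicValuation_le_one_iff).mp h3 with h | h
    · exact absurd h hfg
    · exact h
  have hne : (y : ↥(rvFL L N)) - algebraMap L ↥(rvFL L N) c ≠ 0 := sub_ne_zero.mpr hyc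
  have hnp' : ∀ P1, r P1 = Q →
      0 ≤ P1.ord ((y : ↥(rvFL L N)) - algebraMap L ↥(rvFL L N) c) := fun P1 h1 =>
    hsub_nonneg P1 _ _ (hnp P1 h1) (hord_c P1 c) hne
  have hcA : c ∈ A := by
    by_contra hcn
    have hci : c⁻¹ ∈ A := (A.mem_or_inv_mem c).resolve_left hcn
    have hc0 : c ≠ 0 := fun h0 => hcn (h0 ▸ A.zero_mem)
    have hnu : ¬ IsUnit (⟨c⁻¹, hci⟩ : A) := by
      intro hu
      obtain ⟨u, hu⟩ := hu
      apply hcn
      have : ((↑u⁻¹ : A) : L) = c := by
        have h1 : (u : A) * (↑u⁻¹ : A) = 1 := Units.mul_inv u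
        have h2 := congrArg (Subtype.val) h1
        rw [hu] at h2
        have h3 : c⁻¹ * ((↑u⁻¹ : A) : L) = 1 := h2
        field_simp at h3
        exact h3
      rw [← this]
      exact (↑u⁻¹ : A).2
    -- `u = 1 - c⁻¹ y`
    set ci : rvRing A π N := ⟨algebraMap L ↥(rvFL L N) (c⁻¹ : L),
      rv_algebraMap_mem_rvRing (⟨c⁻¹, hci⟩ : A)⟩ with hci'
    set u : rvRing A π N := 1 - ci * y with hu
    have hredci : rvRed A π N ci = 0 := by
      rw [hci', rvRed_algebraMap (⟨c⁻¹, hci⟩ : A), (H.hker _).mpr hnu, map_zero]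
    have hredu : rvRed A π N u = 1 := by
      rw [hu, map_sub, map_one, map_mul, hredci, zero_mul, sub_zero]
    have hu0 : rvRed A π N u ≠ 0 := by rw [hredu]; exact one_ne_zero
    have huval : (u : ↥(rvFL L N)) = -(algebraMap L ↥(rvFL L N) (c⁻¹ : L)) *
        ((y : ↥(rvFL L N)) - algebraMap L ↥(rvFL L N) c) := by
      show (1 : ↥(rvFL L N)) - algebraMap L ↥(rvFL L N) (c⁻¹ : L) * (y : ↥(rvFL L N)) = _
      rw [neg_mul, mul_sub, ← map_mul, inv_mul_cancel₀ hc0, map_one]
      ring
    have hci0 : -(algebraMap L ↥(rvFL L N) (c⁻¹ : L)) ≠ 0 :=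
      neg_ne_zero.mpr fun h0 => inv_ne_zero hc0 ((map_eq_zero _).mp h0)
    have hordci : ∀ P1 : Place L ↥(rvFL L N),
        P1.ord (-(algebraMap L ↥(rvFL L N) (c⁻¹ : L))) = 0 := by
      intro P1
      have h1 := hord_c P1 (-(c⁻¹))
      have h2 := hord_c P1 (-(c⁻¹))⁻¹
      rw [map_inv₀, Place.ord_inv] at h2
      rw [map_neg] at h1 h2
      omega
    have hordu : ∀ P1 : Place L ↥(rvFL L N), P1.ord (u : ↥(rvFL L N)) =
        P1.ord ((y : ↥(rvFL L N)) - algebraMap L ↥(rvFL L N) c) := by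
      intro P1
      rw [huval, P1.ord_mul hci0 hne, hordci, zero_add]
    have h1 := H.ord_le_ord_red u hu0 Q (fun P1 h1 => by rw [hordu]; exact hnp' P1 h1) P hP
    rw [hordu, hredu, Place.ord_one] at h1
    omega
  refine ⟨hcA, ?_⟩
  by_cases h0 : rvRed A π N y = algebraMap k ↥(rvFk k N) (π ⟨c, hcA⟩)
  · exact Or.inl h0
  right
  set cc : rvRing A π N := ⟨algebraMap L ↥(rvFL L N) (c : L),
    rv_algebraMap_mem_rvRing (⟨c, hcA⟩ : A)⟩ with hcc
  have hred : rvRed A π N (y - cc) =
      rvRed A π N y - algebraMap k ↥(rvFk k N) (π ⟨c, hcA⟩) := by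
    rw [map_sub, hcc, rvRed_algebraMap (⟨c, hcA⟩ : A)]
  have hred0 : rvRed A π N (y - cc) ≠ 0 := by
    rw [hred]
    exact sub_ne_zero.mpr h0
  have h1 := H.ord_le_ord_red (y - cc) hred0 Q hnp' P hP
  rw [hred] at h1
  exact le_trans hc h1

/-- **Coordinates on residue discs.** -/
theorem RvHyp.exists_coord (H : RvHyp A π N r) (hArch : RvArch A)
    (hsurj : Function.Surjective π) {gL gk : ℕ} (hL : RiemannPackage L ↥(rvFL L N) gL)
    (hk : RiemannPackage k ↥(rvFk k N) gk) (hg : gL ≤ gk)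
    (Q : Place k ↥(rvFk k N)) (P : Place L ↥(rvFL L N)) (hP : r P = Q) :
    ∃ t : rvRing A π N, 1 ≤ P.ord (t : ↥(rvFL L N)) ∧ Q.ord (rvRed A π N t) = 1 ∧
      ∀ P1, r P1 = Q → 0 ≤ P1.ord (t : ↥(rvFL L N)) := by
  classical
  obtain ⟨c, hc⟩ := H.lifting hArch hsurj hL hk hg
  obtain ⟨ck, hck⟩ := hk.eq_of_large
  -- another place
  haveI := hk.infinite_places
  obtain ⟨Q₀, hQ₀⟩ : ∃ Q₀ : Place k ↥(rvFk k N), Q₀ ≠ Q :=
    exists_ne Q
  obtain ⟨P₀, hP₀⟩ := H.r_surjective hsurj Q₀
  have hPP₀ : P ≠ P₀ := by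
    rintro rfl
    exact hQ₀ (hP₀.symm.trans hP)
  set n : ℤ := max c ck + 2 with hn
  set D : Divisor L ↥(rvFL L N) := Finsupp.single P₀ n - Finsupp.single P 1 with hD
  set E : Divisor k ↥(rvFk k N) := Finsupp.single Q₀ n - Finsupp.single Q 1 with hE
  set E' : Divisor k ↥(rvFk k N) := Finsupp.single Q₀ n - Finsupp.single Q 2 with hE'
  have hDE : Finsupp.mapDomain r D = E := by
    rw [hD, hE, Finsupp.mapDomain_sub, Finsupp.mapDomain_single, Finsupp.mapDomain_single,
      hP, hP₀]
  have hdegD : Divisor.degree D = n - 1 := by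
    rw [hD, map_sub, Divisor.degree_single, Divisor.degree_single, hL.deg_one, hL.deg_one]
    simp
  have hdegE : Divisor.degree E = n - 1 := by
    rw [hE, map_sub, Divisor.degree_single, Divisor.degree_single, hk.deg_one, hk.deg_one]
    simp
  have hdegE' : Divisor.degree E' = n - 2 := by
    rw [hE', map_sub, Divisor.degree_single, Divisor.degree_single, hk.deg_one, hk.deg_one]
    simp
  have hc1 : c ≤ n - 1 := by have := le_max_left c ck; omega
  have hc2 : ck ≤ n - 1 := by have := le_max_right c ck; omega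
  have hc3 : ck ≤ n - 2 := by have := le_max_right c ck; omega
  have e1 := hck E (by rw [hdegE]; exact hc2)
  have e2 := hck E' (by rw [hdegE']; exact hc3)
  rw [hdegE] at e1
  rw [hdegE'] at e2
  -- an element of `L(E) \ L(E')`
  have hEQ : E Q = -1 := by
    rw [hE, Finsupp.sub_apply, Finsupp.single_apply, if_neg hQ₀, Finsupp.single_apply,
      if_pos rfl]
    ring
  have hE'Q : E' Q = -2 := by
    rw [hE', Finsupp.sub_apply, Finsupp.single_apply, if_neg hQ₀, Finsupp.single_apply,
      if_pos rfl]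
    ring
  have hEE' : ∀ v, v ≠ Q → E' v = E v := by
    intro v hv
    rw [hE, hE', Finsupp.sub_apply, Finsupp.sub_apply, Finsupp.single_apply,
      Finsupp.single_apply, Finsupp.single_apply, if_neg (Ne.symm hv), if_neg (Ne.symm hv)]
  have hle : riemannRochSpace E' ≤ riemannRochSpace E := by
    intro x hx
    rw [mem_riemannRochSpace_iff] at hx ⊢
    intro v
    rcases hx v with h | h
    · exact Or.inl h
    · right
      by_cases hv : v = Q
      · subst hv
        rw [hE'Q] at h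
        rw [hEQ]
        omega
      · rw [hEE' v hv] at h
        exact h
  obtain ⟨x, hxE, hxE'⟩ : ∃ x, x ∈ riemannRochSpace E ∧ x ∉ riemannRochSpace E' := by
    by_contra hcon
    push Not at hcon
    have heq : riemannRochSpace E = riemannRochSpace E' := le_antisymm hcon hle
    rw [heq] at e1
    omega
  have hx0 : x ≠ 0 := fun h0 => hxE' (h0 ▸ Submodule.zero_mem _)
  have hxQ : Q.ord x = 1 := by
    have h1 : 1 ≤ Q.ord x := by
      rcases (mem_riemannRochSpace_iff.mp hxE) Q with h | h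
      · exact absurd h hx0
      · rw [hEQ] at h
        omega
    have h2 : Q.ord x < 2 := by
      by_contra hcon
      push Not at hcon
      apply hxE'
      rw [mem_riemannRochSpace_iff]
      intro v
      right
      by_cases hv : v = Q
      · subst hv
        rw [hE'Q]
        omega
      · rw [hEE' v hv]
        rcases (mem_riemannRochSpace_iff.mp hxE) v with h | h
        · exact absurd h hx0
        · exact h
    omega
  obtain ⟨t, htD, htx⟩ := hc D (by rw [hdegD]; exact hc1) x (by rw [hDE]; exact hxE)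
  have ht0 : (t : ↥(rvFL L N)) ≠ 0 := rv_coe_ne_zero_of_red_ne_zero (by rw [htx]; exact hx0)
  refine ⟨t, ?_, by rw [htx]; exact hxQ, ?_⟩
  · rcases (mem_riemannRochSpace_iff.mp htD) P with h | h
    · exact absurd h ht0
    · have hDP : D P = -1 := by
        rw [hD, Finsupp.sub_apply, Finsupp.single_apply, if_neg (Ne.symm hPP₀),
          Finsupp.single_apply, if_pos rfl]
        ring
      rw [hDP] at h
      omega
  · intro P1 hP1
    have hP1₀ : P₀ ≠ P1 := by
      rintro rfl
      exact hQ₀ (hP₀.symm.trans hP1)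
    rcases (mem_riemannRochSpace_iff.mp htD) P1 with h | h
    · exact absurd h ht0
    · have hDP : D P1 ≤ 0 := by
        rw [hD, Finsupp.sub_apply, Finsupp.single_apply, if_neg hP1₀, Finsupp.single_apply]
        split_ifs <;> omega
      omega

/-- a coordinate has a simple zero at `P` and no other zero in the disc -/
theorem RvHyp.ord_eq_of_coord (H : RvHyp A π N r) (Q : Place k ↥(rvFk k N))
    (P : Place L ↥(rvFL L N)) (hP : r P = Q) (t : rvRing A π N)
    (h1 : 1 ≤ P.ord (t : ↥(rvFL L N))) (h2 : Q.ord (rvRed A π N t) = 1)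
    (h3 : ∀ P1, r P1 = Q → 0 ≤ P1.ord (t : ↥(rvFL L N))) :
    P.ord (t : ↥(rvFL L N)) = 1 ∧
      ∀ P1, r P1 = Q → P1 ≠ P → P1.ord (t : ↥(rvFL L N)) = 0 := by
  have ht0 : rvRed A π N t ≠ 0 := by
    intro h0
    rw [h0, Place.ord_zero] at h2
    exact zero_ne_one h2
  obtain ⟨D, hD⟩ := H.hdiv _ (rv_coe_ne_zero_of_red_ne_zero ht0)
  have h4 := H.mapDomain_eq t ht0 D hD Q
  rw [h2] at h4
  have h5 := H.ord_le_ord_red t ht0 Q h3 P hP
  rw [h2] at h5
  refine ⟨le_antisymm h5 h1, fun P1 hP1 hne => ?_⟩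
  have h6 := rv_eq_zero_of_mapDomain r D Q P hP (fun a' h => by rw [hD]; exact h3 a' h)
    (by rw [h4, hD]; exact h1) P1 hP1 hne
  rw [← hD]
  exact h6

end RedCoord

end Fermat.Agent.H18
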