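import Mathlib
import Fermat.Agent.H18.RedCoord
import Fermat.Agent.H87.ESD.CoreInterfaces

/-!
# CORE-a: the coordinate statement

`Fermat.Agent.H18.coordStatement : Fermat.Agent.H87.ESD.CoordStatement`, with empty exceptional
set: under the Gauss-ring hypotheses, the two Riemann packages and `g_L ≤ g_k`, EVERY place `Q` of
the residue function field carries a coordinate on its residue disc (`RvHyp.exists_coord`).
-/

set_option autoImplicit false
set_option linter.unusedSectionVars false
set_option synthInstance.maxHeartbeats 400000
set_option maxHeartbeats 1600000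

noncomputable section

open ModularCurve AlgebraicCurve Fermat.Agent.H27.ESD

namespace Fermat.Agent.H18

/-- Coordinates at every place (general `L`, archimedean-type valuation ring, onto residue
map). -/
theorem RvHyp.hasCoord {L : Type*} [Field L] [Algebra ℚ L] {A : ValuationSubring L}
    {k : Type*} [Field k] {π : A →+* k} {N : ℕ}
    {r : Place L ↥(rvFL L N) → Place k ↥(rvFk k N)}
    (H : RvHyp A π N r) (hArch : RvArch A)
    (hsurj : Function.Surjective π) {gL gk : ℕ} (hL : RiemannPackage L ↥(rvFL L N) gL)
    (hk : RiemannPackage k ↥(rvFk k N) gk) (hg : gL ≤ gk)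
    (Q : Place k ↥(rvFk k N)) : Fermat.Agent.H87.ESD.HasCoord A π N r Q := by
  obtain ⟨P, hP⟩ := H.r_surjective hsurj Q
  exact ⟨P, hP, H.exists_coord hArch hsurj hL hk hg Q P hP⟩

/-- **CORE-a.** The coordinate statement, with empty exceptional set. -/
theorem coordStatement : Fermat.Agent.H87.ESD.CoordStatement := by
  intro N _ ℓ hℓ _ A hA r H gL gk hL hk hg
  refine ⟨∅, Set.finite_empty, fun Q _ => ?_⟩
  exact H.hasCoord (rvArch_algebraicClosure A hℓ.out hA) IsLocalRing.residue_surjective
    hL hk hg Q

end Fermat.Agent.H18
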