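import Mathlib
import Fermat.Agent.H27.ESD.Interfaces
import Fermat.Agent.H23.PlaceBasic

/-!
# T4 / EX-R, part 0: Riemann-package toolkit

Elementary consequences of a `RiemannPackage K F g` used by the dimension-count construction of
the place reduction (`Fermat.Agent.H18.ExDim`):

* `xr_mem_rr`, `xr_rr_mono`, `xr_mul_mem_rr`, `xr_mul_mem_rr_iff`;
* degrees: `xr_degree_eq_sum`, `xr_degree_mono`, `xr_eq_of_le_of_degree_eq`,
  `xr_degree_mapDomain`, `xr_eq_single_of_degree_one`;
* `xr_finrank_eq`, `xr_finrank_le` (`ℓ(D) ≤ max (deg D) c + 1 - g`);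
* `xr_exists_ord_eq` (large divisors are base point free), `xr_le_of_rr_le`;
* `xr_degree_nonneg_of_mem`, `xr_exists_rr_mem` (finitely many functions lie in some `L(E)`).
-/

set_option autoImplicit false
set_option linter.unusedSectionVars false
set_option linter.style.haveILetI false

noncomputable section

open AlgebraicCurve Fermat.Agent.H27.ESD

namespace Fermat.Agent.H18

section ExRR

variable {K F : Type*} [Field K] [Field F] [Algebra K F]

theorem xr_mem_rr {D : Divisor K F} {f : F} (hf : f ≠ 0) :
    f ∈ riemannRochSpace D ↔ ∀ v : Place K F, -D v ≤ v.ord f := by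
  rw [mem_riemannRochSpace_iff]
  constructor
  · intro h v
    rcases h v with h0 | h1
    · exact absurd h0 hf
    · exact h1
  · intro h v
    exact Or.inr (h v)

theorem xr_rr_mono {D D' : Divisor K F} (h : D ≤ D') :
    riemannRochSpace D ≤ riemannRochSpace D' := by
  intro f hf
  rw [mem_riemannRochSpace_iff] at hf ⊢
  intro v
  rcases hf v with h0 | h1
  · exact Or.inl h0
  · exact Or.inr (le_trans (neg_le_neg (h v)) h1)

theorem xr_mul_mem_rr {D D' : Divisor K F} {f f' : F} (hf : f ∈ riemannRochSpace D)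
    (hf' : f' ∈ riemannRochSpace D') : f * f' ∈ riemannRochSpace (D + D') := by
  rcases eq_or_ne f 0 with rfl | h0
  · rw [zero_mul]; exact Submodule.zero_mem _
  rcases eq_or_ne f' 0 with rfl | h0'
  · rw [mul_zero]; exact Submodule.zero_mem _
  rw [xr_mem_rr (mul_ne_zero h0 h0')]
  intro v
  have h1 := (xr_mem_rr h0).mp hf v
  have h2 := (xr_mem_rr h0').mp hf' v
  rw [v.ord_mul h0 h0', Finsupp.add_apply]
  linarith

theorem xr_one_mem_rr {D : Divisor K F} (hD : 0 ≤ D) : (1 : F) ∈ riemannRochSpace D := by
  rw [xr_mem_rr one_ne_zero]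
  intro v
  rw [Place.ord_one]
  have := hD v
  simp only [Finsupp.coe_zero, Pi.zero_apply] at this
  linarith

/-- `f * h ∈ L(D) ↔ h ∈ L(D + div f)` -/
theorem xr_mul_mem_rr_iff {D Df : Divisor K F} {f : F} (hf : f ≠ 0)
    (hDf : ∀ v : Place K F, Df v = v.ord f) (h : F) :
    f * h ∈ riemannRochSpace D ↔ h ∈ riemannRochSpace (D + Df) := by
  rcases eq_or_ne h 0 with rfl | h0
  · rw [mul_zero]
    exact ⟨fun _ => Submodule.zero_mem _, fun _ => Submodule.zero_mem _⟩
  rw [xr_mem_rr (mul_ne_zero hf h0), xr_mem_rr h0]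
  refine forall_congr' fun v => ?_
  rw [v.ord_mul hf h0, Finsupp.add_apply, hDf v]
  constructor <;> intro h <;> linarith

/-! ### degrees -/

theorem xr_degree_eq_sum (hdeg : ∀ v : Place K F, v.deg = 1) (D : Divisor K F) :
    Divisor.degree D = D.sum fun _ n => n := by
  unfold Divisor.degree
  rw [Finsupp.liftAddHom_apply]
  refine Finsupp.sum_congr fun v _ => ?_
  simp [hdeg v]

theorem xr_degree_mono (hdeg : ∀ v : Place K F, v.deg = 1) {D D' : Divisor K F} (h : D ≤ D') :
    Divisor.degree D ≤ Divisor.degree D' := by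
  classical
  have hsub : D' = D + (D' - D) := by abel
  have hnn : 0 ≤ Divisor.degree (D' - D) := by
    rw [xr_degree_eq_sum hdeg]
    refine Finset.sum_nonneg fun v _ => ?_
    show 0 ≤ (D' - D) v
    rw [Finsupp.sub_apply]
    have := h v
    linarith
  rw [hsub, map_add]
  linarith

theorem xr_eq_of_le_of_degree_eq (hdeg : ∀ v : Place K F, v.deg = 1) {D D' : Divisor K F}
    (h : D ≤ D') (hd : Divisor.degree D = Divisor.degree D') : D = D' := by
  classical
  have hnn : ∀ v, 0 ≤ (D' - D) v := fun v => by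
    rw [Finsupp.sub_apply]
    have := h v
    linarith
  have h0 : Divisor.degree (D' - D) = 0 := by rw [map_sub, hd, sub_self]
  rw [xr_degree_eq_sum hdeg] at h0
  have h1 : ∀ v ∈ (D' - D).support, (D' - D) v = 0 :=
    (Finset.sum_eq_zero_iff_of_nonneg fun v _ => hnn v).mp h0
  ext v
  by_cases hv : v ∈ (D' - D).support
  · have := h1 v hv
    rw [Finsupp.sub_apply] at this
    linarith
  · rw [Finsupp.notMem_support_iff, Finsupp.sub_apply] at hv
    linarith

theorem xr_degree_mapDomain {K' F' : Type*} [Field K'] [Field F'] [Algebra K' F']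
    (hdeg : ∀ v : Place K F, v.deg = 1) (hdeg' : ∀ v : Place K' F', v.deg = 1)
    (r : Place K F → Place K' F') (D : Divisor K F) :
    Divisor.degree (Finsupp.mapDomain r D) = Divisor.degree D := by
  classical
  induction D using Finsupp.induction_linear with
  | zero => simp
  | add D₁ D₂ h₁ h₂ => rw [Finsupp.mapDomain_add, map_add, map_add, h₁, h₂]
  | single v n =>
    rw [Finsupp.mapDomain_single, Divisor.degree_single, Divisor.degree_single, hdeg, hdeg']

theorem xr_eq_single_of_degree_one (hdeg : ∀ v : Place K F, v.deg = 1) {E : Divisor K F}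
    (hE : 0 ≤ E) (hd : Divisor.degree E = 1) : ∃ Q : Place K F, E = Finsupp.single Q 1 := by
  classical
  have hne : E ≠ 0 := by
    rintro rfl
    rw [map_zero] at hd
    exact zero_ne_one hd
  obtain ⟨Q, hQ⟩ : ∃ Q, E Q ≠ 0 := by
    by_contra hcon
    push Not at hcon
    exact hne (Finsupp.ext hcon)
  have hQ1 : 1 ≤ E Q := by
    have := hE Q
    simp only [Finsupp.coe_zero, Pi.zero_apply] at this
    omega
  have hle : Finsupp.single Q (1 : ℤ) ≤ E := by
    intro v
    rw [Finsupp.single_apply]
    split_ifs with h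
    · subst h; exact hQ1
    · have := hE v
      simpa using this
  refine ⟨Q, (xr_eq_of_le_of_degree_eq hdeg hle ?_).symm⟩
  rw [Divisor.degree_single, hdeg, hd]
  norm_num

theorem xr_ord_eq_of_mem_of_notMem {D : Divisor K F} {f : F} (hf0 : f ≠ 0) {Q : Place K F}
    (hfD : f ∈ riemannRochSpace D) (hfD₁ : f ∉ riemannRochSpace (D - Finsupp.single Q 1)) :
    Q.ord f = -D Q := by
  classical
  have hf := (xr_mem_rr hf0).mp hfD
  rw [xr_mem_rr hf0] at hfD₁
  push Not at hfD₁
  obtain ⟨v, hv⟩ := hfD₁
  have hvQ : v = Q := by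
    by_contra hne'
    have : (D - Finsupp.single Q (1 : ℤ) : Divisor K F) v = D v := by
      rw [Finsupp.sub_apply, Finsupp.single_apply, if_neg (Ne.symm hne'), sub_zero]
    rw [this] at hv
    exact absurd (hf v) (not_le.mpr hv)
  subst hvQ
  have : (D - Finsupp.single v (1 : ℤ) : Divisor K F) v = D v - 1 := by
    rw [Finsupp.sub_apply, Finsupp.single_apply, if_pos rfl]
  rw [this] at hv
  have := hf v
  omega

/-- a finite set of nonzero functions: the least effective divisor bounding all their poles -/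
theorem xr_exists_sup_poles [HasPrincipalDivisors K F] (s : Finset F) (hs : ∀ x ∈ s, x ≠ 0) :
    ∃ M : Divisor K F, 0 ≤ M ∧ (∀ x ∈ s, x ∈ riemannRochSpace M) ∧
      ∀ Q : Place K F, 0 < M Q → ∃ x ∈ s, Q.ord x = -M Q := by
  classical
  induction s using Finset.induction_on with
  | empty =>
    refine ⟨0, le_rfl, fun x hx => absurd hx (Finset.notMem_empty x), fun Q hQ => ?_⟩
    simp at hQ
  | insert a s ha ih =>
    obtain ⟨M, hM0, hMs, hMQ⟩ := ih fun x hx => hs x (Finset.mem_insert_of_mem hx)
    have ha0 : a ≠ 0 := hs a (Finset.mem_insert_self a s)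
    obtain ⟨Da, hDa, -⟩ := HasPrincipalDivisors.exists_divisor (K := K) a ha0
    refine ⟨M ⊔ (-Da), le_trans hM0 le_sup_left, fun x hx => ?_, fun Q hQ => ?_⟩
    · rcases Finset.mem_insert.mp hx with rfl | hx
      · rw [xr_mem_rr ha0]
        intro v
        rw [Finsupp.sup_apply, Finsupp.neg_apply, hDa v]
        have : -(v.ord x) ≤ M v ⊔ -(v.ord x) := le_sup_right
        linarith
      · exact xr_rr_mono le_sup_left (hMs x hx)
    · rw [Finsupp.sup_apply, Finsupp.neg_apply, hDa Q] at hQ ⊢
      rcases le_total (M Q) (-(Q.ord a)) with h | h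
      · rw [sup_eq_right.mpr h]
        exact ⟨a, Finset.mem_insert_self a s, by ring⟩
      · rw [sup_eq_left.mpr h] at hQ ⊢
        obtain ⟨x, hx, hxQ⟩ := hMQ Q hQ
        exact ⟨x, Finset.mem_insert_of_mem hx, hxQ⟩

/-! ### consequences of the Riemann package -/

variable {g : ℕ}

theorem xr_degree_single_nat (R : RiemannPackage K F g) (Q : Place K F) (n : ℤ) :
    Divisor.degree (Finsupp.single Q n) = n := by
  rw [Divisor.degree_single, R.deg_one, Nat.cast_one, mul_one]

/-- a nonzero element of `L(D)` forces `deg D ≥ 0` -/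
theorem xr_degree_nonneg_of_mem (R : RiemannPackage K F g) {D : Divisor K F} {f : F}
    (hf : f ≠ 0) (hfD : f ∈ riemannRochSpace D) : 0 ≤ Divisor.degree D := by
  haveI := R.principal
  obtain ⟨Df, hDf, hdeg⟩ := HasPrincipalDivisors.exists_divisor (K := K) f hf
  have hle : (0 : Divisor K F) ≤ D + Df := by
    intro v
    have := (xr_mem_rr hf).mp hfD v
    rw [Finsupp.add_apply, hDf v]
    simp only [Finsupp.coe_zero, Pi.zero_apply]
    linarith
  have := xr_degree_mono R.deg_one hle
  rw [map_zero, map_add, hdeg, add_zero] at this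
  exact this

theorem xr_finrank_mono (R : RiemannPackage K F g) {D D' : Divisor K F} (h : D ≤ D') :
    Module.finrank K (riemannRochSpace D) ≤ Module.finrank K (riemannRochSpace D') := by
  haveI := R.finite D'
  exact Submodule.finrank_mono (xr_rr_mono h)

/-- the threshold of the Riemann package, with the general upper bound -/
theorem xr_exists_threshold (R : RiemannPackage K F g) :
    ∃ c : ℤ, 0 ≤ c ∧
      (∀ D : Divisor K F, c ≤ Divisor.degree D →
        (Module.finrank K (riemannRochSpace D) : ℤ) = Divisor.degree D + 1 - (g : ℤ)) ∧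
      (∀ D : Divisor K F,
        (Module.finrank K (riemannRochSpace D) : ℤ) ≤ max (Divisor.degree D) c + 1 - (g : ℤ)) := by
  classical
  obtain ⟨c₀, hc₀⟩ := R.eq_of_large
  refine ⟨max c₀ 0, le_max_right _ _, fun D hD => hc₀ D (le_trans (le_max_left _ _) hD),
    fun D => ?_⟩
  set c := max c₀ 0 with hc
  by_cases hD : c ≤ Divisor.degree D
  · rw [hc₀ D (le_trans (le_max_left _ _) hD), max_eq_left hD]
  · push Not at hD
    haveI := R.infinite_places
    obtain ⟨P₀⟩ : Nonempty (Place K F) := inferInstance
    set D' : Divisor K F := D + Finsupp.single P₀ (c - Divisor.degree D) with hD'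
    have hle : D ≤ D' := by
      intro v
      rw [hD', Finsupp.add_apply, Finsupp.single_apply]
      split_ifs <;> linarith
    have hdeg : Divisor.degree D' = c := by
      rw [hD', map_add, xr_degree_single_nat R]
      ring
    have h1 := xr_finrank_mono R hle
    have h2 := hc₀ D' (by rw [hdeg]; exact le_max_left _ _)
    rw [hdeg] at h2
    rw [max_eq_right hD.le]
    have : (Module.finrank K (riemannRochSpace D) : ℤ) ≤
        (Module.finrank K (riemannRochSpace D') : ℤ) := by exact_mod_cast h1
    linarith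

/-- large divisors are base point free -/
theorem xr_exists_ord_eq (R : RiemannPackage K F g) {c : ℤ}
    (hc : ∀ D : Divisor K F, c ≤ Divisor.degree D →
        (Module.finrank K (riemannRochSpace D) : ℤ) = Divisor.degree D + 1 - (g : ℤ))
    {D : Divisor K F} (hD : c + 1 ≤ Divisor.degree D) (Q : Place K F) :
    ∃ f : F, f ∈ riemannRochSpace D ∧ f ≠ 0 ∧ Q.ord f = -D Q := by
  classical
  set D₁ : Divisor K F := D - Finsupp.single Q 1 with hD₁
  have hle : D₁ ≤ D := by
    intro v
    rw [hD₁, Finsupp.sub_apply, Finsupp.single_apply]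
    split_ifs <;> linarith
  have hdeg₁ : Divisor.degree D₁ = Divisor.degree D - 1 := by
    rw [hD₁, map_sub, xr_degree_single_nat R]
  have h1 := hc D₁ (by rw [hdeg₁]; linarith)
  have h2 := hc D (by linarith)
  have hlt : Module.finrank K (riemannRochSpace D₁) < Module.finrank K (riemannRochSpace D) := by
    have : (Module.finrank K (riemannRochSpace D₁) : ℤ) <
        (Module.finrank K (riemannRochSpace D) : ℤ) := by
      rw [h1, h2, hdeg₁]; linarith
    exact_mod_cast this
  have hne : ¬ riemannRochSpace D ≤ riemannRochSpace D₁ := by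
    intro hcon
    haveI := R.finite D₁
    have := Submodule.finrank_mono hcon
    omega
  obtain ⟨f, hfD, hfD₁⟩ := SetLike.not_le_iff_exists.mp hne
  have hf0 : f ≠ 0 := by
    rintro rfl
    exact hfD₁ (Submodule.zero_mem _)
  exact ⟨f, hfD, hf0, xr_ord_eq_of_mem_of_notMem hf0 hfD hfD₁⟩

/-- a large divisor is determined by its Riemann-Roch space (monotone form) -/
theorem xr_le_of_rr_le (R : RiemannPackage K F g) {c : ℤ}
    (hc : ∀ D : Divisor K F, c ≤ Divisor.degree D →
        (Module.finrank K (riemannRochSpace D) : ℤ) = Divisor.degree D + 1 - (g : ℤ))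
    {D D' : Divisor K F} (hD : c + 1 ≤ Divisor.degree D)
    (h : riemannRochSpace D ≤ riemannRochSpace D') : D ≤ D' := by
  intro Q
  obtain ⟨f, hfD, hf0, hfQ⟩ := xr_exists_ord_eq R hc hD Q
  have := (xr_mem_rr hf0).mp (h hfD) Q
  rw [hfQ] at this
  linarith

theorem xr_eq_of_rr_eq (R : RiemannPackage K F g) {c : ℤ}
    (hc : ∀ D : Divisor K F, c ≤ Divisor.degree D →
        (Module.finrank K (riemannRochSpace D) : ℤ) = Divisor.degree D + 1 - (g : ℤ))
    {D D' : Divisor K F} (hD : c + 1 ≤ Divisor.degree D) (hD' : c + 1 ≤ Divisor.degree D')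
    (h : riemannRochSpace D = riemannRochSpace D') : D = D' :=
  le_antisymm (xr_le_of_rr_le R hc hD h.le) (xr_le_of_rr_le R hc hD' h.ge)

/-- finitely many functions lie in a common Riemann-Roch space of an effective divisor -/
theorem xr_exists_rr_mem (R : RiemannPackage K F g) (s : Finset F) :
    ∃ E : Divisor K F, 0 ≤ E ∧ ∀ f ∈ s, f ∈ riemannRochSpace E := by
  classical
  induction s using Finset.induction_on with
  | empty => exact ⟨0, le_rfl, fun f hf => absurd hf (Finset.notMem_empty f)⟩
  | insert a s ha ih =>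
    obtain ⟨E, hE, hEs⟩ := ih
    rcases eq_or_ne a 0 with rfl | ha0
    · refine ⟨E, hE, fun f hf => ?_⟩
      rcases Finset.mem_insert.mp hf with rfl | hf
      · exact Submodule.zero_mem _
      · exact hEs f hf
    haveI := R.principal
    obtain ⟨Da, hDa, -⟩ := HasPrincipalDivisors.exists_divisor (K := K) a ha0
    refine ⟨E ⊔ (-Da), le_trans hE le_sup_left, fun f hf => ?_⟩
    rcases Finset.mem_insert.mp hf with rfl | hf
    · rw [xr_mem_rr ha0]
      intro v
      rw [Finsupp.sup_apply, Finsupp.neg_apply, hDa v]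
      have : -(v.ord f) ≤ E v ⊔ -(v.ord f) := le_sup_right
      linarith
    · exact xr_rr_mono le_sup_left (hEs f hf)

/-- a fixed threshold of the Riemann package -/
def xrThr (R : RiemannPackage K F g) : ℤ := (xr_exists_threshold R).choose

theorem xrThr_nonneg (R : RiemannPackage K F g) : 0 ≤ xrThr R :=
  (xr_exists_threshold R).choose_spec.1

theorem xrThr_eq (R : RiemannPackage K F g) (D : Divisor K F)
    (hD : xrThr R ≤ Divisor.degree D) :
    (Module.finrank K (riemannRochSpace D) : ℤ) = Divisor.degree D + 1 - (g : ℤ) :=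
  (xr_exists_threshold R).choose_spec.2.1 D hD

theorem xrThr_le (R : RiemannPackage K F g) (D : Divisor K F) :
    (Module.finrank K (riemannRochSpace D) : ℤ) ≤
      max (Divisor.degree D) (xrThr R) + 1 - (g : ℤ) :=
  (xr_exists_threshold R).choose_spec.2.2 D

end ExRR

end Fermat.Agent.H18
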