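import Mathlib
import Fermat.Agent.H18.ExRR

/-!
# T4 / EX-R, part 1: the reduction of Riemann-Roch spaces

Abstract setting (`XrData`): function fields `F_L / L` and `F_k / k`, a subring `O ⊆ F_L`
("Gauss ring") with a surjective reduction `red : O →+* F_k`, such that constants of `k` lift
to constants in `O`, and lattices reduce well (`indep`, `lattice`).

For a divisor `D` of `F_L` put `V_D := red (L(D) ∩ O)`, a `k`-subspace of `F_k` of dimension
`ℓ(D)` (`XrData.finrank_V`).
-/

set_option autoImplicit false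
set_option linter.unusedSectionVars false
set_option linter.style.haveILetI false

noncomputable section

open AlgebraicCurve Fermat.Agent.H27.ESD

namespace Fermat.Agent.H18

/-- Abstract reduction data between two function fields (no map on places). -/
structure XrData (L k FL Fk : Type*) [Field L] [Field k] [Field FL] [Field Fk]
    [Algebra L FL] [Algebra k Fk] where
  /-- the Gauss ring -/
  O : Subring FL
  /-- the reduction -/
  red : O →+* Fk
  red_surj : Function.Surjective red
  const_surj : ∀ b : k, ∃ (a : L) (ha : algebraMap L FL a ∈ O),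
    red ⟨algebraMap L FL a, ha⟩ = algebraMap k Fk b
  indep : ∀ (n : ℕ) (w : Fin n → O), LinearIndependent k (fun i => red (w i)) →
    LinearIndependent L (fun i => ((w i : O) : FL))
  lattice : ∀ (V : Submodule L FL) (n : ℕ) (f : Fin n → FL), (∀ i, f i ∈ V) →
    LinearIndependent L f → ∃ w : Fin n → O, (∀ i, ((w i : O) : FL) ∈ V) ∧
      LinearIndependent k (fun i => red (w i))

section ExDim

variable {L k FL Fk : Type*} [Field L] [Field k] [Field FL] [Field Fk]
  [Algebra L FL] [Algebra k Fk]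

namespace XrData

variable (G : XrData L k FL Fk)

/-- `V_D = red (L(D) ∩ O)` -/
def V (D : Divisor L FL) : Submodule k Fk where
  carrier := {x | ∃ u : G.O, (u : FL) ∈ riemannRochSpace D ∧ G.red u = x}
  zero_mem' := ⟨0, Submodule.zero_mem _, map_zero _⟩
  add_mem' := by
    rintro _ _ ⟨u, hu, rfl⟩ ⟨v, hv, rfl⟩
    exact ⟨u + v, Submodule.add_mem _ hu hv, map_add _ _ _⟩
  smul_mem' := by
    rintro b _ ⟨u, hu, rfl⟩
    obtain ⟨a, ha, hab⟩ := G.const_surj b
    refine ⟨⟨algebraMap L FL a, ha⟩ * u, ?_, ?_⟩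
    · show algebraMap L FL a * (u : FL) ∈ riemannRochSpace D
      rw [← Algebra.smul_def]
      exact Submodule.smul_mem _ a hu
    · rw [map_mul, hab, Algebra.smul_def]

theorem mem_V {D : Divisor L FL} {x : Fk} :
    x ∈ G.V D ↔ ∃ u : G.O, (u : FL) ∈ riemannRochSpace D ∧ G.red u = x := Iff.rfl

theorem red_mem_V {D : Divisor L FL} (u : G.O) (hu : (u : FL) ∈ riemannRochSpace D) :
    G.red u ∈ G.V D := ⟨u, hu, rfl⟩

theorem V_mono {D D' : Divisor L FL} (h : D ≤ D') : G.V D ≤ G.V D' := by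
  rintro _ ⟨u, hu, rfl⟩
  exact ⟨u, xr_rr_mono h hu, rfl⟩

theorem mul_mem_V {D D' : Divisor L FL} {x y : Fk} (hx : x ∈ G.V D) (hy : y ∈ G.V D') :
    x * y ∈ G.V (D + D') := by
  obtain ⟨u, hu, rfl⟩ := hx
  obtain ⟨v, hv, rfl⟩ := hy
  exact ⟨u * v, xr_mul_mem_rr hu hv, map_mul _ _ _⟩

theorem one_mem_V {D : Divisor L FL} (hD : 0 ≤ D) : (1 : Fk) ∈ G.V D :=
  ⟨1, xr_one_mem_rr hD, map_one _⟩

/-- `indep` for an arbitrary finite index type -/
theorem indep' {ι : Type*} [Fintype ι] (w : ι → G.O)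
    (hw : LinearIndependent k (fun i => G.red (w i))) :
    LinearIndependent L (fun i => ((w i : G.O) : FL)) := by
  classical
  let e := Fintype.equivFin ι
  have h1 : LinearIndependent k (fun j : Fin (Fintype.card ι) => G.red (w (e.symm j))) :=
    hw.comp e.symm e.symm.injective
  have h2 := G.indep _ (fun j => w (e.symm j)) h1
  have h3 := h2.comp e e.injective
  have : ((fun j : Fin (Fintype.card ι) => ((w (e.symm j) : G.O) : FL)) ∘ e)
      = fun i => ((w i : G.O) : FL) := by
    funext i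
    simp
  rwa [this] at h3

theorem rank_V_le (D : Divisor L FL) [Module.Finite L (riemannRochSpace D)] :
    Module.rank k (G.V D) ≤ (Module.finrank L (riemannRochSpace D) : Cardinal) := by
  classical
  apply rank_le
  intro s hs
  have hlift : ∀ x : G.V D, ∃ u : G.O, (u : FL) ∈ riemannRochSpace D ∧ G.red u = (x : Fk) :=
    fun x => x.2
  choose lift hliftD hliftr using hlift
  have h1 : LinearIndependent k (fun i : s => G.red (lift (i : G.V D))) := by
    have h := hs.map' (G.V D).subtype (Submodule.ker_subtype _)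
    have e : (fun i : s => G.red (lift (i : G.V D)))
        = (G.V D).subtype ∘ (fun i : s => (i : G.V D)) := by
      funext i
      exact hliftr _
    rw [e]
    exact h
  have h2 := G.indep' (fun i : s => lift (i : G.V D)) h1
  let w' : s → riemannRochSpace D := fun i => ⟨((lift (i : G.V D) : G.O) : FL), hliftD _⟩
  have hw' : LinearIndependent L w' := by
    refine LinearIndependent.of_comp (riemannRochSpace D).subtype ?_
    exact h2
  have := hw'.fintype_card_le_finrank
  simpa using this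

theorem finite_V (D : Divisor L FL) [Module.Finite L (riemannRochSpace D)] :
    Module.Finite k (G.V D) :=
  Module.rank_lt_aleph0_iff.mp
    (lt_of_le_of_lt (G.rank_V_le D) (Cardinal.natCast_lt_aleph0))

theorem finrank_V_le (D : Divisor L FL) [Module.Finite L (riemannRochSpace D)] :
    Module.finrank k (G.V D) ≤ Module.finrank L (riemannRochSpace D) :=
  Module.finrank_le_of_rank_le (G.rank_V_le D)

theorem finrank_V_ge (D : Divisor L FL) [Module.Finite L (riemannRochSpace D)] :
    Module.finrank L (riemannRochSpace D) ≤ Module.finrank k (G.V D) := by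
  classical
  haveI := G.finite_V D
  set n := Module.finrank L (riemannRochSpace D) with hn
  let b := Module.finBasis L (riemannRochSpace D)
  let f : Fin n → FL := fun i => ((b i : riemannRochSpace D) : FL)
  have hf : LinearIndependent L f :=
    b.linearIndependent.map' (riemannRochSpace D).subtype (Submodule.ker_subtype _)
  obtain ⟨w, hwD, hw⟩ := G.lattice (riemannRochSpace D) n f (fun i => (b i).2) hf
  let w' : Fin n → G.V D := fun i => ⟨G.red (w i), G.red_mem_V (w i) (hwD i)⟩
  have hw' : LinearIndependent k w' := by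
    refine LinearIndependent.of_comp (G.V D).subtype ?_
    exact hw
  have := hw'.fintype_card_le_finrank
  simpa using this

/-- **Lattice reduction**: `dim_k V_D = ℓ(D)`. -/
theorem finrank_V (D : Divisor L FL) [Module.Finite L (riemannRochSpace D)] :
    Module.finrank k (G.V D) = Module.finrank L (riemannRochSpace D) :=
  le_antisymm (G.finrank_V_le D) (G.finrank_V_ge D)

/-- every finite-dimensional subspace of `F_k` lies in some `V_E`, `E ≥ 0` -/
theorem exists_le_V {g₁ : ℕ} (R₁ : RiemannPackage L FL g₁) (W : Submodule k Fk)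
    [Module.Finite k W] : ∃ E : Divisor L FL, 0 ≤ E ∧ W ≤ G.V E := by
  classical
  let b := Module.finBasis k W
  have hlift : ∀ j, ∃ u : G.O, G.red u = ((b j : W) : Fk) := fun j => G.red_surj _
  choose θ hθ using hlift
  obtain ⟨E, hE, hEs⟩ := xr_exists_rr_mem R₁ (Finset.univ.image fun j => ((θ j : G.O) : FL))
  refine ⟨E, hE, fun x hx => ?_⟩
  have h1 := b.sum_repr ⟨x, hx⟩
  have h2 : x = ∑ j, (b.repr ⟨x, hx⟩ j) • ((b j : W) : Fk) := by
    have := congrArg (Submodule.subtype W) h1
    rw [map_sum] at this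
    simpa using this.symm
  rw [h2]
  refine Submodule.sum_mem _ fun j _ => Submodule.smul_mem _ _ ?_
  rw [← hθ j]
  exact G.red_mem_V _ (hEs _ (Finset.mem_image_of_mem _ (Finset.mem_univ j)))

end XrData

/-! ### The pencil lemma in `F_k` -/

section Pencil

variable {K F : Type*} [Field K] [Field F] [Algebra K F] {g : ℕ}

/-- multiplication by `x` on a subspace -/
def xrMul (x : F) (W : Submodule K F) : Submodule K F := W.map (LinearMap.mulLeft K x)

theorem mem_xrMul {x : F} {W : Submodule K F} {y : F} :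
    y ∈ xrMul x W ↔ ∃ f ∈ W, x * f = y := by
  unfold xrMul
  rw [Submodule.mem_map]
  rfl

theorem finrank_xrMul {x : F} (hx : x ≠ 0) (W : Submodule K F) :
    Module.finrank K (xrMul x W) = Module.finrank K W := by
  have hinj : Function.Injective (LinearMap.mulLeft K x) := by
    intro a b hab
    exact mul_left_cancel₀ hx hab
  exact (Submodule.equivMapOfInjective (LinearMap.mulLeft K x) hinj W).finrank_eq.symm

/-- **Pencil lemma.** If `M = max (-div x₁) (-div x₂)` and `deg E ≥ c + deg M` then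
`L(E + M) = x₁ L(E) + x₂ L(E)`. -/
theorem xr_pencil (R : RiemannPackage K F g) {c : ℤ}
    (hc : ∀ D : Divisor K F, c ≤ Divisor.degree D →
        (Module.finrank K (riemannRochSpace D) : ℤ) = Divisor.degree D + 1 - (g : ℤ))
    {x₁ x₂ : F} (h₁ : x₁ ≠ 0) (h₂ : x₂ ≠ 0) (M : Divisor K F)
    (hM : ∀ Q : Place K F, M Q = max (-(Q.ord x₁)) (-(Q.ord x₂)))
    (E : Divisor K F) (hE : c + Divisor.degree M ≤ Divisor.degree E) :
    riemannRochSpace (E + M) ≤
      xrMul x₁ (riemannRochSpace E) ⊔ xrMul x₂ (riemannRochSpace E) := by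
  classical
  haveI := R.principal
  obtain ⟨D₁, hD₁, hdeg₁⟩ := HasPrincipalDivisors.exists_divisor (K := K) x₁ h₁
  obtain ⟨D₂, hD₂, hdeg₂⟩ := HasPrincipalDivisors.exists_divisor (K := K) x₂ h₂
  have hMnn : 0 ≤ Divisor.degree M := by
    have hle : -D₁ ≤ M := by
      intro Q
      rw [Finsupp.neg_apply, hD₁ Q, hM Q]
      exact le_max_left _ _
    have := xr_degree_mono R.deg_one hle
    rw [map_neg, hdeg₁, neg_zero] at this
    exact this
  set M' : Divisor K F := D₁ + D₂ + M with hM'
  have hM'Q : ∀ Q : Place K F, M' Q = max (Q.ord x₁) (Q.ord x₂) := by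
    intro Q
    rw [hM', Finsupp.add_apply, Finsupp.add_apply, hD₁ Q, hD₂ Q, hM Q]
    rcases le_total (Q.ord x₁) (Q.ord x₂) with h | h
    · rw [max_eq_right h, max_eq_left (neg_le_neg h)]; ring
    · rw [max_eq_left h, max_eq_right (neg_le_neg h)]; ring
  have hdegM' : Divisor.degree M' = Divisor.degree M := by
    rw [hM', map_add, map_add, hdeg₁, hdeg₂]; ring
  set S := xrMul x₁ (riemannRochSpace E) ⊔ xrMul x₂ (riemannRochSpace E) with hS
  haveI := R.finite E
  haveI := R.finite (E + M)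
  haveI := R.finite (E - M')
  -- (a)
  have ha : ∀ {x : F}, x ≠ 0 → (∀ Q : Place K F, -(Q.ord x) ≤ M Q) →
      xrMul x (riemannRochSpace E) ≤ riemannRochSpace (E + M) := by
    intro x hx hxM y hy
    obtain ⟨f, hf, rfl⟩ := mem_xrMul.mp hy
    rcases eq_or_ne f 0 with rfl | hf0
    · rw [mul_zero]; exact Submodule.zero_mem _
    rw [xr_mem_rr (mul_ne_zero hx hf0)]
    intro Q
    have := (xr_mem_rr hf0).mp hf Q
    have := hxM Q
    rw [Q.ord_mul hx hf0, Finsupp.add_apply]
    linarith
  have hSle : S ≤ riemannRochSpace (E + M) :=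
    sup_le (ha h₁ fun Q => by rw [hM Q]; exact le_max_left _ _)
      (ha h₂ fun Q => by rw [hM Q]; exact le_max_right _ _)
  -- (b)
  have hinf : xrMul x₁ (riemannRochSpace E) ⊓ xrMul x₂ (riemannRochSpace E) ≤
      riemannRochSpace (E - M') := by
    rintro y ⟨hy₁, hy₂⟩
    obtain ⟨f₁, hf₁, rfl⟩ := mem_xrMul.mp hy₁
    obtain ⟨f₂, hf₂, he⟩ := mem_xrMul.mp hy₂
    rcases eq_or_ne f₁ 0 with rfl | hf₁0
    · rw [mul_zero]; exact Submodule.zero_mem _
    have hf₂0 : f₂ ≠ 0 := by
      rintro rfl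
      rw [mul_zero] at he
      exact mul_ne_zero h₁ hf₁0 he.symm
    rw [xr_mem_rr (mul_ne_zero h₁ hf₁0)]
    intro Q
    have e1 := (xr_mem_rr hf₁0).mp hf₁ Q
    have e2 := (xr_mem_rr hf₂0).mp hf₂ Q
    have e3 : Q.ord (x₁ * f₁) = Q.ord x₂ + Q.ord f₂ := by
      rw [← he, Q.ord_mul h₂ hf₂0]
    have e4 : Q.ord (x₁ * f₁) = Q.ord x₁ + Q.ord f₁ := Q.ord_mul h₁ hf₁0
    rw [Finsupp.sub_apply, hM'Q Q]
    rcases le_total (Q.ord x₁) (Q.ord x₂) with h | h
    · rw [max_eq_right h]; linarith
    · rw [max_eq_left h]; linarith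
  -- (c)
  haveI i1 : Module.Finite K (xrMul x₁ (riemannRochSpace E)) := by
    unfold xrMul; exact Module.Finite.map _ _
  haveI i2 : Module.Finite K (xrMul x₂ (riemannRochSpace E)) := by
    unfold xrMul; exact Module.Finite.map _ _
  have hdim := Submodule.finrank_sup_add_finrank_inf_eq (xrMul x₁ (riemannRochSpace E))
    (xrMul x₂ (riemannRochSpace E))
  rw [finrank_xrMul h₁, finrank_xrMul h₂] at hdim
  have hinf' := Submodule.finrank_mono hinf
  have e1 := hc E (by linarith)
  have e2 := hc (E + M) (by rw [map_add]; linarith)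
  have e3 := hc (E - M') (by rw [map_sub, hdegM']; linarith)
  rw [map_add] at e2
  rw [map_sub, hdegM'] at e3
  have hge : Module.finrank K (riemannRochSpace (E + M)) ≤ Module.finrank K S := by
    have : (Module.finrank K (riemannRochSpace (E + M)) : ℤ) ≤ (Module.finrank K S : ℤ) := by
      have h1 : (Module.finrank K S : ℤ) +
          (Module.finrank K ↥(xrMul x₁ (riemannRochSpace E) ⊓ xrMul x₂ (riemannRochSpace E)) : ℤ)
          = (Module.finrank K (riemannRochSpace E) : ℤ) +
            (Module.finrank K (riemannRochSpace E) : ℤ) := by exact_mod_cast hdim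
      have h2 : (Module.finrank K
          ↥(xrMul x₁ (riemannRochSpace E) ⊓ xrMul x₂ (riemannRochSpace E)) : ℤ) ≤
          (Module.finrank K (riemannRochSpace (E - M')) : ℤ) := by exact_mod_cast hinf'
      linarith
    exact_mod_cast this
  have heq := Submodule.eq_of_le_of_finrank_le hSle hge
  rw [heq]

end Pencil

/-! ### Step A: the degree bound -/

namespace XrData

variable (G : XrData L k FL Fk) {g₁ g₂ : ℕ}

theorem xrMul_V_le {D D' : Divisor L FL} {x : Fk} (hx : x ∈ G.V D) :
    xrMul x (G.V D') ≤ G.V (D + D') := by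
  intro y hy
  obtain ⟨f, hf, rfl⟩ := mem_xrMul.mp hy
  exact G.mul_mem_V hx hf

/-- **Degree bound.**  If `u₁, u₂ ∈ L(D) ∩ O` have nonzero reductions `x₁, x₂` and
`M = max (-div x₁) (-div x₂)`, then `deg M ≤ deg D`. -/
theorem degree_le_of_pair (R₁ : RiemannPackage L FL g₁) (R₂ : RiemannPackage k Fk g₂)
    {D : Divisor L FL} {x₁ x₂ : Fk} (hx₁ : x₁ ∈ G.V D) (hx₂ : x₂ ∈ G.V D)
    (h₁ : x₁ ≠ 0) (h₂ : x₂ ≠ 0) (M : Divisor k Fk)
    (hM : ∀ Q : Place k Fk, M Q = max (-(Q.ord x₁)) (-(Q.ord x₂))) :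
    Divisor.degree M ≤ Divisor.degree D := by
  classical
  obtain ⟨c₁, -, -, hub₁⟩ := xr_exists_threshold R₁
  obtain ⟨c₂, hc₂0, hc₂, -⟩ := xr_exists_threshold R₂
  haveI := R₂.principal
  -- `deg D ≥ 0`
  have hDnn : 0 ≤ Divisor.degree D := by
    obtain ⟨u, hu, hux⟩ := hx₁
    have hu0 : (u : FL) ≠ 0 := by
      intro h0
      apply h₁
      have : u = 0 := Subtype.ext h0
      rw [← hux, this, map_zero]
    exact xr_degree_nonneg_of_mem R₁ hu0 hu
  -- `deg M ≥ 0`
  obtain ⟨D₁, hD₁, hdeg₁⟩ := HasPrincipalDivisors.exists_divisor (K := k) x₁ h₁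
  have hMnn : 0 ≤ Divisor.degree M := by
    have hle : -D₁ ≤ M := by
      intro Q
      rw [Finsupp.neg_apply, hD₁ Q, hM Q]
      exact le_max_left _ _
    have := xr_degree_mono R₂.deg_one hle
    rw [map_neg, hdeg₁, neg_zero] at this
    exact this
  haveI := R₂.infinite_places
  obtain ⟨Q₀⟩ : Nonempty (Place k Fk) := inferInstance
  set N₀ : ℤ := c₂ + Divisor.degree M with hN₀
  set G₀ : Divisor k Fk := Finsupp.single Q₀ N₀ with hG₀
  have hdegG₀ : Divisor.degree G₀ = N₀ := xr_degree_single_nat R₂ Q₀ N₀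
  haveI := R₂.finite G₀
  obtain ⟨E', hE'0, hE'⟩ := G.exists_le_V R₁ (riemannRochSpace G₀)
  -- the induction
  have hind : ∀ m : ℕ, riemannRochSpace (G₀ + m • M) ≤ G.V (E' + m • D) := by
    intro m
    induction m with
    | zero => simpa using hE'
    | succ m ih =>
      have hdeg : c₂ + Divisor.degree M ≤ Divisor.degree (G₀ + m • M) := by
        rw [map_add, hdegG₀, map_nsmul, nsmul_eq_mul, hN₀]
        have : (0 : ℤ) ≤ (m : ℤ) * Divisor.degree M := mul_nonneg (Int.natCast_nonneg m) hMnn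
        linarith
      have hp := xr_pencil R₂ hc₂ h₁ h₂ M hM (G₀ + m • M) hdeg
      have e1 : G₀ + (m + 1) • M = G₀ + m • M + M := by
        rw [succ_nsmul]; abel
      have e2 : E' + (m + 1) • D = D + (E' + m • D) := by
        rw [succ_nsmul]; abel
      rw [e1, e2]
      refine hp.trans (sup_le ?_ ?_)
      · exact (Submodule.map_mono ih).trans (G.xrMul_V_le hx₁)
      · exact (Submodule.map_mono ih).trans (G.xrMul_V_le hx₂)
  by_contra hcon
  push Not at hcon
  -- choose `m` large
  set m : ℕ := (max (max (Divisor.degree E' - N₀ + g₂ - g₁) (c₁ - N₀ + g₂ - g₁)) 0).toNat + 1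
    with hm
  have hm1 : Divisor.degree E' - N₀ + g₂ - g₁ < (m : ℤ) := by
    rw [hm]
    push_cast
    have := Int.self_le_toNat (max (max (Divisor.degree E' - N₀ + g₂ - g₁) (c₁ - N₀ + g₂ - g₁)) 0)
    have h1 := le_max_left (max (Divisor.degree E' - N₀ + g₂ - g₁) (c₁ - N₀ + g₂ - g₁)) 0
    have h2 := le_max_left (Divisor.degree E' - N₀ + g₂ - g₁) (c₁ - N₀ + g₂ - g₁)
    linarith
  have hm2 : c₁ - N₀ + g₂ - g₁ < (m : ℤ) := by
    rw [hm]
    push_cast
    have := Int.self_le_toNat (max (max (Divisor.degree E' - N₀ + g₂ - g₁) (c₁ - N₀ + g₂ - g₁)) 0)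
    have h1 := le_max_left (max (Divisor.degree E' - N₀ + g₂ - g₁) (c₁ - N₀ + g₂ - g₁)) 0
    have h2 := le_max_right (Divisor.degree E' - N₀ + g₂ - g₁) (c₁ - N₀ + g₂ - g₁)
    linarith
  haveI := R₁.finite (E' + m • D)
  haveI := G.finite_V (E' + m • D)
  have hle := Submodule.finrank_mono (hind m)
  rw [G.finrank_V] at hle
  have hlhs := hc₂ (G₀ + m • M) (by
    rw [map_add, hdegG₀, map_nsmul, nsmul_eq_mul, hN₀]
    have : (0 : ℤ) ≤ (m : ℤ) * Divisor.degree M := mul_nonneg (Int.natCast_nonneg m) hMnn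
    linarith)
  have hrhs := hub₁ (E' + m • D)
  rw [map_add, hdegG₀, map_nsmul, nsmul_eq_mul] at hlhs
  rw [map_add, map_nsmul, nsmul_eq_mul] at hrhs
  have hle' : (Module.finrank k (riemannRochSpace (G₀ + m • M)) : ℤ) ≤
      (Module.finrank L (riemannRochSpace (E' + m • D)) : ℤ) := by exact_mod_cast hle
  have hmD : (0 : ℤ) ≤ (m : ℤ) * Divisor.degree D := mul_nonneg (Int.natCast_nonneg m) hDnn
  have hmM : (m : ℤ) * (Divisor.degree D + 1) ≤ (m : ℤ) * Divisor.degree M :=
    mul_le_mul_of_nonneg_left (by linarith) (Int.natCast_nonneg m)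
  rcases le_total (Divisor.degree E' + (m : ℤ) * Divisor.degree D) c₁ with h | h
  · rw [max_eq_right h] at hrhs
    nlinarith
  · rw [max_eq_left h] at hrhs
    nlinarith

/-! ### Step B: effective divisors -/

/-- **Effective bound.** For `D ≥ 0` there is `M ≥ 0` with `V_D ⊆ L_k(M)` and
`deg M ≤ deg D`. -/
theorem exists_bound [Infinite k] (R₁ : RiemannPackage L FL g₁) (R₂ : RiemannPackage k Fk g₂)
    {D : Divisor L FL} (hD : 0 ≤ D) :
    ∃ M : Divisor k Fk, 0 ≤ M ∧ G.V D ≤ riemannRochSpace M ∧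
      Divisor.degree M ≤ Divisor.degree D := by
  classical
  haveI := R₂.principal
  haveI := R₁.finite D
  haveI := G.finite_V D
  let b := Module.finBasis k (G.V D)
  set s : Finset Fk := Finset.univ.image fun j => ((b j : G.V D) : Fk) with hs
  have hs0 : ∀ x ∈ s, x ≠ 0 := by
    intro x hx
    obtain ⟨j, -, rfl⟩ := Finset.mem_image.mp hx
    intro h0
    exact b.ne_zero j (Subtype.ext h0)
  have hsV : ∀ x ∈ s, x ∈ G.V D := by
    intro x hx
    obtain ⟨j, -, rfl⟩ := Finset.mem_image.mp hx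
    exact (b j).2
  obtain ⟨M, hM0, hMs, hMQ⟩ := xr_exists_sup_poles (K := k) s hs0
  have hVM : G.V D ≤ riemannRochSpace M := by
    intro x hx
    have h1 := b.sum_repr ⟨x, hx⟩
    have h2 : x = ∑ j, (b.repr ⟨x, hx⟩ j) • ((b j : G.V D) : Fk) := by
      have := congrArg (Submodule.subtype (G.V D)) h1
      rw [map_sum] at this
      simpa using this.symm
    rw [h2]
    exact Submodule.sum_mem _ fun j _ => Submodule.smul_mem _ _
      (hMs _ (Finset.mem_image_of_mem _ (Finset.mem_univ j)))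
  refine ⟨M, hM0, hVM, ?_⟩
  have hDnn : 0 ≤ Divisor.degree D := by
    have := xr_degree_mono R₁.deg_one hD
    rwa [map_zero] at this
  -- the generic element
  set T := M.support with hT
  have hTpos : ∀ Q ∈ T, 0 < M Q := by
    intro Q hQ
    have h1 := hM0 Q
    have h2 : M Q ≠ 0 := Finsupp.mem_support_iff.mp hQ
    simp only [Finsupp.coe_zero, Pi.zero_apply] at h1
    omega
  let p : Place k Fk → Submodule k (G.V D) := fun Q =>
    (riemannRochSpace (M - Finsupp.single Q (1 : ℤ))).comap (G.V D).subtype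
  have hp : ∀ Q ∈ T, p Q ≠ ⊤ := by
    intro Q hQ htop
    obtain ⟨x, hx, hxQ⟩ := hMQ Q (hTpos Q hQ)
    have hmem : (⟨x, hsV x hx⟩ : G.V D) ∈ p Q := by rw [htop]; trivial
    have hmem' : x ∈ riemannRochSpace (M - Finsupp.single Q (1 : ℤ)) := hmem
    have := (xr_mem_rr (hs0 x hx)).mp hmem' Q
    rw [Finsupp.sub_apply, Finsupp.single_apply, if_pos rfl, hxQ] at this
    omega
  have hcov : ⋃ q ∈ T.image p, (q : Set (G.V D)) ≠ Set.univ := by
    apply Subspace.biUnion_ne_univ_of_top_notMem
    intro hmem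
    obtain ⟨Q, hQ, hQtop⟩ := Finset.mem_image.mp hmem
    exact hp Q hQ hQtop
  obtain ⟨y, hy⟩ : ∃ y : G.V D, y ∉ ⋃ q ∈ T.image p, (q : Set (G.V D)) := by
    by_contra hcon
    push Not at hcon
    exact hcov (Set.eq_univ_of_forall hcon)
  have hyQ : ∀ Q ∈ T, (y : Fk) ∉ riemannRochSpace (M - Finsupp.single Q (1 : ℤ)) := by
    intro Q hQ hmem
    apply hy
    simp only [Set.mem_iUnion]
    exact ⟨p Q, Finset.mem_image_of_mem p hQ, hmem⟩
  by_cases hTe : T = ∅
  · have : M = 0 := Finsupp.support_eq_empty.mp hTe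
    rw [this, map_zero]
    exact hDnn
  obtain ⟨Q₁, hQ₁⟩ := Finset.nonempty_iff_ne_empty.mpr hTe
  have hy0 : (y : Fk) ≠ 0 := by
    intro h0
    apply hyQ Q₁ hQ₁
    rw [h0]
    exact Submodule.zero_mem _
  have hyM : (y : Fk) ∈ riemannRochSpace M := hVM y.2
  have hpair : ∀ Q : Place k Fk, M Q = max (-(Q.ord (y : Fk))) (-(Q.ord (1 : Fk))) := by
    intro Q
    rw [Place.ord_one, neg_zero]
    by_cases hQ : Q ∈ T
    · have := xr_ord_eq_of_mem_of_notMem hy0 hyM (hyQ Q hQ)
      rw [this, neg_neg, max_eq_left (hTpos Q hQ).le]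
    · have hMQ0 : M Q = 0 := Finsupp.notMem_support_iff.mp hQ
      have := (xr_mem_rr hy0).mp hyM Q
      rw [hMQ0] at this ⊢
      rw [max_eq_right (by linarith)]
  exact G.degree_le_of_pair R₁ R₂ y.2 (G.one_mem_V hD) hy0 one_ne_zero M hpair

end XrData

end ExDim

end Fermat.Agent.H18
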