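import Mathlib
import Fermat.Agent.H18.ExDim

/-!
# T4 / EX-R: the easy genus inequality `g_k ≤ g_L`

For reduction data `G : XrData L k FL Fk` and Riemann packages on both sides, the genus of the
reduction is at most the genus of the generic fibre (`XrData.genus_le`).  No place reduction is
needed: this is the dimension count `ℓ(D) = dim V_D ≤ ℓ_k(M)`, `deg M ≤ deg D`.
-/

set_option autoImplicit false
set_option linter.unusedSectionVars false
set_option linter.style.haveILetI false

noncomputable section

open AlgebraicCurve Fermat.Agent.H27.ESD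

namespace Fermat.Agent.H18

section ExGenus

variable {L k FL Fk : Type*} [Field L] [Field k] [Field FL] [Field Fk]
  [Algebra L FL] [Algebra k Fk]

namespace XrData

variable {g₁ g₂ : ℕ}

/-- **Semicontinuity of the genus (easy direction).** -/
theorem genus_le (G : XrData L k FL Fk) [Infinite k] (R₁ : RiemannPackage L FL g₁) (R₂ : RiemannPackage k Fk g₂) :
    g₂ ≤ g₁ := by
  classical
  haveI := R₁.infinite_places
  obtain ⟨P₀⟩ : Nonempty (Place L FL) := inferInstance
  set n : ℤ := max (xrThr R₁) (xrThr R₂) with hn
  have hn0 : 0 ≤ n := le_trans (xrThr_nonneg R₁) (le_max_left _ _)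
  set D : Divisor L FL := Finsupp.single P₀ n with hD
  have hD0 : 0 ≤ D := by
    intro P
    rw [hD, Finsupp.zero_apply]
    by_cases hP : P = P₀
    · subst hP
      rw [Finsupp.single_eq_same]
      exact hn0
    · rw [Finsupp.single_eq_of_ne hP]
  have hdegD : Divisor.degree D = n := by
    rw [hD, Divisor.degree_single, R₁.deg_one, Nat.cast_one, mul_one]
  have h1 : (Module.finrank L (riemannRochSpace D) : ℤ) = n + 1 - (g₁ : ℤ) := by
    rw [xrThr_eq R₁ D (by rw [hdegD]; exact le_max_left _ _), hdegD]
  obtain ⟨M, hM0, hVM, hdegM⟩ := G.exists_bound R₁ R₂ hD0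
  haveI := R₁.finite D
  haveI := R₂.finite M
  have h2 : Module.finrank k (G.V D) ≤ Module.finrank k (riemannRochSpace M) :=
    Submodule.finrank_mono hVM
  have h3 := xrThr_le R₂ M
  have h4 : max (Divisor.degree M) (xrThr R₂) ≤ n := by
    rw [hdegD] at hdegM
    exact max_le hdegM (le_max_right _ _)
  rw [G.finrank_V D] at h2
  have h5 : (Module.finrank L (riemannRochSpace D) : ℤ) ≤
      (Module.finrank k (riemannRochSpace M) : ℤ) := by exact_mod_cast h2
  omega

end XrData

end ExGenus

end Fermat.Agent.H18
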