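import Mathlib
import Fermat.Agent.H18.ExDim

/-!
# T4 / EX-R, part 2: construction of the place reduction from the genus equality

Setting of `Fermat.Agent.H18.ExDim` (`G : XrData L k FL Fk`), with Riemann packages on both
function fields **of the same genus** `g`, and `k` infinite.

* `XrData.exists_exact` : for `D ≥ 0` of large degree, `V_D = L_k(M)` for an effective `M` with
  `deg M = deg D`;
* `XrData.mu` : this `M`; it is additive (`mu_add`) and monotone (`mu_mono`);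
* `XrData.r` : the place reduction, defined by `mu ((N+1) P) = mu (N P) + r P`;
* `XrData.mu_eq_mapDomain` : `mu D = r_* D` for effective `D` with large coefficients;
* `XrData.mapDomain_r_eq` : **conservation law** `r_* div u = div (red u)` for every `u ∈ O` with
  `red u ≠ 0`.
-/

set_option autoImplicit false
set_option linter.unusedSectionVars false
set_option linter.style.haveILetI false

noncomputable section

open AlgebraicCurve Fermat.Agent.H27.ESD

namespace Fermat.Agent.H18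

section ExRed

variable {L k FL Fk : Type*} [Field L] [Field k] [Field FL] [Field Fk]
  [Algebra L FL] [Algebra k Fk]

/-- the degree threshold -/
def xrN {g : ℕ} (R₁ : RiemannPackage L FL g) (R₂ : RiemannPackage k Fk g) : ℤ :=
  max (xrThr R₁) (xrThr R₂ + 1)

theorem xrN_pos {g : ℕ} (R₁ : RiemannPackage L FL g) (R₂ : RiemannPackage k Fk g) :
    1 ≤ xrN R₁ R₂ := by
  have := xrThr_nonneg R₂
  have h := le_max_right (xrThr R₁) (xrThr R₂ + 1)
  unfold xrN
  linarith

theorem xrN_ge₁ {g : ℕ} (R₁ : RiemannPackage L FL g) (R₂ : RiemannPackage k Fk g) :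
    xrThr R₁ ≤ xrN R₁ R₂ := le_max_left _ _

theorem xrN_ge₂ {g : ℕ} (R₁ : RiemannPackage L FL g) (R₂ : RiemannPackage k Fk g) :
    xrThr R₂ + 1 ≤ xrN R₁ R₂ := le_max_right _ _

namespace XrData

variable (G : XrData L k FL Fk) {g : ℕ} (R₁ : RiemannPackage L FL g)
  (R₂ : RiemannPackage k Fk g) [Infinite k]

/-- **Exactness.** -/
theorem exists_exact {D : Divisor L FL} (hD : 0 ≤ D) (hdeg : xrN R₁ R₂ ≤ Divisor.degree D) :
    ∃ M : Divisor k Fk, 0 ≤ M ∧ Divisor.degree M = Divisor.degree D ∧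
      G.V D = riemannRochSpace M := by
  obtain ⟨M, hM0, hVM, hMD⟩ := G.exists_bound R₁ R₂ hD
  haveI := R₁.finite D
  haveI := G.finite_V D
  haveI := R₂.finite M
  have h1 := G.finrank_V D
  have h2 := xrThr_eq R₁ D (le_trans (xrN_ge₁ R₁ R₂) hdeg)
  have h3 := xrThr_le R₂ M
  have h4 : (Module.finrank k (G.V D) : ℤ) ≤ (Module.finrank k (riemannRochSpace M) : ℤ) := by
    exact_mod_cast Submodule.finrank_mono hVM
  have h5 := xrN_ge₂ R₁ R₂
  have h1' : (Module.finrank k (G.V D) : ℤ) = (Module.finrank L (riemannRochSpace D) : ℤ) := by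
    exact_mod_cast h1
  have hdegM : Divisor.degree M = Divisor.degree D := by
    rcases le_total (Divisor.degree M) (xrThr R₂) with h | h
    · rw [max_eq_right h] at h3
      linarith
    · rw [max_eq_left h] at h3
      linarith
  refine ⟨M, hM0, hdegM, ?_⟩
  have h6 := xrThr_eq R₂ M (by rw [hdegM]; linarith)
  refine Submodule.eq_of_le_of_finrank_le hVM ?_
  have : (Module.finrank k (riemannRochSpace M) : ℤ) ≤ (Module.finrank k (G.V D) : ℤ) := by
    rw [h6, h1', h2, hdegM]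
  exact_mod_cast this

open Classical in
/-- the divisor `M` with `V_D = L_k(M)` -/
def mu (D : Divisor L FL) : Divisor k Fk :=
  if h : 0 ≤ D ∧ xrN R₁ R₂ ≤ Divisor.degree D then (G.exists_exact R₁ R₂ h.1 h.2).choose else 0

theorem mu_spec {D : Divisor L FL} (hD : 0 ≤ D) (hdeg : xrN R₁ R₂ ≤ Divisor.degree D) :
    0 ≤ G.mu R₁ R₂ D ∧ Divisor.degree (G.mu R₁ R₂ D) = Divisor.degree D ∧
      G.V D = riemannRochSpace (G.mu R₁ R₂ D) := by
  unfold mu
  rw [dif_pos ⟨hD, hdeg⟩]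
  exact (G.exists_exact R₁ R₂ hD hdeg).choose_spec

theorem mu_large {D : Divisor L FL} (hD : 0 ≤ D) (hdeg : xrN R₁ R₂ ≤ Divisor.degree D) :
    xrThr R₂ + 1 ≤ Divisor.degree (G.mu R₁ R₂ D) := by
  rw [(G.mu_spec R₁ R₂ hD hdeg).2.1]
  exact le_trans (xrN_ge₂ R₁ R₂) hdeg

theorem mu_mono {D D' : Divisor L FL} (hD : 0 ≤ D) (hdeg : xrN R₁ R₂ ≤ Divisor.degree D)
    (h : D ≤ D') : G.mu R₁ R₂ D ≤ G.mu R₁ R₂ D' := by
  have hD' : 0 ≤ D' := le_trans hD h
  have hdeg' : xrN R₁ R₂ ≤ Divisor.degree D' :=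
    le_trans hdeg (xr_degree_mono R₁.deg_one h)
  refine xr_le_of_rr_le R₂ (xrThr_eq R₂) (G.mu_large R₁ R₂ hD hdeg) ?_
  rw [← (G.mu_spec R₁ R₂ hD hdeg).2.2, ← (G.mu_spec R₁ R₂ hD' hdeg').2.2]
  exact G.V_mono h

theorem mu_add {D D' : Divisor L FL} (hD : 0 ≤ D) (hdeg : xrN R₁ R₂ ≤ Divisor.degree D)
    (hD' : 0 ≤ D') (hdeg' : xrN R₁ R₂ ≤ Divisor.degree D') :
    G.mu R₁ R₂ (D + D') = G.mu R₁ R₂ D + G.mu R₁ R₂ D' := by
  have hDD : 0 ≤ D + D' := add_nonneg hD hD'
  have hN := xrN_pos R₁ R₂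
  have hdegDD : xrN R₁ R₂ ≤ Divisor.degree (D + D') := by
    rw [map_add]; linarith
  obtain ⟨-, hd, hV⟩ := G.mu_spec R₁ R₂ hD hdeg
  obtain ⟨-, hd', hV'⟩ := G.mu_spec R₁ R₂ hD' hdeg'
  obtain ⟨-, hdd, hVV⟩ := G.mu_spec R₁ R₂ hDD hdegDD
  symm
  refine xr_eq_of_le_of_degree_eq R₂.deg_one ?_ ?_
  · intro Q
    obtain ⟨f, hf, hf0, hfQ⟩ := xr_exists_ord_eq R₂ (xrThr_eq R₂)
      (G.mu_large R₁ R₂ hD hdeg) Q
    obtain ⟨f', hf', hf0', hfQ'⟩ := xr_exists_ord_eq R₂ (xrThr_eq R₂)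
      (G.mu_large R₁ R₂ hD' hdeg') Q
    rw [← hV] at hf
    rw [← hV'] at hf'
    have hmem := G.mul_mem_V hf hf'
    rw [hVV] at hmem
    have := (xr_mem_rr (mul_ne_zero hf0 hf0')).mp hmem Q
    rw [Q.ord_mul hf0 hf0', hfQ, hfQ'] at this
    rw [Finsupp.add_apply]
    linarith
  · rw [map_add, hd, hd', hdd, map_add]

/-! ### the place reduction -/

theorem single_mem (P : Place L FL) {n : ℤ} (hn : xrN R₁ R₂ ≤ n) :
    (0 : Divisor L FL) ≤ Finsupp.single P n ∧
      xrN R₁ R₂ ≤ Divisor.degree (Finsupp.single P n : Divisor L FL) := by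
  classical
  have hN := xrN_pos R₁ R₂
  refine ⟨fun v => ?_, ?_⟩
  · rw [Finsupp.single_apply]
    split_ifs
    · simp only [Finsupp.coe_zero, Pi.zero_apply]; linarith
    · simp
  · rw [xr_degree_single_nat R₁]
    exact hn

theorem exists_r_aux (P : Place L FL) :
    ∃ Q : Place k Fk, G.mu R₁ R₂ (Finsupp.single P (xrN R₁ R₂ + 1)) =
      G.mu R₁ R₂ (Finsupp.single P (xrN R₁ R₂)) + Finsupp.single Q 1 := by
  classical
  obtain ⟨h0, h1⟩ := XrData.single_mem R₁ R₂ P (le_refl (xrN R₁ R₂))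
  obtain ⟨h0', h1'⟩ := XrData.single_mem R₁ R₂ P (by linarith : xrN R₁ R₂ ≤ xrN R₁ R₂ + 1)
  have hle : (Finsupp.single P (xrN R₁ R₂) : Divisor L FL) ≤
      Finsupp.single P (xrN R₁ R₂ + 1) := by
    intro v
    rw [Finsupp.single_apply, Finsupp.single_apply]
    split_ifs <;> linarith
  have hmono := G.mu_mono R₁ R₂ h0 h1 hle
  have hE : (0 : Divisor k Fk) ≤ G.mu R₁ R₂ (Finsupp.single P (xrN R₁ R₂ + 1)) -
      G.mu R₁ R₂ (Finsupp.single P (xrN R₁ R₂)) := sub_nonneg.mpr hmono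
  have hdeg : Divisor.degree (G.mu R₁ R₂ (Finsupp.single P (xrN R₁ R₂ + 1)) -
      G.mu R₁ R₂ (Finsupp.single P (xrN R₁ R₂))) = 1 := by
    rw [map_sub, (G.mu_spec R₁ R₂ h0 h1).2.1, (G.mu_spec R₁ R₂ h0' h1').2.1,
      xr_degree_single_nat R₁, xr_degree_single_nat R₁]
    ring
  obtain ⟨Q, hQ⟩ := xr_eq_single_of_degree_one R₂.deg_one hE hdeg
  exact ⟨Q, by rw [← hQ]; abel⟩

/-- **The place reduction.** -/
def r (P : Place L FL) : Place k Fk := (G.exists_r_aux R₁ R₂ P).choose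

theorem r_spec (P : Place L FL) :
    G.mu R₁ R₂ (Finsupp.single P (xrN R₁ R₂ + 1)) =
      G.mu R₁ R₂ (Finsupp.single P (xrN R₁ R₂)) + Finsupp.single (G.r R₁ R₂ P) 1 :=
  (G.exists_r_aux R₁ R₂ P).choose_spec

theorem mu_single_succ (P : Place L FL) {n : ℤ} (hn : xrN R₁ R₂ ≤ n) :
    G.mu R₁ R₂ (Finsupp.single P (n + 1)) =
      G.mu R₁ R₂ (Finsupp.single P n) + Finsupp.single (G.r R₁ R₂ P) 1 := by
  obtain ⟨a0, a1⟩ := XrData.single_mem R₁ R₂ P (le_refl (xrN R₁ R₂))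
  obtain ⟨b0, b1⟩ := XrData.single_mem R₁ R₂ P (by linarith : xrN R₁ R₂ ≤ xrN R₁ R₂ + 1)
  obtain ⟨c0, c1⟩ := XrData.single_mem R₁ R₂ P hn
  obtain ⟨d0, d1⟩ := XrData.single_mem R₁ R₂ P (by linarith : xrN R₁ R₂ ≤ n + 1)
  have e : (Finsupp.single P (n + 1) + Finsupp.single P (xrN R₁ R₂) : Divisor L FL) =
      Finsupp.single P n + Finsupp.single P (xrN R₁ R₂ + 1) := by
    rw [← Finsupp.single_add, ← Finsupp.single_add]
    congr 1
    ring
  have h1 := G.mu_add R₁ R₂ d0 d1 a0 a1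
  have h2 := G.mu_add R₁ R₂ c0 c1 b0 b1
  rw [e, h2, G.r_spec R₁ R₂ P] at h1
  have : G.mu R₁ R₂ (Finsupp.single P (n + 1)) + G.mu R₁ R₂ (Finsupp.single P (xrN R₁ R₂)) =
      (G.mu R₁ R₂ (Finsupp.single P n) + Finsupp.single (G.r R₁ R₂ P) 1) +
        G.mu R₁ R₂ (Finsupp.single P (xrN R₁ R₂)) := by
    rw [← h1]; abel
  exact add_right_cancel this

theorem mu_single_aux (P : Place L FL) (n : ℤ) (hn : xrN R₁ R₂ ≤ n) :
    G.mu R₁ R₂ (Finsupp.single P n) =
      G.mu R₁ R₂ (Finsupp.single P (xrN R₁ R₂)) +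
        Finsupp.single (G.r R₁ R₂ P) (n - xrN R₁ R₂) := by
  induction n, hn using Int.leInduction with
  | base => simp
  | succ n hn ih =>
    rw [G.mu_single_succ R₁ R₂ P hn, ih, add_assoc, ← Finsupp.single_add]
    congr 2
    ring

theorem mu_single (P : Place L FL) (n : ℤ) (hn : xrN R₁ R₂ ≤ n) :
    G.mu R₁ R₂ (Finsupp.single P n) = Finsupp.single (G.r R₁ R₂ P) n := by
  have hN := xrN_pos R₁ R₂
  obtain ⟨a0, a1⟩ := XrData.single_mem R₁ R₂ P (le_refl (xrN R₁ R₂))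
  have h1 := G.mu_single_aux R₁ R₂ P (xrN R₁ R₂ + xrN R₁ R₂) (by linarith)
  have h2 := G.mu_add R₁ R₂ a0 a1 a0 a1
  rw [← Finsupp.single_add, h1] at h2
  have h3 : G.mu R₁ R₂ (Finsupp.single P (xrN R₁ R₂)) =
      Finsupp.single (G.r R₁ R₂ P) (xrN R₁ R₂) := by
    have := add_left_cancel h2
    rw [← this]
    congr 1
    ring
  rw [G.mu_single_aux R₁ R₂ P n hn, h3, ← Finsupp.single_add]
  congr 1
  ring

/-! ### Step C: `mu = r_*` on divisors with large coefficients -/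

theorem mem_of_large (D : Divisor L FL) (hD : ∀ P, D P = 0 ∨ xrN R₁ R₂ ≤ D P)
    (hD0 : D ≠ 0) : 0 ≤ D ∧ xrN R₁ R₂ ≤ Divisor.degree D := by
  classical
  have hN := xrN_pos R₁ R₂
  have h0 : (0 : Divisor L FL) ≤ D := by
    intro v
    simp only [Finsupp.coe_zero, Pi.zero_apply]
    rcases hD v with h | h
    · rw [h]
    · linarith
  refine ⟨h0, ?_⟩
  obtain ⟨P, hP⟩ : ∃ P, D P ≠ 0 := by
    by_contra hcon
    push Not at hcon
    exact hD0 (Finsupp.ext hcon)
  have hPN : xrN R₁ R₂ ≤ D P := (hD P).resolve_left hP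
  have hle : (Finsupp.single P (D P) : Divisor L FL) ≤ D := by
    intro v
    rw [Finsupp.single_apply]
    split_ifs with h
    · subst h; exact le_rfl
    · have := h0 v
      simpa using this
  have := xr_degree_mono R₁.deg_one hle
  rw [xr_degree_single_nat R₁] at this
  linarith

theorem mu_eq_mapDomain (D : Divisor L FL) (hD : ∀ P, D P = 0 ∨ xrN R₁ R₂ ≤ D P)
    (hD0 : D ≠ 0) : G.mu R₁ R₂ D = Finsupp.mapDomain (G.r R₁ R₂) D := by
  classical
  induction D using Finsupp.induction with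
  | zero => exact absurd rfl hD0
  | single_add a b f haf hb ih =>
    have hfa : f a = 0 := Finsupp.notMem_support_iff.mp haf
    have hbN : xrN R₁ R₂ ≤ b := by
      have := hD a
      rw [Finsupp.add_apply, Finsupp.single_apply, if_pos rfl, hfa, add_zero] at this
      exact this.resolve_left hb
    have hf : ∀ P, f P = 0 ∨ xrN R₁ R₂ ≤ f P := by
      intro P
      by_cases hPa : P = a
      · subst hPa; exact Or.inl hfa
      · have := hD P
        rwa [Finsupp.add_apply, Finsupp.single_apply, if_neg (Ne.symm hPa), zero_add] at this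
    rcases eq_or_ne f 0 with rfl | hf0
    · rw [add_zero, G.mu_single R₁ R₂ a b hbN, Finsupp.mapDomain_single]
    · obtain ⟨a0, a1⟩ := XrData.single_mem R₁ R₂ a hbN
      obtain ⟨b0, b1⟩ := XrData.mem_of_large R₁ R₂ f hf hf0
      rw [G.mu_add R₁ R₂ a0 a1 b0 b1, G.mu_single R₁ R₂ a b hbN, ih hf hf0,
        Finsupp.mapDomain_add, Finsupp.mapDomain_single]

theorem V_eq_of_large (D : Divisor L FL) (hD : ∀ P, D P = 0 ∨ xrN R₁ R₂ ≤ D P)
    (hD0 : D ≠ 0) : G.V D = riemannRochSpace (Finsupp.mapDomain (G.r R₁ R₂) D) := by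
  obtain ⟨h0, h1⟩ := XrData.mem_of_large R₁ R₂ D hD hD0
  rw [← G.mu_eq_mapDomain R₁ R₂ D hD hD0]
  exact (G.mu_spec R₁ R₂ h0 h1).2.2

/-! ### Step D: the conservation law -/

/-- **Conservation law**: `r_* div u = div (red u)` for `u ∈ O` with nonzero reduction. -/
theorem mapDomain_r_eq (u : G.O) (hu : G.red u ≠ 0) (D : Divisor L FL)
    (hD : ∀ P : Place L FL, D P = P.ord (u : FL)) (Q : Place k Fk) :
    Finsupp.mapDomain (G.r R₁ R₂) D Q = Q.ord (G.red u) := by
  classical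
  have hN := xrN_pos R₁ R₂
  haveI := R₁.principal
  haveI := R₂.principal
  have hu0 : (u : FL) ≠ 0 := by
    intro h0
    apply hu
    have : u = 0 := Subtype.ext h0
    rw [this, map_zero]
  obtain ⟨Dx, hDx, hdegx⟩ := HasPrincipalDivisors.exists_divisor (K := k) (G.red u) hu
  have hdegD : Divisor.degree D = 0 := by
    obtain ⟨D', hD', hdeg'⟩ := HasPrincipalDivisors.exists_divisor (K := L) (u : FL) hu0
    have : D = D' := Finsupp.ext fun v => by rw [hD v, hD' v]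
    rw [this, hdeg']
  haveI := R₁.infinite_places
  obtain ⟨P₀⟩ : Nonempty (Place L FL) := inferInstance
  set S : Finset (Place L FL) := insert P₀ D.support with hS
  set B : ℤ := ∑ P ∈ S, |D P| with hB
  have hBge : ∀ v ∈ S, D v ≤ B := by
    intro v hv
    have h1 : |D v| ≤ B := Finset.single_le_sum (f := fun P => |D P|)
      (fun P _ => abs_nonneg (D P)) hv
    exact le_trans (le_abs_self _) h1
  set n : ℤ := xrN R₁ R₂ + B with hn
  set E : Divisor L FL := ∑ P ∈ S, Finsupp.single P n with hE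
  have hEv : ∀ v, E v = if v ∈ S then n else 0 := by
    intro v
    rw [hE, Finsupp.finsetSum_apply]
    simp only [Finsupp.single_apply]
    rw [Finset.sum_ite_eq' S v]
  have hB0 : 0 ≤ B := Finset.sum_nonneg fun P _ => abs_nonneg (D P)
  have hEl : ∀ P, E P = 0 ∨ xrN R₁ R₂ ≤ E P := by
    intro P
    rw [hEv P]
    split_ifs
    · right; rw [hn]; linarith
    · left; rfl
  have hE0 : E ≠ 0 := by
    intro h0
    have := hEv P₀
    rw [h0, if_pos (Finset.mem_insert_self _ _)] at this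
    simp only [Finsupp.coe_zero, Pi.zero_apply] at this
    rw [hn] at this
    linarith
  set E₂ : Divisor L FL := E - D with hE₂
  have hE₂l : ∀ P, E₂ P = 0 ∨ xrN R₁ R₂ ≤ E₂ P := by
    intro P
    rw [hE₂, Finsupp.sub_apply, hEv P]
    split_ifs with h
    · right
      have := hBge P h
      rw [hn]; linarith
    · left
      have : P ∉ D.support := fun hmem => h (Finset.mem_insert_of_mem hmem)
      rw [Finsupp.notMem_support_iff.mp this, sub_zero]
  have hE₂0 : E₂ ≠ 0 := by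
    intro h0
    have h1 : E₂ P₀ = n - D P₀ := by
      rw [hE₂, Finsupp.sub_apply, hEv P₀, if_pos (Finset.mem_insert_self _ _)]
    rw [h0] at h1
    simp only [Finsupp.coe_zero, Pi.zero_apply] at h1
    have := hBge P₀ (Finset.mem_insert_self _ _)
    rw [hn] at h1
    linarith
  have hVE := G.V_eq_of_large R₁ R₂ E hEl hE0
  have hVE₂ := G.V_eq_of_large R₁ R₂ E₂ hE₂l hE₂0
  obtain ⟨e0, e1⟩ := XrData.mem_of_large R₁ R₂ E hEl hE0
  have hlarge : xrThr R₂ + 1 ≤ Divisor.degree (Finsupp.mapDomain (G.r R₁ R₂) E) := by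
    rw [xr_degree_mapDomain R₁.deg_one R₂.deg_one]
    exact le_trans (xrN_ge₂ R₁ R₂) e1
  have hle : Finsupp.mapDomain (G.r R₁ R₂) D ≤ Dx := by
    intro Q'
    obtain ⟨h, hh, hh0, hhQ⟩ := xr_exists_ord_eq R₂ (xrThr_eq R₂) hlarge Q'
    rw [← hVE] at hh
    obtain ⟨w, hw, rfl⟩ := hh
    have huw : ((u * w : G.O) : FL) ∈ riemannRochSpace E₂ := by
      show (u : FL) * (w : FL) ∈ riemannRochSpace E₂
      rw [xr_mul_mem_rr_iff hu0 hD, hE₂, sub_add_cancel]
      exact hw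
    have hmem := G.red_mem_V (u * w) huw
    rw [hVE₂, map_mul, hE₂, Finsupp.mapDomain_sub] at hmem
    have := (xr_mem_rr (mul_ne_zero hu hh0)).mp hmem Q'
    rw [Q'.ord_mul hu hh0, hhQ, Finsupp.sub_apply] at this
    rw [hDx Q']
    linarith
  have heq := xr_eq_of_le_of_degree_eq R₂.deg_one hle (by
    rw [xr_degree_mapDomain R₁.deg_one R₂.deg_one, hdegD, hdegx])
  rw [heq, hDx Q]

/-- **EX-R (abstract form).**  Reduction data between two function fields with Riemann packages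
of the same genus carry a place reduction satisfying the conservation law. -/
theorem exists_reduction {g' : ℕ} (R₁' : RiemannPackage L FL g')
    (R₂' : RiemannPackage k Fk g') :
    ∃ r : Place L FL → Place k Fk, (∀ P, (r P).deg = P.deg) ∧
      ∀ (u : G.O), G.red u ≠ 0 → ∀ D : Divisor L FL, (∀ P, D P = P.ord (u : FL)) →
        ∀ Q, Finsupp.mapDomain r D Q = Q.ord (G.red u) :=
  ⟨G.r R₁' R₂', fun P => by rw [R₁'.deg_one, R₂'.deg_one],
    fun u hu D hD Q => G.mapDomain_r_eq R₁' R₂' u hu D hD Q⟩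

end XrData

end ExRed

end Fermat.Agent.H18
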