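import Mathlib
import Fermat.Agent.H18.ExRed
import Fermat.Agent.H66.ESD.GaussPrincipal
import Fermat.Agent.H66.ESD.GaussLattice2
import Fermat.Agent.H89.ESDA3AlgClosed

/-!
# T4 / EX-R, part 3: the modular instance

For `ℓ ∤ N` and a valuation subring `A` of `ℚ̄` over `ℓ`, helper66's unconditional Gauss ring
(`gaussOBar`, `gaussRedBar`, q-expansion principle, lattice reduction) is an `XrData`.  Hence
(`reductionInputs_of_genus_eq`): if the two function fields have Riemann packages of the same
genus, then `ReductionInputsModL A N` holds.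
-/

set_option autoImplicit false
set_option linter.unusedSectionVars false
set_option linter.style.haveILetI false
set_option synthInstance.maxHeartbeats 400000
set_option maxHeartbeats 1600000

noncomputable section

open AlgebraicCurve ModularCurve Fermat.Agent.H27.ESD Fermat.Agent.H66

namespace Fermat.Agent.H18

section Bridge

theorem xr_algebraMap_eq_C {K : Type*} [Field K] (c : K) :
    algebraMap K (LaurentSeries K) c = HahnSeries.C c := by
  have h1 : algebraMap K (PowerSeries K) c = PowerSeries.C c := by simp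
  rw [HahnSeries.algebraMap_apply', h1, HahnSeries.ofPowerSeries_C]

theorem xr_coe_smul {K : Type*} [Field K] (F : IntermediateField K (LaurentSeries K)) (c : K)
    (f : ↥F) : ((c • f : ↥F) : LaurentSeries K) = HahnSeries.C c * (f : LaurentSeries K) := by
  rw [Algebra.smul_def, ← xr_algebraMap_eq_C]
  rfl

theorem xr_coe_sum_smul {K : Type*} [Field K] (F : IntermediateField K (LaurentSeries K))
    {ι : Type*} (s : Finset ι) (c : ι → K) (f : ι → ↥F) :
    ((∑ i ∈ s, c i • f i : ↥F) : LaurentSeries K)
      = ∑ i ∈ s, HahnSeries.C (c i) * (f i : LaurentSeries K) := by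
  classical
  induction s using Finset.induction_on with
  | empty => simp
  | insert a s ha ih =>
    rw [Finset.sum_insert ha, Finset.sum_insert ha, AddMemClass.coe_add, ih, xr_coe_smul]

/-- bridge between the two `K`-module structures on Laurent series -/
theorem xr_linearIndependent_coe_iff {K : Type*} [Field K]
    (F : IntermediateField K (LaurentSeries K)) {ι : Type*} [Fintype ι] (v : ι → ↥F) :
    LinearIndependent K v ↔
      @LinearIndependent ι K (LaurentSeries K) (fun i => (v i : LaurentSeries K)) _ _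
        HahnSeries.instModule := by
  rw [Fintype.linearIndependent_iff, Fintype.linearIndependent_iff]
  constructor
  · intro h g hg
    apply h g
    apply Subtype.ext
    rw [xr_coe_sum_smul]
    simp only [HahnSeries.C_mul_eq_smul]
    exact hg
  · intro h g hg
    apply h g
    have := congrArg (fun x : ↥F => (x : LaurentSeries K)) hg
    simp only [xr_coe_sum_smul, HahnSeries.C_mul_eq_smul] at this
    exact this

end Bridge

section ExInst

variable (N : ℕ) [NeZero N] (ℓ : ℕ) [Fact ℓ.Prime] (hℓN : ¬ ℓ ∣ N)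
  (A : ValuationSubring (AlgebraicClosure ℚ)) (hA : A.LiesOverPrime ℓ)

/-- the reduction with values in `F_k` -/
def xrRedBar : ↥(gaussOBar N A) →+*
    ↥(modularFunctionFieldFullC (IsLocalRing.ResidueField ↥A) N) :=
  (gaussRedBar N A).codRestrict (modularFunctionFieldFullC (IsLocalRing.ResidueField ↥A) N)
    (fun u => gaussRange_uncond N ℓ hℓN A hA u)

theorem xrRedBar_coe (u : ↥(gaussOBar N A)) :
    ((xrRedBar N ℓ hℓN A hA u : ↥(modularFunctionFieldFullC (IsLocalRing.ResidueField ↥A) N)) :
      LaurentSeries (IsLocalRing.ResidueField ↥A)) = gaussRedBar N A u := rfl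

theorem xrRedBar_surjective : Function.Surjective (xrRedBar N ℓ hℓN A hA) := by
  intro y
  obtain ⟨u, hu⟩ := gaussSurj N ℓ A hA (y : LaurentSeries (IsLocalRing.ResidueField ↥A)) y.2
  exact ⟨u, Subtype.ext hu⟩

theorem xr_algebraMap_coe {K : Type*} [Field K] (F : IntermediateField K (LaurentSeries K))
    (c : K) : ((algebraMap K ↥F c : ↥F) : LaurentSeries K) = algebraMap K (LaurentSeries K) c :=
  rfl

theorem xrRedBar_const (b : IsLocalRing.ResidueField ↥A) :
    ∃ (a : AlgebraicClosure ℚ)
      (ha : algebraMap (AlgebraicClosure ℚ) ↥(modularFunctionFieldBar N) a ∈ gaussOBar N A),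
      xrRedBar N ℓ hℓN A hA ⟨algebraMap (AlgebraicClosure ℚ) ↥(modularFunctionFieldBar N) a, ha⟩
        = algebraMap (IsLocalRing.ResidueField ↥A)
            ↥(modularFunctionFieldFullC (IsLocalRing.ResidueField ↥A) N) b := by
  obtain ⟨a, rfl⟩ := IsLocalRing.residue_surjective b
  have hmem : algebraMap (AlgebraicClosure ℚ) ↥(modularFunctionFieldBar N) (a : AlgebraicClosure ℚ)
      ∈ gaussOBar N A := by
    rw [mem_gaussOBar_iff]
    exact algebraMap_mem_vGaussRing A a.2
  refine ⟨(a : AlgebraicClosure ℚ), hmem, Subtype.ext ?_⟩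
  rw [xrRedBar_coe, gaussRedBar_apply]
  exact vGaussRed_algebraMap A a.2

theorem xrRedBar_indep (n : ℕ) (w : Fin n → ↥(gaussOBar N A))
    (hw : LinearIndependent (IsLocalRing.ResidueField ↥A)
      (fun i => xrRedBar N ℓ hℓN A hA (w i))) :
    LinearIndependent (AlgebraicClosure ℚ)
      (fun i => ((w i : ↥(gaussOBar N A)) : ↥(modularFunctionFieldBar N))) := by
  have h1 : LinearIndependent (IsLocalRing.ResidueField ↥A)
      (fun i => vGaussRed A (⟨((w i : ↥(modularFunctionFieldBar N)) :
        LaurentSeries (AlgebraicClosure ℚ)), (w i).2⟩ : ↥(vGaussRing A))) :=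
    (xr_linearIndependent_coe_iff _ _).mp hw
  have h2 := linearIndependent_of_vGaussRed A _ h1
  exact (xr_linearIndependent_coe_iff _ _).mpr h2

theorem xrRedBar_lattice (V : Submodule (AlgebraicClosure ℚ) ↥(modularFunctionFieldBar N))
    (n : ℕ) (f : Fin n → ↥(modularFunctionFieldBar N)) (hfV : ∀ i, f i ∈ V)
    (hf : LinearIndependent (AlgebraicClosure ℚ) f) :
    ∃ w : Fin n → ↥(gaussOBar N A),
      (∀ i, ((w i : ↥(gaussOBar N A)) : ↥(modularFunctionFieldBar N)) ∈ V) ∧
      LinearIndependent (IsLocalRing.ResidueField ↥A)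
        (fun i => xrRedBar N ℓ hℓN A hA (w i)) := by
  classical
  set V' : Submodule (AlgebraicClosure ℚ) ↥(modularFunctionFieldBar N) :=
    Submodule.span (AlgebraicClosure ℚ) (Set.range f) with hV'
  have hV'V : V' ≤ V := Submodule.span_le.mpr (by rintro _ ⟨i, rfl⟩; exact hfV i)
  haveI : Module.Finite (AlgebraicClosure ℚ) ↥V' :=
    FiniteDimensional.span_of_finite _ (Set.finite_range f)
  have hrank : Module.finrank (AlgebraicClosure ℚ) ↥V' = n := by
    rw [hV', finrank_span_eq_card hf, Fintype.card_fin]
  obtain ⟨u, hu, huV, hli⟩ := exists_lattice_reduction A N V' inferInstance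
  let e : Fin n ≃ Fin (Module.finrank (AlgebraicClosure ℚ) ↥V') := finCongr hrank.symm
  refine ⟨fun i => ⟨u (e i), hu (e i)⟩, fun i => hV'V (huV (e i)), ?_⟩
  have h1 := hli.comp e e.injective
  exact (xr_linearIndependent_coe_iff _ _).mpr h1

/-- **The modular reduction data.** -/
def xrDataBar : XrData (AlgebraicClosure ℚ) (IsLocalRing.ResidueField ↥A)
    ↥(modularFunctionFieldBar N) ↥(modularFunctionFieldFullC (IsLocalRing.ResidueField ↥A) N) where
  O := gaussOBar N A
  red := xrRedBar N ℓ hℓN A hA
  red_surj := xrRedBar_surjective N ℓ hℓN A hA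
  const_surj := xrRedBar_const N ℓ hℓN A hA
  indep := xrRedBar_indep N ℓ hℓN A hA
  lattice := xrRedBar_lattice N ℓ hℓN A hA

end ExInst

end Fermat.Agent.H18
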