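import Mathlib
import Fermat.Agent.H18.ExInst

/-!
# T4 / EX-R, part 4: reduction inputs from equality of genera

`reductionInputs_of_genus_eq`: for `ℓ ∤ N` and `A` over `ℓ`, if `F_L = ℚ̄(X₀(N))` and
`F_k = k(X₀(N))` carry Riemann packages of the same genus, then `ReductionInputsModL A N` holds
(the place reduction is constructed from the reduction of Riemann-Roch spaces, `XrData`).
-/

set_option autoImplicit false
set_option linter.unusedSectionVars false
set_option linter.style.haveILetI false
set_option synthInstance.maxHeartbeats 400000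
set_option maxHeartbeats 1600000

noncomputable section

open AlgebraicCurve ModularCurve Fermat.Agent.H27.ESD Fermat.Agent.H66

namespace Fermat.Agent.H18

section ExInputs

variable (N : ℕ) [NeZero N] (ℓ : ℕ) [Fact ℓ.Prime] (hℓN : ¬ ℓ ∣ N)
  (A : ValuationSubring (AlgebraicClosure ℚ)) (hA : A.LiesOverPrime ℓ)

omit [NeZero N] [Fact ℓ.Prime] in
theorem xr_infinite_residueField : Infinite (IsLocalRing.ResidueField ↥A) := by
  haveI : IsAlgClosed (IsLocalRing.ResidueField ↥A) :=
    Fermat.Agent.H89.isAlgClosed_residueField A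
  exact IsAlgClosed.instInfinite

include hℓN hA in
/-- **EX-R at equal genus**: a place reduction exists. -/
theorem exists_isPlaceReduction_of_genus_eq {g : ℕ}
    (RL : RiemannPackage (AlgebraicClosure ℚ) ↥(modularFunctionFieldBar N) g)
    (Rk : RiemannPackage (IsLocalRing.ResidueField ↥A)
      ↥(modularFunctionFieldFullC (IsLocalRing.ResidueField ↥A) N) g) :
    ∃ r : Place (AlgebraicClosure ℚ) ↥(modularFunctionFieldBar N) →
        Place (IsLocalRing.ResidueField ↥A)
          ↥(modularFunctionFieldFullC (IsLocalRing.ResidueField ↥A) N),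
      IsPlaceReductionModL A N r := by
  haveI : Infinite (IsLocalRing.ResidueField ↥A) := xr_infinite_residueField A
  obtain ⟨r, hdeg, hcons⟩ := (xrDataBar N ℓ hℓN A hA).exists_reduction RL Rk
  refine ⟨r, hdeg, ?_⟩
  intro y hy hyk hne D hD Q
  have hmem : (⟨coeffMap A.subtype y, hy⟩ : ↥(modularFunctionFieldBar N)) ∈ gaussOBar N A :=
    mem_gaussOBar_of_eq_vIota N A (Y := y) rfl
  have hred : xrRedBar N ℓ hℓN A hA ⟨⟨coeffMap A.subtype y, hy⟩, hmem⟩
      = ⟨coeffMap (IsLocalRing.residue ↥A) y, hyk⟩ :=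
    Subtype.ext (gaussRedBar_of_eq_vIota N A (Y := y) rfl)
  have hne' : (xrDataBar N ℓ hℓN A hA).red ⟨⟨coeffMap A.subtype y, hy⟩, hmem⟩ ≠ 0 := by
    intro h0
    have h1 : xrRedBar N ℓ hℓN A hA ⟨⟨coeffMap A.subtype y, hy⟩, hmem⟩ = 0 := h0
    rw [hred] at h1
    exact hne (congrArg Subtype.val h1)
  have h := hcons ⟨⟨coeffMap A.subtype y, hy⟩, hmem⟩ hne' D hD Q
  have h2 : (xrDataBar N ℓ hℓN A hA).red ⟨⟨coeffMap A.subtype y, hy⟩, hmem⟩
      = ⟨coeffMap (IsLocalRing.residue ↥A) y, hyk⟩ := hred
  rw [h2] at h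
  exact h

include hℓN hA in
/-- **T4 at equal genus**: the prelude reduction inputs. -/
theorem reductionInputs_of_genus_eq {g : ℕ}
    (RL : RiemannPackage (AlgebraicClosure ℚ) ↥(modularFunctionFieldBar N) g)
    (Rk : RiemannPackage (IsLocalRing.ResidueField ↥A)
      ↥(modularFunctionFieldFullC (IsLocalRing.ResidueField ↥A) N) g) :
    ReductionInputsModL A N := by
  obtain ⟨r, hr⟩ := exists_isPlaceReduction_of_genus_eq N ℓ hℓN A hA RL Rk
  exact reductionInputs_of_isPlaceReduction N ℓ hℓN A hA r hr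

end ExInputs

end Fermat.Agent.H18
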