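import Mathlib
import Fermat.Agent.H18.ExInputs
import Fermat.Agent.H18.ExGenus
import Fermat.Agent.H58.RR.ESD
import Fermat.Agent.H89.ESDT1
import Fermat.Agent.H27.ESD.Interfaces2

/-!
# T4 / EX-R, final assembly

* `genusFF_modL_le` (unconditional): `genusFF k F_k ≤ genusFF ℚ̄ F_L` for `ℓ ∤ N`.
* `reductionInputs_of_genusFF_le`: for `ℓ ∤ N`, the inequality
  `genusFF ℚ̄ F_L ≤ genusFF k F_k` (good reduction, numerical form) implies
  `ReductionInputsModL A N`.  No tameness hypothesis.
* `existsReductionTame_of_genus`: `GenusUncondTameStatement → ExistsReductionTameStatement`.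
-/

set_option autoImplicit false
set_option linter.unusedSectionVars false
set_option linter.style.haveILetI false
set_option synthInstance.maxHeartbeats 400000
set_option maxHeartbeats 1600000

noncomputable section

open AlgebraicCurve ModularCurve Fermat.Agent.H27.ESD Fermat.Agent.H66

namespace Fermat.Agent.H18

section ExTame

/-- The Riemann package of `F_k` (genus `genusFF`), unconditional for `ℓ ∤ N`. -/
theorem xr_riemannPackage_modL (N : ℕ) [NeZero N] (ℓ : ℕ) [Fact ℓ.Prime] (hℓN : ¬ ℓ ∣ N)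
    (A : ValuationSubring (AlgebraicClosure ℚ)) (hA : A.LiesOverPrime ℓ) :
    RiemannPackage (IsLocalRing.ResidueField ↥A)
      ↥(modularFunctionFieldFullC (IsLocalRing.ResidueField ↥A) N)
      (genusFF (IsLocalRing.ResidueField ↥A)
        ↥(modularFunctionFieldFullC (IsLocalRing.ResidueField ↥A) N)) := by
  haveI : Infinite (IsLocalRing.ResidueField ↥A) := xr_infinite_residueField A
  exact Fermat.Agent.H58.riemannPackage_of_rrHyp
    (Fermat.Agent.H89.rrModLStatement N ℓ hℓN A hA).2

/-- The Riemann package of `F_L` (genus `genusFF`). -/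
theorem xr_riemannPackage_bar (N : ℕ) [NeZero N] :
    RiemannPackage (AlgebraicClosure ℚ) ↥(modularFunctionFieldBar N)
      (genusFF (AlgebraicClosure ℚ) ↥(modularFunctionFieldBar N)) :=
  Fermat.Agent.H58.riemannPackage_of_rrHyp (Fermat.Agent.H58.rrHyp_modularFunctionFieldBar N)

/-- **The easy genus inequality, unconditional**: `g_k ≤ g_L`. -/
theorem genusFF_modL_le (N : ℕ) [NeZero N] (ℓ : ℕ) [Fact ℓ.Prime] (hℓN : ¬ ℓ ∣ N)
    (A : ValuationSubring (AlgebraicClosure ℚ)) (hA : A.LiesOverPrime ℓ) :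
    genusFF (IsLocalRing.ResidueField ↥A)
        ↥(modularFunctionFieldFullC (IsLocalRing.ResidueField ↥A) N) ≤
      genusFF (AlgebraicClosure ℚ) ↥(modularFunctionFieldBar N) := by
  haveI : Infinite (IsLocalRing.ResidueField ↥A) := xr_infinite_residueField A
  exact XrData.genus_le (xrDataBar N ℓ hℓN A hA) (xr_riemannPackage_bar N)
    (xr_riemannPackage_modL N ℓ hℓN A hA)

/-- **T4 from the genus inequality** (any pair `ℓ ∤ N`, in terms of `genusFF`). -/
theorem reductionInputs_of_genusFF_le (N : ℕ) [NeZero N] (ℓ : ℕ) [Fact ℓ.Prime] (hℓN : ¬ ℓ ∣ N)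
    (A : ValuationSubring (AlgebraicClosure ℚ)) (hA : A.LiesOverPrime ℓ)
    (hg : genusFF (AlgebraicClosure ℚ) ↥(modularFunctionFieldBar N) ≤
      genusFF (IsLocalRing.ResidueField ↥A)
        ↥(modularFunctionFieldFullC (IsLocalRing.ResidueField ↥A) N)) :
    ReductionInputsModL A N := by
  have heq : genusFF (IsLocalRing.ResidueField ↥A)
        ↥(modularFunctionFieldFullC (IsLocalRing.ResidueField ↥A) N) =
      genusFF (AlgebraicClosure ℚ) ↥(modularFunctionFieldBar N) :=
    le_antisymm (genusFF_modL_le N ℓ hℓN A hA) hg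
  have Rk := xr_riemannPackage_modL N ℓ hℓN A hA
  rw [heq] at Rk
  exact reductionInputs_of_genus_eq N ℓ hℓN A hA (xr_riemannPackage_bar N) Rk

/-- **T4 from the genus inequality** (any pair `ℓ ∤ N`, in terms of Riemann packages). -/
theorem reductionInputs_of_genus_le (N : ℕ) [NeZero N] (ℓ : ℕ) [Fact ℓ.Prime] (hℓN : ¬ ℓ ∣ N)
    (A : ValuationSubring (AlgebraicClosure ℚ)) (hA : A.LiesOverPrime ℓ) {gL gk : ℕ}
    (RL : RiemannPackage (AlgebraicClosure ℚ) ↥(modularFunctionFieldBar N) gL)
    (Rk : RiemannPackage (IsLocalRing.ResidueField ↥A)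
      ↥(modularFunctionFieldFullC (IsLocalRing.ResidueField ↥A) N) gk)
    (hg : gL ≤ gk) : ReductionInputsModL A N := by
  haveI : Infinite (IsLocalRing.ResidueField ↥A) := xr_infinite_residueField A
  have hle : gk ≤ gL := XrData.genus_le (xrDataBar N ℓ hℓN A hA) RL Rk
  obtain rfl : gL = gk := le_antisymm hg hle
  exact reductionInputs_of_genus_eq N ℓ hℓN A hA RL Rk

/-- The unconditional genus inequality at tame pairs (helper9's E6): good reduction of
`X₀(N)` at `ℓ` in numerical form, without assuming a place reduction. -/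
def GenusUncondTameStatement : Prop :=
  ∀ (N : ℕ) [NeZero N] (ℓ : ℕ) [Fact ℓ.Prime], ¬ ℓ ∣ N → TamePair N ℓ →
    ∀ (A : ValuationSubring (AlgebraicClosure ℚ)), A.LiesOverPrime ℓ →
      genusFF (AlgebraicClosure ℚ) ↥(modularFunctionFieldBar N) ≤
        genusFF (IsLocalRing.ResidueField A)
          ↥(modularFunctionFieldFullC (IsLocalRing.ResidueField A) N)

/-- **T4 (ES-D-EX)** from the unconditional genus inequality at tame pairs. -/
theorem existsReductionTame_of_genus (hG : GenusUncondTameStatement) :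
    ExistsReductionTameStatement := by
  intro N _ ℓ _ hℓN ht A hA
  exact reductionInputs_of_genusFF_le N ℓ hℓN A hA (hG N ℓ hℓN ht A hA)

end ExTame

end Fermat.Agent.H18
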