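import Mathlib

/-!
# Abstract valuation-ring algebra for the Igusa q-expansion principle (P-IGUSA, IG-C)

General lemmas on integrality, minimal polynomials and "valuation-like" subrings of a field.
-/

set_option autoImplicit false
set_option linter.style.haveILetI false

noncomputable section

open scoped Polynomial

namespace Fermat.Agent.H18

/-- Integrality from a monic polynomial over the big ring whose coefficients lie in the range of
the structure map. -/
theorem isIntegral_of_monic_coeff_mem {A B : Type*} [CommRing A] [CommRing B] [Algebra A B]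
    {x : B} (p : B[X]) (hp : p.Monic) (hx : p.eval x = 0)
    (hc : ∀ i, p.coeff i ∈ (algebraMap A B).range) : IsIntegral A x := by
  have hl : p ∈ Polynomial.lifts (algebraMap A B) :=
    (Polynomial.lifts_iff_coeff_lifts p).mpr fun i => by
      obtain ⟨a, ha⟩ := hc i
      exact ⟨a, ha⟩
  obtain ⟨q, hq, -, hqm⟩ := Polynomial.lifts_and_natDegree_eq_and_monic hl hp
  exact ⟨q, hqm, by rw [Polynomial.eval₂_eq_eval_map, hq, hx]⟩

/-- The coefficients of the minimal polynomial (over a field `K`) of an element integral over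
a subring-like `B` are integral over `B`. -/
theorem isIntegral_coeff_minpoly {B K E : Type*} [CommRing B] [Field K] [Field E] [Algebra B K]
    [Algebra K E] [Algebra B E] [IsScalarTower B K E] {y : E} (hy : IsIntegral B y) (i : ℕ) :
    IsIntegral B ((minpoly K y).coeff i) := by
  obtain ⟨p, hp, hpy⟩ := hy
  have hpy' : Polynomial.aeval y (p.map (algebraMap B K)) = 0 := by
    rw [Polynomial.aeval_def, Polynomial.eval₂_map, ← IsScalarTower.algebraMap_eq]
    exact hpy
  have hyK : IsIntegral K y := ⟨p.map (algebraMap B K), hp.map _, hpy'⟩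
  have hd : minpoly K y ∣ p.map (algebraMap B K) := minpoly.dvd K y hpy'
  have h := integralClosure.mem_lifts_of_monic_of_dvd_map K hp (minpoly.monic hyK) hd
  rw [Polynomial.lifts_iff_coeff_lifts] at h
  obtain ⟨c, hc⟩ := h i
  rw [← hc]
  exact c.2

/-- If `y` is integral over `k[t]` (`t` transcendental), the coefficients of its minimal
polynomial over `k(t)` are polynomials in `t`. -/
theorem coeff_minpoly_mem_range_aeval {k E : Type*} [Field k] [Field E] [Algebra k E]
    (K₀ : IntermediateField k E) {t : E} (hK₀ : K₀ = IntermediateField.adjoin k {t})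
    (ht : Transcendental k t) {y : E} (p : E[X]) (hp : p.Monic) (hpy : p.eval y = 0)
    (hc : ∀ i, p.coeff i ∈ (Polynomial.aeval t : k[X] →ₐ[k] E).range) (i : ℕ) :
    (((minpoly K₀ y).coeff i : K₀) : E) ∈ (Polynomial.aeval t : k[X] →ₐ[k] E).range := by
  classical
  subst hK₀
  let K := IntermediateField.adjoin k {t}
  let tK : K := ⟨t, IntermediateField.mem_adjoin_simple_self k t⟩
  letI alg : Algebra k[X] K := (Polynomial.aeval tK : k[X] →ₐ[k] K).toRingHom.toAlgebra
  letI algE : Algebra k[X] E := (Polynomial.aeval t : k[X] →ₐ[k] E).toRingHom.toAlgebra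
  have halg : ∀ P : k[X], ((algebraMap k[X] K P : K) : E) = Polynomial.aeval t P := by
    intro P
    show ((Polynomial.aeval tK P : K) : E) = _
    rw [← IntermediateField.coe_val, ← Polynomial.aeval_algHom_apply]
    rfl
  haveI : IsScalarTower k[X] K E := IsScalarTower.of_algebraMap_eq fun P => (halg P).symm
  have hinj : Function.Injective (algebraMap k[X] K) := by
    intro P Q hPQ
    have h1 : Polynomial.aeval t P = Polynomial.aeval t Q := by
      rw [← halg, ← halg, hPQ]
    exact (transcendental_iff_injective.mp ht) h1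
  haveI : FaithfulSMul k[X] K := (faithfulSMul_iff_algebraMap_injective k[X] K).mpr hinj
  haveI : IsFractionRing k[X] K := by
    refine IsFractionRing.of_field k[X] K fun z => ?_
    obtain ⟨r, s, hrs⟩ := (IntermediateField.mem_adjoin_simple_iff k (z : E)).mp z.2
    refine ⟨r, s, Subtype.ext ?_⟩
    rw [hrs]
    push_cast
    rw [halg, halg]
  have hyint : IsIntegral k[X] y :=
    isIntegral_of_monic_coeff_mem p hp hpy fun i => by
      obtain ⟨a, ha⟩ := hc i
      exact ⟨a, ha⟩
  have hci : IsIntegral k[X] ((minpoly K y).coeff i) := isIntegral_coeff_minpoly hyint i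
  obtain ⟨P, hP⟩ := IsIntegrallyClosed.isIntegral_iff.mp hci
  refine ⟨P, ?_⟩
  rw [← hP, halg]
  rfl

/-- A valuation-like subring `O` of a field `L`: total on a subfield `M`, with a residue map `Red`
to a field whose non-vanishing detects units. -/
structure ValData (L : Type*) (κ : Type*) [Field L] [Field κ] where
  /-- the valuation ring -/
  O : Subring L
  /-- the field on which `O` is a valuation ring -/
  M : Subfield L
  /-- the residue map -/
  Red : O →+* κ
  total : ∀ x ∈ M, x ∈ O ∨ x⁻¹ ∈ O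
  inv_mem : ∀ x : O, Red x ≠ 0 → (x : L)⁻¹ ∈ O

namespace ValData

variable {L : Type*} {κ : Type*} [Field L] [Field κ] (V : ValData L κ)

theorem red_eq_zero_of_inv_notMem {x : L} (hx : x ∈ V.O) (hx' : x⁻¹ ∉ V.O) :
    V.Red ⟨x, hx⟩ = 0 := by
  by_contra h
  exact hx' (V.inv_mem ⟨x, hx⟩ h)

/-- In a finite family of elements of `M`, not all zero, there is a nonzero member dividing all
the others in `O`. -/
theorem exists_min {ι : Type*} (s : Finset ι) (c : ι → L) (hc : ∀ i ∈ s, c i ∈ V.M)
    (hne : ∃ i ∈ s, c i ≠ 0) : ∃ i₀ ∈ s, c i₀ ≠ 0 ∧ ∀ i ∈ s, c i / c i₀ ∈ V.O := by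
  classical
  induction s using Finset.induction_on with
  | empty =>
    obtain ⟨i, hi, -⟩ := hne
    simp at hi
  | insert j s hj ih =>
    by_cases h : ∃ i ∈ s, c i ≠ 0
    · obtain ⟨i₁, hi₁, hne₁, hall⟩ := ih (fun i hi => hc i (Finset.mem_insert_of_mem hi)) h
      by_cases hj0 : c j = 0
      · refine ⟨i₁, Finset.mem_insert_of_mem hi₁, hne₁, fun i hi => ?_⟩
        rcases Finset.mem_insert.mp hi with rfl | hi
        · rw [hj0, zero_div]; exact zero_mem _
        · exact hall i hi
      · have hq : c j / c i₁ ∈ V.M :=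
          div_mem (hc j (Finset.mem_insert_self _ _)) (hc i₁ (Finset.mem_insert_of_mem hi₁))
        rcases V.total _ hq with h1 | h1
        · refine ⟨i₁, Finset.mem_insert_of_mem hi₁, hne₁, fun i hi => ?_⟩
          rcases Finset.mem_insert.mp hi with rfl | hi
          · exact h1
          · exact hall i hi
        · refine ⟨j, Finset.mem_insert_self _ _, hj0, fun i hi => ?_⟩
          rcases Finset.mem_insert.mp hi with rfl | hi
          · rw [div_self hj0]; exact one_mem _
          · have : c i / c j = (c i / c i₁) * (c j / c i₁)⁻¹ := by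
              field_simp
            rw [this]
            exact mul_mem (hall i hi) h1
    · push Not at h
      obtain ⟨i, hi, hne'⟩ := hne
      have hij : i = j := by
        rcases Finset.mem_insert.mp hi with rfl | hi'
        · rfl
        · exact absurd (h i hi') hne'
      subst hij
      refine ⟨i, Finset.mem_insert_self _ _, hne', fun i' hi' => ?_⟩
      rcases Finset.mem_insert.mp hi' with rfl | hi'
      · rw [div_self hne']; exact one_mem _
      · rw [h i' hi', zero_div]; exact zero_mem _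

/-- `O` is integrally closed in `M`. -/
theorem mem_of_monic {x : L} (hx : x ∈ V.M) (p : L[X]) (hp : p.Monic) (hpx : p.eval x = 0)
    (hc : ∀ i, p.coeff i ∈ V.O) : x ∈ V.O := by
  rcases V.total x hx with h | h
  · exact h
  by_cases hx0 : x = 0
  · rw [hx0]; exact zero_mem _
  have hsum : ∑ i ∈ Finset.range p.natDegree, p.coeff i * x ^ i + x ^ p.natDegree = 0 := by
    rw [Polynomial.eval_eq_sum_range, Finset.sum_range_succ, hp.coeff_natDegree, one_mul] at hpx
    exact hpx
  rcases Nat.eq_zero_or_pos p.natDegree with hd | hd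
  · rw [hd] at hsum
    simp at hsum
  obtain ⟨e, he⟩ : ∃ e, p.natDegree = e + 1 := ⟨p.natDegree - 1, by omega⟩
  rw [he] at hsum
  have key : x = -∑ i ∈ Finset.range (e + 1), p.coeff i * x⁻¹ ^ (e - i) := by
    have h1 : (∑ i ∈ Finset.range (e + 1), p.coeff i * x ^ i + x ^ (e + 1)) * x⁻¹ ^ e = 0 := by
      rw [hsum, zero_mul]
    rw [add_mul, Finset.sum_mul] at h1
    have h2 : x ^ (e + 1) * x⁻¹ ^ e = x := by
      rw [pow_succ, mul_comm (x ^ e) x, mul_assoc, ← mul_pow, mul_inv_cancel₀ hx0, one_pow,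
        mul_one]
    have h3 : ∀ i ∈ Finset.range (e + 1), p.coeff i * x ^ i * x⁻¹ ^ e =
        p.coeff i * x⁻¹ ^ (e - i) := by
      intro i hi
      have hie : i ≤ e := Nat.lt_succ_iff.mp (Finset.mem_range.mp hi)
      obtain ⟨k, rfl⟩ := Nat.exists_eq_add_of_le hie
      rw [Nat.add_sub_cancel_left, pow_add, mul_assoc, ← mul_assoc (x ^ i), ← mul_pow,
        mul_inv_cancel₀ hx0, one_pow, one_mul]
    rw [h2, Finset.sum_congr rfl h3] at h1
    exact eq_neg_of_add_eq_zero_right h1
  rw [key]
  exact neg_mem (sum_mem fun i _ => mul_mem (hc i) (pow_mem h _))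

section Lift

variable {K₀ : Type*} [Field K₀] [Algebra K₀ L] (hK : ∀ c : K₀, algebraMap K₀ L c ∈ V.M)
  {n : ℕ} (x : Fin n → V.O)
  (hLI : ∀ c : Fin n → V.O, (∀ i, (c i : L) ∈ (algebraMap K₀ L).range) →
    ∑ i, V.Red (c i) * V.Red (x i) = 0 → ∀ i, V.Red (c i) = 0)

include hK hLI

/-- Scaling a `K₀`-linear combination of lifts of a residually independent family. -/
theorem exists_scale (c : Fin n → K₀) (hne : ∃ i, c i ≠ 0) :
    ∃ i₀, c i₀ ≠ 0 ∧ (∀ i, algebraMap K₀ L (c i / c i₀) ∈ V.O) ∧
      ∃ w : V.O, V.Red w ≠ 0 ∧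
        (w : L) * algebraMap K₀ L (c i₀) = ∑ i, algebraMap K₀ L (c i) * (x i : L) := by
  classical
  obtain ⟨i₀, -, hi₀, hall⟩ := V.exists_min Finset.univ (fun i => algebraMap K₀ L (c i))
    (fun i _ => hK _) (by
      obtain ⟨i, hi⟩ := hne
      exact ⟨i, Finset.mem_univ _, (map_ne_zero _).mpr hi⟩)
  have hi₀' : c i₀ ≠ 0 := (map_ne_zero (algebraMap K₀ L)).mp hi₀
  have hall' : ∀ i, algebraMap K₀ L (c i / c i₀) ∈ V.O := fun i => by
    rw [map_div₀]; exact hall i (Finset.mem_univ _)
  refine ⟨i₀, hi₀', hall', ?_⟩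
  let c' : Fin n → V.O := fun i => ⟨algebraMap K₀ L (c i / c i₀), hall' i⟩
  refine ⟨∑ i, c' i * x i, ?_, ?_⟩
  · intro h0
    rw [map_sum] at h0
    simp only [map_mul] at h0
    have h1 := hLI c' (fun i => ⟨c i / c i₀, rfl⟩) h0 i₀
    have h2 : c' i₀ = 1 := by
      apply Subtype.ext
      show algebraMap K₀ L (c i₀ / c i₀) = 1
      rw [div_self hi₀', map_one]
    rw [h2, map_one] at h1
    exact one_ne_zero h1
  · push_cast
    rw [Finset.sum_mul]
    refine Finset.sum_congr rfl fun i _ => ?_
    show algebraMap K₀ L (c i / c i₀) * (x i : L) * algebraMap K₀ L (c i₀) = _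
    rw [map_div₀]
    field_simp

/-- Lifts of a residually independent family are `K₀`-linearly independent. -/
theorem eq_zero_of_sum_eq_zero (c : Fin n → K₀)
    (h0 : ∑ i, algebraMap K₀ L (c i) * (x i : L) = 0) : ∀ i, c i = 0 := by
  by_contra hne
  push Not at hne
  obtain ⟨i₀, hi₀, -, w, hw, hwc⟩ := V.exists_scale hK x hLI c hne
  rw [h0] at hwc
  rcases mul_eq_zero.mp hwc with h | h
  · apply hw
    have : w = 0 := Subtype.ext h
    rw [this, map_zero]
  · exact hi₀ ((map_eq_zero _).mp h)

/-- If a `K₀`-linear combination of the lifts lies in `O`, so do the coefficients. -/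
theorem coeff_mem_of_sum_mem (c : Fin n → K₀)
    (hy : ∑ i, algebraMap K₀ L (c i) * (x i : L) ∈ V.O) : ∀ i, algebraMap K₀ L (c i) ∈ V.O := by
  by_cases hne : ∃ i, c i ≠ 0
  · obtain ⟨i₀, hi₀, hall, w, hw, hwc⟩ := V.exists_scale hK x hLI c hne
    have hwinv := V.inv_mem w hw
    have hw0 : (w : L) ≠ 0 := by
      intro h
      apply hw
      have : w = 0 := Subtype.ext h
      rw [this, map_zero]
    have hci₀ : algebraMap K₀ L (c i₀) ∈ V.O := by
      have : algebraMap K₀ L (c i₀) =
          (w : L)⁻¹ * ∑ i, algebraMap K₀ L (c i) * (x i : L) := by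
        rw [← hwc, ← mul_assoc, inv_mul_cancel₀ hw0, one_mul]
      rw [this]
      exact mul_mem hwinv hy
    intro i
    have : algebraMap K₀ L (c i) = algebraMap K₀ L (c i / c i₀) * algebraMap K₀ L (c i₀) := by
      rw [← map_mul, div_mul_cancel₀ _ hi₀]
    rw [this]
    exact mul_mem (hall i) hci₀
  · push Not at hne
    intro i
    rw [hne i, map_zero]
    exact zero_mem _

/-- Every element of `F' ∩ O` is integral over `K₀ ∩ O`, when a `K₀`-basis-sized residually
independent family lifts to `F' ∩ O`. -/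
theorem isIntegral_of_lift (F' : Subalgebra K₀ L) [FiniteDimensional K₀ F']
    (hn : Module.finrank K₀ F' = n) (hxF : ∀ i, (x i : L) ∈ F') {y : L} (hyF : y ∈ F')
    (hyO : y ∈ V.O) : IsIntegral (V.O.comap (algebraMap K₀ L)) y := by
  classical
  let S : Subalgebra (V.O.comap (algebraMap K₀ L)) L :=
    { carrier := {z | z ∈ F' ∧ z ∈ V.O}
      mul_mem' := fun ha hb => ⟨mul_mem ha.1 hb.1, mul_mem ha.2 hb.2⟩
      add_mem' := fun ha hb => ⟨add_mem ha.1 hb.1, add_mem ha.2 hb.2⟩
      algebraMap_mem' := fun c => ⟨F'.algebraMap_mem c.1, c.2⟩ }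
  have hxli : LinearIndependent K₀ (fun i => (⟨x i, hxF i⟩ : F')) := by
    rw [Fintype.linearIndependent_iff]
    intro g hg
    refine V.eq_zero_of_sum_eq_zero hK x hLI g ?_
    have := congrArg (Subtype.val : F' → L) hg
    simpa [Algebra.smul_def] using this
  have hspan := hxli.span_eq_top_of_card_eq_finrank' (by rw [Fintype.card_fin, hn])
  have hS : Subalgebra.toSubmodule S =
      Submodule.span (V.O.comap (algebraMap K₀ L)) (Set.range fun i => (x i : L)) := by
    apply le_antisymm
    · intro z hz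
      have hz' : (⟨z, hz.1⟩ : F') ∈ Submodule.span K₀ (Set.range fun i => (⟨x i, hxF i⟩ : F')) := by
        rw [hspan]; exact Submodule.mem_top
      obtain ⟨c, hc⟩ := (Submodule.mem_span_range_iff_exists_fun K₀).mp hz'
      have hc' : ∑ i, algebraMap K₀ L (c i) * (x i : L) = z := by
        have := congrArg (Subtype.val : F' → L) hc
        simpa [Algebra.smul_def] using this
      have hcO := V.coeff_mem_of_sum_mem hK x hLI c (by rw [hc']; exact hz.2)
      rw [← hc']
      refine Submodule.sum_mem _ fun i _ => ?_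
      have : algebraMap K₀ L (c i) * (x i : L) =
          (⟨c i, hcO i⟩ : V.O.comap (algebraMap K₀ L)) • (x i : L) := by
        rw [Algebra.smul_def]; rfl
      rw [this]
      exact Submodule.smul_mem _ _ (Submodule.subset_span ⟨i, rfl⟩)
    · rw [Submodule.span_le]
      rintro _ ⟨i, rfl⟩
      exact ⟨hxF i, (x i).2⟩
  have hFG : (Subalgebra.toSubmodule S).FG := by
    rw [hS]
    exact Submodule.fg_span (Set.finite_range _)
  exact IsIntegral.of_mem_of_fg S hFG y ⟨hyF, hyO⟩

/-- The coefficients of the minimal polynomial over `K₀` of an element of `F' ∩ O` lie in `O`. -/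
theorem coeff_minpoly_mem (F' : Subalgebra K₀ L) [FiniteDimensional K₀ F']
    (hn : Module.finrank K₀ F' = n) (hxF : ∀ i, (x i : L) ∈ F') {y : L} (hyF : y ∈ F')
    (hyO : y ∈ V.O) (i : ℕ) : algebraMap K₀ L ((minpoly K₀ y).coeff i) ∈ V.O := by
  have hint := V.isIntegral_of_lift hK x hLI F' hn hxF hyF hyO
  obtain ⟨q, hq, hqc⟩ := isIntegral_coeff_minpoly (K := K₀) hint i
  refine V.mem_of_monic (hK _) (q.map (algebraMap (V.O.comap (algebraMap K₀ L)) L)) (hq.map _) ?_ ?_
  · rw [Polynomial.eval_map, IsScalarTower.algebraMap_eq (V.O.comap (algebraMap K₀ L)) K₀ L,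
      ← Polynomial.hom_eval₂, hqc, map_zero]
  · intro j
    rw [Polynomial.coeff_map]
    exact (q.coeff j).2

end Lift

section Const

variable (k : Type*) [Field k] [Algebra k L]

/-- the constants of `k` lying in `O` -/
abbrev kO : Subring k := V.O.comap (algebraMap k L)

/-- the inclusion of `kO` into `O` -/
def kOtoO : V.kO k →+* V.O :=
  ((algebraMap k L).comp (V.kO k).subtype).codRestrict V.O fun c => c.2

@[simp] theorem coe_kOtoO (c : V.kO k) : ((V.kOtoO k c : V.O) : L) = algebraMap k L (c : k) := rfl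

variable {k} {κ₀ : Type*} [Field κ₀] [Algebra κ₀ κ]

/-- A residue map on constants, from the mere fact that constants reduce to constants. -/
theorem exists_res
    (hconst : ∀ c : V.kO k, ∃ γ : κ₀, V.Red (V.kOtoO k c) = algebraMap κ₀ κ γ) :
    ∃ res : V.kO k →+* κ₀, ∀ c, V.Red (V.kOtoO k c) = algebraMap κ₀ κ (res c) := by
  choose g hg using hconst
  have hinj : Function.Injective (algebraMap κ₀ κ) := (algebraMap κ₀ κ).injective
  refine ⟨{ toFun := g, map_one' := ?_, map_mul' := ?_, map_zero' := ?_, map_add' := ?_ }, hg⟩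
  · apply hinj; rw [← hg, map_one, map_one, map_one]
  · intro a b; apply hinj; rw [← hg, map_mul, map_mul, map_mul, hg, hg]
  · apply hinj; rw [← hg, map_zero, map_zero, map_zero]
  · intro a b; apply hinj; rw [← hg, map_add, map_add, map_add, hg, hg]

variable (res : V.kO k →+* κ₀) (hres : ∀ c, V.Red (V.kOtoO k c) = algebraMap κ₀ κ (res c))
  (t : V.O)

include hres

/-- Reduction of the value at `t` of a polynomial with coefficients in `kO`. -/
theorem red_eval₂ (Q : (V.kO k)[X]) :
    V.Red (Q.eval₂ (V.kOtoO k) t) = Polynomial.aeval (V.Red t) (Q.map res) := by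
  rw [Polynomial.hom_eval₂, Polynomial.aeval_def, Polynomial.eval₂_map]
  congr 1
  exact RingHom.ext fun c => hres c

omit hres in
theorem coe_eval₂ (Q : (V.kO k)[X]) :
    ((Q.eval₂ (V.kOtoO k) t : V.O) : L) =
      Polynomial.aeval (t : L) (Q.map (V.kO k).subtype) := by
  have h := Polynomial.hom_eval₂ Q (V.kOtoO k) V.O.subtype t
  rw [Polynomial.aeval_def, Polynomial.eval₂_map]
  exact h

omit hres in
/-- normalising a nonzero polynomial over `k` by its "smallest" coefficient -/
theorem exists_normalise (hkM : ∀ c : k, algebraMap k L c ∈ V.M) (P : k[X]) (hP0 : P ≠ 0) :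
    ∃ (a : k) (Q : (V.kO k)[X]) (i₀ : ℕ), a ≠ 0 ∧ Q.coeff i₀ = 1 ∧
      Q.map (V.kO k).subtype = Polynomial.C a⁻¹ * P ∧ a = P.coeff i₀ := by
  classical
  obtain ⟨i₀, -, hi₀, hall⟩ := V.exists_min P.support (fun i => algebraMap k L (P.coeff i))
    (fun i _ => hkM _) ⟨P.natDegree, Polynomial.natDegree_mem_support_of_nonzero hP0,
      (_root_.map_ne_zero _).mpr (Polynomial.leadingCoeff_ne_zero.mpr hP0)⟩
  have hi₀' : P.coeff i₀ ≠ 0 := (_root_.map_ne_zero (algebraMap k L)).mp hi₀
  have hall' : ∀ i, (P.coeff i₀)⁻¹ * P.coeff i ∈ V.kO k := by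
    intro i
    show algebraMap k L ((P.coeff i₀)⁻¹ * P.coeff i) ∈ V.O
    by_cases hi : i ∈ P.support
    · have := hall i hi
      rwa [div_eq_inv_mul, ← map_inv₀, ← map_mul] at this
    · rw [Polynomial.notMem_support_iff.mp hi, mul_zero, map_zero]
      exact zero_mem _
  have hcoeffs : (↑(Polynomial.C (P.coeff i₀)⁻¹ * P).coeffs : Set k) ⊆ V.kO k := by
    intro c hc
    obtain ⟨i, -, rfl⟩ := Polynomial.mem_coeffs_iff.mp hc
    rw [Polynomial.coeff_C_mul]
    exact hall' i
  refine ⟨P.coeff i₀, (Polynomial.C (P.coeff i₀)⁻¹ * P).toSubring (V.kO k) hcoeffs, i₀, hi₀', ?_,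
    Polynomial.map_toSubring _ _ _, rfl⟩
  apply Subtype.ext
  rw [Polynomial.coeff_toSubring, Polynomial.coeff_C_mul, inv_mul_cancel₀ hi₀']
  rfl

/-- If the value at `t` of a polynomial over `k` lies in `O` (and the reduction of `t` is
transcendental over the residue constants), all its coefficients lie in `O`. -/
theorem coeff_mem_of_aeval_mem (hkM : ∀ c : k, algebraMap k L c ∈ V.M)
    (htr : Transcendental κ₀ (V.Red t)) (P : k[X]) (hP : Polynomial.aeval (t : L) P ∈ V.O) :
    ∀ i, P.coeff i ∈ V.kO k := by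
  by_cases hP0 : P = 0
  · intro i
    rw [hP0, Polynomial.coeff_zero]
    exact zero_mem _
  obtain ⟨a, Q, i₀, ha, hQ1, hQ, ha'⟩ := V.exists_normalise hkM P hP0
  have hQc : ∀ i, a⁻¹ * P.coeff i ∈ V.kO k := by
    intro i
    have := congrArg (fun R => Polynomial.coeff R i) hQ
    simp only [Polynomial.coeff_map, Polynomial.coeff_C_mul] at this
    rw [← this]
    exact (Q.coeff i).2
  by_cases h : a ∈ V.kO k
  · intro i
    have : P.coeff i = a * (a⁻¹ * P.coeff i) := by
      rw [← mul_assoc, mul_inv_cancel₀ ha, one_mul]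
    rw [this]
    exact mul_mem h (hQc i)
  · exfalso
    have haL : algebraMap k L a ∉ V.O := h
    have hainv : (algebraMap k L a)⁻¹ ∈ V.O := by
      rcases V.total _ (hkM a) with h1 | h1
      · exact absurd h1 haL
      · exact h1
    have hred0 : V.Red ⟨(algebraMap k L a)⁻¹, hainv⟩ = 0 :=
      V.red_eq_zero_of_inv_notMem hainv (by rwa [inv_inv])
    have hprod : Q.eval₂ (V.kOtoO k) t = ⟨(algebraMap k L a)⁻¹, hainv⟩ * ⟨_, hP⟩ := by
      apply Subtype.ext
      rw [V.coe_eval₂, hQ, map_mul, Polynomial.aeval_C, map_inv₀]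
      rfl
    have hz : Polynomial.aeval (V.Red t) (Q.map res) = 0 := by
      rw [← V.red_eval₂ res hres, hprod, map_mul, hred0, zero_mul]
    have hQ0 : Q.map res = 0 := by
      by_contra hne
      exact htr ⟨_, hne, hz⟩
    have := congrArg (fun R => Polynomial.coeff R i₀) hQ0
    simp only [Polynomial.coeff_map, hQ1, map_one, Polynomial.coeff_zero] at this
    exact one_ne_zero this

/-- The reduction of an element of `k(t) ∩ O` lies in `κ₀(Red t)`. -/
theorem red_mem_adjoin (hkM : ∀ c : k, algebraMap k L c ∈ V.M)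
    (htr : Transcendental κ₀ (V.Red t)) (x : V.O)
    (hx : (x : L) ∈ IntermediateField.adjoin k {(t : L)}) :
    V.Red x ∈ IntermediateField.adjoin κ₀ {V.Red t} := by
  obtain ⟨P, Q, hPQ⟩ := (IntermediateField.mem_adjoin_simple_iff k (x : L)).mp hx
  by_cases hQt : Polynomial.aeval (t : L) Q = 0
  · rw [hQt, div_zero] at hPQ
    have : x = 0 := Subtype.ext hPQ
    rw [this, map_zero]
    exact zero_mem _
  have hQ0 : Q ≠ 0 := by
    rintro rfl
    exact hQt (map_zero _)
  obtain ⟨a, Q₁, i₀, ha, hQ1, hQ, -⟩ := V.exists_normalise hkM Q hQ0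
  -- the value of `Q₁`
  have hQ₁t : ((Q₁.eval₂ (V.kOtoO k) t : V.O) : L) =
      (algebraMap k L a)⁻¹ * Polynomial.aeval (t : L) Q := by
    rw [V.coe_eval₂, hQ, map_mul, Polynomial.aeval_C, map_inv₀]
  have hQ₁res : Q₁.map res ≠ 0 := by
    intro h0
    have := congrArg (fun R => Polynomial.coeff R i₀) h0
    simp only [Polynomial.coeff_map, hQ1, map_one, Polynomial.coeff_zero] at this
    exact one_ne_zero this
  have hredQ : V.Red (Q₁.eval₂ (V.kOtoO k) t) ≠ 0 := by
    rw [V.red_eval₂ res hres]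
    intro h0
    exact htr ⟨_, hQ₁res, h0⟩
  -- the numerator
  have hP₁O : Polynomial.aeval (t : L) (Polynomial.C a⁻¹ * P) ∈ V.O := by
    have : Polynomial.aeval (t : L) (Polynomial.C a⁻¹ * P) =
        (x : L) * ((Q₁.eval₂ (V.kOtoO k) t : V.O) : L) := by
      rw [hQ₁t, hPQ, map_mul, Polynomial.aeval_C, map_inv₀]
      field_simp
    rw [this]
    exact mul_mem x.2 (Subtype.mem _)
  have hP₁c := V.coeff_mem_of_aeval_mem res hres t hkM htr _ hP₁O
  have hcoeffs : (↑(Polynomial.C a⁻¹ * P).coeffs : Set k) ⊆ V.kO k := by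
    intro c hc
    obtain ⟨i, -, rfl⟩ := Polynomial.mem_coeffs_iff.mp hc
    exact hP₁c i
  set P₁ : (V.kO k)[X] := (Polynomial.C a⁻¹ * P).toSubring (V.kO k) hcoeffs with hP₁
  have hP₁map : P₁.map (V.kO k).subtype = Polynomial.C a⁻¹ * P := Polynomial.map_toSubring _ _ _
  have hmul : x * Q₁.eval₂ (V.kOtoO k) t = P₁.eval₂ (V.kOtoO k) t := by
    apply Subtype.ext
    push_cast
    rw [hQ₁t, V.coe_eval₂, hP₁map, hPQ, map_mul, Polynomial.aeval_C, map_inv₀]
    field_simp
  have hred : V.Red x = V.Red (P₁.eval₂ (V.kOtoO k) t) / V.Red (Q₁.eval₂ (V.kOtoO k) t) := by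
    rw [← hmul, map_mul, mul_div_assoc, div_self hredQ, mul_one]
  rw [hred, V.red_eval₂ res hres, V.red_eval₂ res hres]
  exact (IntermediateField.mem_adjoin_simple_iff κ₀ _).mpr ⟨_, _, rfl⟩

end Const

end ValData

end Fermat.Agent.H18
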