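import Mathlib
import Fermat.Prelude.Def_ModularCurve_IgusaScheme
import Fermat.Prelude.Def_ModularCurve_X0ModL
import Fermat.Agent.H18.IgusaVal

set_option autoImplicit false
set_option linter.style.haveILetI false
set_option linter.unusedSectionVars false

noncomputable section

open ModularCurve

namespace Fermat.Agent.H18

/-- `ι : ℤ((q)) → ℚ((q))` -/
abbrev igIota : LaurentSeries ℤ →+* LaurentSeries ℚ := coeffMap (Int.castRingHom ℚ)

/-- `ρ : ℤ((q)) → 𝔽_ℓ((q))` -/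
abbrev igRho (ℓ : ℕ) : LaurentSeries ℤ →+* LaurentSeries (ZMod ℓ) :=
  coeffMap (Int.castRingHom (ZMod ℓ))

theorem igIota_injective : Function.Injective igIota := by
  intro a b h
  ext k
  have := congrArg (fun x => HahnSeries.coeff x k) h
  simpa using this

theorem igIota_eq_zero_iff {a : LaurentSeries ℤ} : igIota a = 0 ↔ a = 0 :=
  ⟨fun h => igIota_injective (by rw [h, map_zero]), fun h => by rw [h, map_zero]⟩

theorem natCast_mul_coeff (ℓ : ℕ) (a : LaurentSeries ℤ) (k : ℤ) :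
    ((ℓ : LaurentSeries ℤ) * a).coeff k = (ℓ : ℤ) * a.coeff k := by
  have h : (ℓ : LaurentSeries ℤ) = HahnSeries.C (ℓ : ℤ) := by
    rw [map_natCast]
  rw [h, HahnSeries.C_mul_eq_smul, HahnSeries.coeff_smul, smul_eq_mul]

variable (ℓ : ℕ) [Fact ℓ.Prime]

/-- the kernel of `ρ` is generated by `ℓ` -/
theorem exists_eq_mul_of_igRho_eq_zero {a : LaurentSeries ℤ} (h : igRho ℓ a = 0) :
    ∃ a' : LaurentSeries ℤ, a = (ℓ : LaurentSeries ℤ) * a' := by
  have hdvd : ∀ k, (ℓ : ℤ) ∣ a.coeff k := by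
    intro k
    have := congrArg (fun x => HahnSeries.coeff x k) h
    simp only [coeffMap_coeff, HahnSeries.coeff_zero, eq_intCast] at this
    exact (ZMod.intCast_zmod_eq_zero_iff_dvd _ _).mp this
  let f : ZeroHom ℤ ℤ := ⟨fun n => n / (ℓ : ℤ), by simp⟩
  refine ⟨a.map f, ?_⟩
  ext k
  rw [natCast_mul_coeff, HahnSeries.map_coeff]
  show a.coeff k = (ℓ : ℤ) * (a.coeff k / (ℓ : ℤ))
  rw [Int.mul_ediv_cancel' (hdvd k)]

theorem igRho_natCast_mul (a : LaurentSeries ℤ) : igRho ℓ ((ℓ : LaurentSeries ℤ) * a) = 0 := by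
  rw [map_mul, map_natCast]
  have : ((ℓ : ℕ) : LaurentSeries (ZMod ℓ)) = 0 := by
    have h : (ℓ : LaurentSeries (ZMod ℓ)) = HahnSeries.C ((ℓ : ℕ) : ZMod ℓ) := by
      rw [map_natCast]
    rw [h, ZMod.natCast_self, map_zero]
  rw [this, zero_mul]

/-- every nonzero series is a power of `ℓ` times a series with nonzero reduction -/
theorem exists_eq_pow_mul (a : LaurentSeries ℤ) (ha : a ≠ 0) :
    ∃ (m : ℕ) (a' : LaurentSeries ℤ), a = (ℓ : LaurentSeries ℤ) ^ m * a' ∧ igRho ℓ a' ≠ 0 := by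
  obtain ⟨k, hk⟩ : ∃ k, a.coeff k ≠ 0 := by
    by_contra hcon
    push Not at hcon
    exact ha (HahnSeries.ext (funext hcon))
  have hℓ : 2 ≤ ℓ := (Fact.out : ℓ.Prime).two_le
  suffices H : ∀ (n : ℕ) (a : LaurentSeries ℤ), (a.coeff k).natAbs ≤ n → a.coeff k ≠ 0 →
      ∃ (m : ℕ) (a' : LaurentSeries ℤ), a = (ℓ : LaurentSeries ℤ) ^ m * a' ∧ igRho ℓ a' ≠ 0 from
    H _ a le_rfl hk
  intro n
  induction n with
  | zero =>
    intro a hn hk
    exact absurd (Int.natAbs_eq_zero.mp (Nat.le_zero.mp hn)) hk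
  | succ n ih =>
    intro a hn hk
    by_cases hρ : igRho ℓ a = 0
    · obtain ⟨a₁, ha₁⟩ := exists_eq_mul_of_igRho_eq_zero ℓ hρ
      have hc : a.coeff k = (ℓ : ℤ) * a₁.coeff k := by rw [ha₁, natCast_mul_coeff]
      have hk₁ : a₁.coeff k ≠ 0 := by
        intro h0
        rw [h0, mul_zero] at hc
        exact hk hc
      have hlt : (a₁.coeff k).natAbs ≤ n := by
        have h1 : (a.coeff k).natAbs = ℓ * (a₁.coeff k).natAbs := by
          rw [hc, Int.natAbs_mul, Int.natAbs_natCast]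
        have h2 : 0 < (a₁.coeff k).natAbs := Int.natAbs_pos.mpr hk₁
        nlinarith
      obtain ⟨m, a', ha', hρ'⟩ := ih a₁ hlt hk₁
      exact ⟨m + 1, a', by rw [ha₁, ha', pow_succ]; ring, hρ'⟩
    · exact ⟨0, a, by rw [pow_zero, one_mul], hρ⟩

/-- the valuation ring of the Gauss valuation (fractions with residually nonzero denominator) -/
def igO : Subring (LaurentSeries ℚ) where
  carrier := {x | ∃ a b : LaurentSeries ℤ, igRho ℓ b ≠ 0 ∧ x * igIota b = igIota a}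
  mul_mem' := by
    rintro x y ⟨a, b, hb, h⟩ ⟨a', b', hb', h'⟩
    refine ⟨a * a', b * b', ?_, ?_⟩
    · rw [map_mul]; exact mul_ne_zero hb hb'
    · rw [map_mul, map_mul, ← h, ← h']; ring
  one_mem' := ⟨1, 1, by rw [map_one]; exact one_ne_zero, by rw [map_one, mul_one]⟩
  add_mem' := by
    rintro x y ⟨a, b, hb, h⟩ ⟨a', b', hb', h'⟩
    refine ⟨a * b' + a' * b, b * b', ?_, ?_⟩
    · rw [map_mul]; exact mul_ne_zero hb hb'
    · rw [map_mul, map_add, map_mul, map_mul, ← h, ← h']; ring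
  zero_mem' := ⟨0, 1, by rw [map_one]; exact one_ne_zero, by rw [zero_mul, map_zero]⟩
  neg_mem' := by
    rintro x ⟨a, b, hb, h⟩
    exact ⟨-a, b, hb, by rw [map_neg, ← h]; ring⟩

/-- the field of fractions of `ℤ((q))` inside `ℚ((q))` -/
def igM : Subfield (LaurentSeries ℚ) where
  carrier := {x | ∃ a b : LaurentSeries ℤ, b ≠ 0 ∧ x * igIota b = igIota a}
  mul_mem' := by
    rintro x y ⟨a, b, hb, h⟩ ⟨a', b', hb', h'⟩
    refine ⟨a * a', b * b', mul_ne_zero hb hb', ?_⟩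
    rw [map_mul, map_mul, ← h, ← h']; ring
  one_mem' := ⟨1, 1, one_ne_zero, by rw [map_one, mul_one]⟩
  add_mem' := by
    rintro x y ⟨a, b, hb, h⟩ ⟨a', b', hb', h'⟩
    refine ⟨a * b' + a' * b, b * b', mul_ne_zero hb hb', ?_⟩
    rw [map_mul, map_add, map_mul, map_mul, ← h, ← h']; ring
  zero_mem' := ⟨0, 1, one_ne_zero, by rw [zero_mul, map_zero]⟩
  neg_mem' := by
    rintro x ⟨a, b, hb, h⟩
    exact ⟨-a, b, hb, by rw [map_neg, ← h]; ring⟩
  inv_mem' := by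
    rintro x ⟨a, b, hb, h⟩
    by_cases hx : x = 0
    · exact ⟨0, 1, one_ne_zero, by rw [hx, inv_zero, zero_mul, map_zero]⟩
    · have ha : a ≠ 0 := by
        rintro rfl
        rw [map_zero] at h
        rcases mul_eq_zero.mp h with h1 | h1
        · exact hx h1
        · exact hb (igIota_eq_zero_iff.mp h1)
      refine ⟨b, a, ha, ?_⟩
      rw [← h, ← mul_assoc, inv_mul_cancel₀ hx, one_mul]

theorem igIota_mem_igO (a : LaurentSeries ℤ) : igIota a ∈ igO ℓ :=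
  ⟨a, 1, by rw [map_one]; exact one_ne_zero, by rw [map_one, mul_one]⟩

theorem igRed_exists (x : LaurentSeries ℚ) (hx : x ∈ igO ℓ) :
    ∃ r : LaurentSeries (ZMod ℓ), ∀ a b : LaurentSeries ℤ, igRho ℓ b ≠ 0 →
      x * igIota b = igIota a → r = igRho ℓ a / igRho ℓ b := by
  obtain ⟨a₀, b₀, hb₀, h₀⟩ := hx
  refine ⟨igRho ℓ a₀ / igRho ℓ b₀, fun a b hb h => ?_⟩
  rw [div_eq_div_iff hb₀ hb, ← map_mul, ← map_mul]
  congr 1
  apply igIota_injective
  rw [map_mul, map_mul, ← h, ← h₀]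
  ring

/-- the residue map, as a function -/
def igRedFun (x : igO ℓ) : LaurentSeries (ZMod ℓ) :=
  (igRed_exists ℓ x.1 x.2).choose

theorem igRedFun_eq (x : igO ℓ) {a b : LaurentSeries ℤ} (hb : igRho ℓ b ≠ 0)
    (h : (x : LaurentSeries ℚ) * igIota b = igIota a) :
    igRedFun ℓ x = igRho ℓ a / igRho ℓ b :=
  (igRed_exists ℓ x.1 x.2).choose_spec a b hb h

/-- the residue map -/
def igRed : igO ℓ →+* LaurentSeries (ZMod ℓ) where
  toFun := igRedFun ℓ
  map_one' := by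
    rw [igRedFun_eq ℓ 1 (a := 1) (b := 1) (by rw [map_one]; exact one_ne_zero)
      (by rw [map_one]; simp), map_one, div_one]
  map_mul' := by
    rintro ⟨x, a, b, hb, h⟩ ⟨y, a', b', hb', h'⟩
    rw [igRedFun_eq ℓ ⟨x, a, b, hb, h⟩ hb h, igRedFun_eq ℓ ⟨y, a', b', hb', h'⟩ hb' h',
      igRedFun_eq ℓ _ (a := a * a') (b := b * b') (by rw [map_mul]; exact mul_ne_zero hb hb')
        (by
          show x * y * igIota (b * b') = igIota (a * a')
          rw [map_mul, map_mul, ← h, ← h']; ring),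
      map_mul, map_mul, div_mul_div_comm]
  map_zero' := by
    rw [igRedFun_eq ℓ 0 (a := 0) (b := 1) (by rw [map_one]; exact one_ne_zero)
      (by simp), map_zero, zero_div]
  map_add' := by
    rintro ⟨x, a, b, hb, h⟩ ⟨y, a', b', hb', h'⟩
    rw [igRedFun_eq ℓ ⟨x, a, b, hb, h⟩ hb h, igRedFun_eq ℓ ⟨y, a', b', hb', h'⟩ hb' h',
      igRedFun_eq ℓ _ (a := a * b' + a' * b) (b := b * b')
        (by rw [map_mul]; exact mul_ne_zero hb hb')
        (by
          show (x + y) * igIota (b * b') = igIota (a * b' + a' * b)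
          rw [map_mul, map_add, map_mul, map_mul, ← h, ← h']; ring),
      map_add, map_mul, map_mul, map_mul, div_add_div _ _ hb hb']
    congr 1
    ring

theorem igRed_eq (x : igO ℓ) {a b : LaurentSeries ℤ} (hb : igRho ℓ b ≠ 0)
    (h : (x : LaurentSeries ℚ) * igIota b = igIota a) :
    igRed ℓ x = igRho ℓ a / igRho ℓ b :=
  igRedFun_eq ℓ x hb h

theorem igRed_igIota (a : LaurentSeries ℤ) :
    igRed ℓ ⟨igIota a, igIota_mem_igO ℓ a⟩ = igRho ℓ a := by
  rw [igRed_eq ℓ _ (a := a) (b := 1) (by rw [map_one]; exact one_ne_zero)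
    (by rw [map_one, mul_one]), map_one, div_one]

theorem igO_le_igM : ∀ x ∈ igO ℓ, x ∈ igM := by
  rintro x ⟨a, b, hb, h⟩
  exact ⟨a, b, fun h0 => hb (by rw [h0, map_zero]), h⟩


theorem natCast_ne_zero_laurentQ : ((ℓ : ℕ) : LaurentSeries ℚ) ≠ 0 := by
  rw [← map_natCast (algebraMap ℚ (LaurentSeries ℚ)) ℓ]
  exact (_root_.map_ne_zero _).mpr (Nat.cast_ne_zero.mpr (Fact.out : ℓ.Prime).ne_zero)

theorem natCast_laurentZMod : ((ℓ : ℕ) : LaurentSeries (ZMod ℓ)) = 0 := by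
  rw [← map_natCast (algebraMap (ZMod ℓ) (LaurentSeries (ZMod ℓ))) ℓ, ZMod.natCast_self, map_zero]

theorem igM_total : ∀ x ∈ igM, x ∈ igO ℓ ∨ x⁻¹ ∈ igO ℓ := by
  rintro x ⟨a, b, hb, h⟩
  have hιb : igIota b ≠ 0 := fun h0 => hb (igIota_eq_zero_iff.mp h0)
  by_cases ha : a = 0
  · left
    rw [ha, map_zero] at h
    rcases mul_eq_zero.mp h with h1 | h1
    · rw [h1]; exact zero_mem _
    · exact absurd h1 hιb
  have hx : x ≠ 0 := by
    rintro rfl
    rw [zero_mul] at h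
    exact ha (igIota_eq_zero_iff.mp h.symm)
  obtain ⟨m, a', ha', hρa⟩ := exists_eq_pow_mul ℓ a ha
  obtain ⟨n, b', hb', hρb⟩ := exists_eq_pow_mul ℓ b hb
  have hℓ := natCast_ne_zero_laurentQ ℓ
  rw [ha', hb', map_mul, map_mul, map_pow, map_pow, map_natCast] at h
  rcases le_total n m with hnm | hnm
  · left
    obtain ⟨d, rfl⟩ := Nat.exists_eq_add_of_le hnm
    refine ⟨(ℓ : LaurentSeries ℤ) ^ d * a', b', hρb, ?_⟩
    rw [map_mul, map_pow, map_natCast]
    have h2 : ((ℓ : ℕ) : LaurentSeries ℚ) ^ n * (x * igIota b') =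
        ((ℓ : ℕ) : LaurentSeries ℚ) ^ n * ((ℓ : LaurentSeries ℚ) ^ d * igIota a') := by
      rw [pow_add] at h
      linear_combination h
    exact mul_left_cancel₀ (pow_ne_zero n hℓ) h2
  · right
    obtain ⟨d, rfl⟩ := Nat.exists_eq_add_of_le hnm
    refine ⟨(ℓ : LaurentSeries ℤ) ^ d * b', a', hρa, ?_⟩
    rw [map_mul, map_pow, map_natCast]
    have h2 : ((ℓ : ℕ) : LaurentSeries ℚ) ^ m * (x * ((ℓ : LaurentSeries ℚ) ^ d * igIota b')) =
        ((ℓ : ℕ) : LaurentSeries ℚ) ^ m * igIota a' := by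
      rw [pow_add] at h
      linear_combination h
    have h3 := mul_left_cancel₀ (pow_ne_zero m hℓ) h2
    rw [← h3, ← mul_assoc, inv_mul_cancel₀ hx, one_mul]

theorem igO_inv_mem (x : igO ℓ) (hx : igRed ℓ x ≠ 0) : (x : LaurentSeries ℚ)⁻¹ ∈ igO ℓ := by
  obtain ⟨a, b, hb, h⟩ := x.2
  rw [igRed_eq ℓ x hb h] at hx
  have hρa : igRho ℓ a ≠ 0 := fun h0 => hx (by rw [h0, zero_div])
  have hx0 : (x : LaurentSeries ℚ) ≠ 0 := by
    intro h0
    rw [h0, zero_mul] at h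
    exact hρa (by rw [igIota_eq_zero_iff.mp h.symm, map_zero])
  exact ⟨b, a, hρa, by rw [← h, ← mul_assoc, inv_mul_cancel₀ hx0, one_mul]⟩

theorem igRed_natCast : igRed ℓ (ℓ : igO ℓ) = 0 := by
  rw [map_natCast, natCast_laurentZMod]

/-- the kernel of the residue map is generated by `ℓ` -/
theorem igRed_eq_zero_iff (x : igO ℓ) : igRed ℓ x = 0 ↔ ∃ y : igO ℓ, x = (ℓ : igO ℓ) * y := by
  constructor
  · intro hx
    obtain ⟨a, b, hb, h⟩ := x.2
    rw [igRed_eq ℓ x hb h, div_eq_zero_iff] at hx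
    rcases hx with hx | hx
    · obtain ⟨a', ha'⟩ := exists_eq_mul_of_igRho_eq_zero ℓ hx
      have hℓ := natCast_ne_zero_laurentQ ℓ
      refine ⟨⟨(x : LaurentSeries ℚ) / (ℓ : LaurentSeries ℚ), a', b, hb, ?_⟩, Subtype.ext ?_⟩
      · rw [div_mul_eq_mul_div, h, ha', map_mul, map_natCast, mul_div_cancel_left₀ _ hℓ]
      · push_cast
        rw [mul_div_cancel₀ _ hℓ]
    · exact absurd hx hb
  · rintro ⟨y, rfl⟩
    rw [map_mul, igRed_natCast, zero_mul]

/-- the valuation data of the Gauss valuation on `Frac ℤ((q)) ⊆ ℚ((q))` -/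
abbrev igV : ValData (LaurentSeries ℚ) (LaurentSeries (ZMod ℓ)) where
  O := igO ℓ
  M := igM
  Red := igRed ℓ
  total := igM_total ℓ
  inv_mem := igO_inv_mem ℓ


/-! ### Constants -/

theorem igRho_natCast (d : ℕ) : igRho ℓ (d : LaurentSeries ℤ) =
    algebraMap (ZMod ℓ) (LaurentSeries (ZMod ℓ)) (d : ZMod ℓ) := by
  rw [map_natCast, map_natCast]

theorem igRho_intCast (d : ℤ) : igRho ℓ (d : LaurentSeries ℤ) =
    algebraMap (ZMod ℓ) (LaurentSeries (ZMod ℓ)) (d : ZMod ℓ) := by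
  rw [map_intCast, map_intCast]

theorem igIota_natCast (d : ℕ) : igIota (d : LaurentSeries ℤ) =
    algebraMap ℚ (LaurentSeries ℚ) (d : ℚ) := by
  rw [map_natCast, map_natCast]

theorem igIota_intCast (d : ℤ) : igIota (d : LaurentSeries ℤ) =
    algebraMap ℚ (LaurentSeries ℚ) (d : ℚ) := by
  rw [map_intCast, map_intCast]

theorem igRho_natCast_ne_zero {d : ℕ} (hd : ¬ ℓ ∣ d) : igRho ℓ (d : LaurentSeries ℤ) ≠ 0 := by
  rw [igRho_natCast]
  exact (_root_.map_ne_zero _).mpr fun h => hd ((ZMod.natCast_eq_zero_iff d ℓ).mp h)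

theorem igRho_intCast_ne_zero {d : ℤ} (hd : ¬ (ℓ : ℤ) ∣ d) : igRho ℓ (d : LaurentSeries ℤ) ≠ 0 := by
  rw [igRho_intCast]
  exact (_root_.map_ne_zero _).mpr fun h => hd ((ZMod.intCast_zmod_eq_zero_iff_dvd d ℓ).mp h)

theorem rat_mul_den (c : ℚ) : algebraMap ℚ (LaurentSeries ℚ) c * igIota (c.den : LaurentSeries ℤ) =
    igIota (c.num : LaurentSeries ℤ) := by
  rw [igIota_natCast, igIota_intCast, ← map_mul, Rat.mul_den_eq_num]

theorem natCast_laurentZ_ne_zero {d : ℕ} (hd : d ≠ 0) : (d : LaurentSeries ℤ) ≠ 0 := by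
  intro h
  have h1 := congrArg igIota h
  rw [igIota_natCast, map_zero] at h1
  exact hd (Nat.cast_eq_zero.mp ((_root_.map_eq_zero _).mp h1))

theorem algebraMap_rat_mem_igM (c : ℚ) : algebraMap ℚ (LaurentSeries ℚ) c ∈ igM :=
  ⟨(c.num : LaurentSeries ℤ), (c.den : LaurentSeries ℤ),
    natCast_laurentZ_ne_zero c.den_ne_zero, rat_mul_den c⟩

theorem not_dvd_den_of_mem {c : ℚ} (hc : c ∈ GaloisRep.ratLocalizedAt ℓ) : ¬ ℓ ∣ c.den := by
  have hc' : c.den.Coprime ℓ := hc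
  exact fun h => (Fact.out : ℓ.Prime).ne_one (Nat.Coprime.eq_one_of_dvd hc'.symm h)

theorem algebraMap_rat_mem_igO {c : ℚ} (hc : c ∈ GaloisRep.ratLocalizedAt ℓ) :
    algebraMap ℚ (LaurentSeries ℚ) c ∈ igO ℓ :=
  ⟨(c.num : LaurentSeries ℤ), (c.den : LaurentSeries ℤ),
    igRho_natCast_ne_zero ℓ (not_dvd_den_of_mem ℓ hc), rat_mul_den c⟩

theorem igRed_rat_of_mem {c : ℚ} (hc : c ∈ GaloisRep.ratLocalizedAt ℓ)
    (hcO : algebraMap ℚ (LaurentSeries ℚ) c ∈ igO ℓ) :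
    igRed ℓ ⟨_, hcO⟩ =
      algebraMap (ZMod ℓ) (LaurentSeries (ZMod ℓ)) ((c.num : ZMod ℓ) / (c.den : ZMod ℓ)) := by
  have h1 := igRed_eq ℓ ⟨_, hcO⟩ (igRho_natCast_ne_zero ℓ (not_dvd_den_of_mem ℓ hc))
    (rat_mul_den c)
  rw [h1, igRho_natCast, igRho_intCast, map_div₀]

end Fermat.Agent.H18
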