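import Mathlib
import Fermat.Prelude.Def_ModularCurve_IgusaScheme
import Fermat.Prelude.Def_ModularCurve_X0ModL
import Fermat.Agent.H18.IgusaGauss

set_option autoImplicit false
set_option linter.style.haveILetI false
set_option linter.unusedSectionVars false

noncomputable section

open ModularCurve

namespace Fermat.Agent.H18

variable (ℓ : ℕ) [Fact ℓ.Prime]

theorem mem_ratLocalizedAt_of_mem_igO {c : ℚ} (hc : algebraMap ℚ (LaurentSeries ℚ) c ∈ igO ℓ) :
    c ∈ GaloisRep.ratLocalizedAt ℓ := by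
  have hp : ℓ.Prime := Fact.out
  show c.den.Coprime ℓ
  rw [Nat.coprime_comm, hp.coprime_iff_not_dvd]
  intro hdvd
  have hnum : ¬ (ℓ : ℤ) ∣ c.num := by
    intro h
    have h1 : ℓ ∣ c.num.natAbs := Int.natCast_dvd.mp h
    have h2 := Nat.dvd_gcd h1 hdvd
    rw [Nat.Coprime.gcd_eq_one c.reduced] at h2
    exact hp.ne_one (Nat.dvd_one.mp h2)
  have hc0 : c ≠ 0 := by
    rintro rfl
    rw [Rat.den_zero] at hdvd
    exact hp.ne_one (Nat.dvd_one.mp hdvd)
  have hcL : algebraMap ℚ (LaurentSeries ℚ) c ≠ 0 := (_root_.map_ne_zero _).mpr hc0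
  have hinv : (algebraMap ℚ (LaurentSeries ℚ) c)⁻¹ * igIota (c.num : LaurentSeries ℤ) =
      igIota (c.den : LaurentSeries ℤ) := by
    rw [← rat_mul_den c, ← mul_assoc, inv_mul_cancel₀ hcL, one_mul]
  have hinvO : (algebraMap ℚ (LaurentSeries ℚ) c)⁻¹ ∈ igO ℓ :=
    ⟨_, _, igRho_intCast_ne_zero ℓ hnum, hinv⟩
  have hred : igRed ℓ ⟨_, hinvO⟩ = 0 := by
    have h1 := igRed_eq ℓ ⟨_, hinvO⟩ (igRho_intCast_ne_zero ℓ hnum) hinv
    rw [h1, igRho_natCast, (ZMod.natCast_eq_zero_iff _ _).mpr hdvd, map_zero, zero_div]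
  have hone : (⟨_, hc⟩ : igO ℓ) * ⟨_, hinvO⟩ = 1 := Subtype.ext (mul_inv_cancel₀ hcL)
  have := congrArg (igRed ℓ) hone
  rw [map_mul, hred, mul_zero, map_one] at this
  exact zero_ne_one this

theorem algebraMap_rat_mem_igO_iff {c : ℚ} :
    algebraMap ℚ (LaurentSeries ℚ) c ∈ igO ℓ ↔ c ∈ GaloisRep.ratLocalizedAt ℓ :=
  ⟨mem_ratLocalizedAt_of_mem_igO ℓ, algebraMap_rat_mem_igO ℓ⟩

theorem igV_hconst (c : (igV ℓ).kO ℚ) :
    ∃ γ : ZMod ℓ, (igV ℓ).Red ((igV ℓ).kOtoO ℚ c) =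
      algebraMap (ZMod ℓ) (LaurentSeries (ZMod ℓ)) γ :=
  ⟨_, igRed_rat_of_mem ℓ (mem_ratLocalizedAt_of_mem_igO ℓ c.2) c.2⟩

/-! ### The `j`-function -/

theorem jq_eq_igIota : jq = igIota (jqModC ℤ) :=
  (coeffMap_jqModC (Int.castRingHom ℚ)).symm

theorem qExpand_jq_eq_igIota (d : ℕ) [NeZero d] :
    qExpand ℚ d jq = igIota (qExpand ℤ d (jqModC ℤ)) := by
  rw [jq_eq_igIota]
  exact (coeffMap_qExpand (Int.castRingHom ℚ) d (jqModC ℤ)).symm

theorem igRho_qExpand_jq (d : ℕ) [NeZero d] :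
    igRho ℓ (qExpand ℤ d (jqModC ℤ)) = qExpand (ZMod ℓ) d (jqModC (ZMod ℓ)) := by
  show coeffMap _ _ = _
  rw [coeffMap_qExpand, coeffMap_jqModC]

theorem jq_mem_igO : jq ∈ igO ℓ := by
  rw [jq_eq_igIota]; exact igIota_mem_igO ℓ _

theorem igRed_jq : igRed ℓ ⟨jq, jq_mem_igO ℓ⟩ = jqModC (ZMod ℓ) := by
  have h : (⟨jq, jq_mem_igO ℓ⟩ : igO ℓ) = ⟨igIota (jqModC ℤ), igIota_mem_igO ℓ _⟩ :=
    Subtype.ext jq_eq_igIota
  rw [h, igRed_igIota]
  exact coeffMap_jqModC (Int.castRingHom (ZMod ℓ))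

theorem modularFunctionFieldFull_le_igM (N : ℕ) :
    ∀ x ∈ modularFunctionFieldFull N, x ∈ igM := by
  have h : (modularFunctionFieldFull N).toSubfield ≤ igM := by
    refine IntermediateField.adjoin_le_subfield (F := ℚ) (S := divisorExpansions N) ?_ ?_
    · rintro _ ⟨c, rfl⟩
      exact algebraMap_rat_mem_igM c
    · rintro _ ⟨d, hd, -, rfl⟩
      haveI := hd
      rw [qExpand_jq_eq_igIota]
      exact ⟨qExpand ℤ d (jqModC ℤ), 1, one_ne_zero, by rw [map_one, mul_one]⟩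
  exact fun x hx => h hx

/-- every element of the residual function field lifts to `O ∩ F` -/
theorem exists_lift_of_mem_fullC (N : ℕ) {y : LaurentSeries (ZMod ℓ)}
    (hy : y ∈ modularFunctionFieldFullC (ZMod ℓ) N) :
    ∃ x : igO ℓ, (x : LaurentSeries ℚ) ∈ modularFunctionFieldFull N ∧ igRed ℓ x = y := by
  unfold modularFunctionFieldFullC at hy
  induction hy using IntermediateField.adjoin_induction with
  | mem y hy =>
    obtain ⟨d, hd, hdN, rfl⟩ := hy
    haveI := hd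
    refine ⟨⟨igIota (qExpand ℤ d (jqModC ℤ)), igIota_mem_igO ℓ _⟩, ?_, ?_⟩
    · show igIota (qExpand ℤ d (jqModC ℤ)) ∈ modularFunctionFieldFull N
      rw [← qExpand_jq_eq_igIota]
      exact jqd_mem_full N hdN
    · rw [igRed_igIota, igRho_qExpand_jq]
  | algebraMap c =>
    obtain ⟨m, rfl⟩ := ZMod.intCast_surjective c
    refine ⟨(m : igO ℓ), ?_, ?_⟩
    · push_cast
      exact intCast_mem _ m
    · rw [map_intCast, map_intCast]
  | add y z _ _ hy hz =>
    obtain ⟨x, hxF, rfl⟩ := hy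
    obtain ⟨x', hxF', rfl⟩ := hz
    exact ⟨x + x', by push_cast; exact add_mem hxF hxF', map_add _ _ _⟩
  | mul y z _ _ hy hz =>
    obtain ⟨x, hxF, rfl⟩ := hy
    obtain ⟨x', hxF', rfl⟩ := hz
    exact ⟨x * x', by push_cast; exact mul_mem hxF hxF', map_mul _ _ _⟩
  | inv y _ hy =>
    obtain ⟨x, hxF, rfl⟩ := hy
    by_cases hx : igRed ℓ x = 0
    · exact ⟨0, by push_cast; exact zero_mem _, by rw [hx, inv_zero, map_zero]⟩
    · have hinv := igO_inv_mem ℓ x hx
      refine ⟨⟨_, hinv⟩, inv_mem hxF, ?_⟩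
      have hx0 : (x : LaurentSeries ℚ) ≠ 0 := by
        intro h0
        apply hx
        have : x = 0 := Subtype.ext h0
        rw [this, map_zero]
      have hone : x * ⟨_, hinv⟩ = 1 := Subtype.ext (mul_inv_cancel₀ hx0)
      have := congrArg (igRed ℓ) hone
      rw [map_mul, map_one] at this
      exact eq_inv_of_mul_eq_one_right this

/-! ### Transcendence -/

theorem transcendental_jqModC' (K : Type*) [Field K] : Transcendental K (jqModC K) :=
  P2MW.S_ModularCurve_coeff_jqModC_neg_one.ModularCurve.CharLRows.transcendental_jqModC K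

theorem transcendental_jq : Transcendental ℚ jq := transcendental_jqModC' ℚ

theorem transcendental_inv {K E : Type*} [Field K] [Field E] [Algebra K E] {x : E}
    (hx : Transcendental K x) : Transcendental K x⁻¹ := fun h => hx (by simpa using h.inv)

end Fermat.Agent.H18
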