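import Mathlib
import Fermat.Prelude.Def_ModularCurve_IgusaScheme
import Fermat.Prelude.Def_ModularCurve_X0ModL
import Fermat.Agent.H18.IgusaConcrete

set_option autoImplicit false
set_option linter.style.haveILetI false
set_option linter.unusedSectionVars false

noncomputable section

open ModularCurve ModularCurve.IgusaScheme

namespace Fermat.Agent.H18

/-- adjoin-form of `coeff_minpoly_mem_range_aeval` -/
theorem coeff_minpoly_mem_adjoin {k E : Type*} [Field k] [Field E] [Algebra k E]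
    (K₀ : IntermediateField k E) {t : E} (hK₀ : K₀ = IntermediateField.adjoin k {t})
    (ht : Transcendental k t) {y : E} (hy : IsIntegral (Algebra.adjoin k {t}) y) (i : ℕ) :
    ∃ P : Polynomial k, (((minpoly K₀ y).coeff i : K₀) : E) = Polynomial.aeval t P := by
  obtain ⟨q, hqm, hq⟩ := hy
  have h := coeff_minpoly_mem_range_aeval K₀ hK₀ ht
    (q.map (algebraMap (Algebra.adjoin k {t}) E)) (hqm.map _)
    (by rw [Polynomial.eval_map]; exact hq)
    (fun j => by
      rw [Polynomial.coeff_map, ← Algebra.adjoin_singleton_eq_range_aeval]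
      exact (q.coeff j).2) i
  obtain ⟨P, hP⟩ := h
  exact ⟨P, hP.symm⟩

variable (N : ℕ) [NeZero N] (ℓ : ℕ) [Fact ℓ.Prime]

theorem adjoin_jq_le_full : IntermediateField.adjoin ℚ {jq} ≤ modularFunctionFieldFull N :=
  (adjoin_jq_le N).trans (modularFunctionField_le_full N)

theorem adjoin_jqModC_le_fullC :
    IntermediateField.adjoin (ZMod ℓ) {jqModC (ZMod ℓ)} ≤ modularFunctionFieldFullC (ZMod ℓ) N := by
  rw [IntermediateField.adjoin_le_iff]
  rintro x hx
  rw [Set.mem_singleton_iff.mp hx]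
  exact jqModC_mem_full (ZMod ℓ) N

/-- the point `j` of the valuation ring -/
def igJ : (igV ℓ).O := ⟨jq, jq_mem_igO ℓ⟩

theorem igV_red_igJ : (igV ℓ).Red (igJ ℓ) = jqModC (ZMod ℓ) := igRed_jq ℓ

theorem igV_kM (c : ℚ) : algebraMap ℚ (LaurentSeries ℚ) c ∈ (igV ℓ).M := algebraMap_rat_mem_igM c

/-- reductions of elements of `ℚ(j) ∩ O` lie in `𝔽_ℓ(j)` -/
theorem igRed_mem_adjoin (x : igO ℓ)
    (hx : (x : LaurentSeries ℚ) ∈ IntermediateField.adjoin ℚ {jq}) :
    igRed ℓ x ∈ IntermediateField.adjoin (ZMod ℓ) {jqModC (ZMod ℓ)} := by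
  obtain ⟨res, hres⟩ := (igV ℓ).exists_res (igV_hconst ℓ)
  have htr : Transcendental (ZMod ℓ) ((igV ℓ).Red (igJ ℓ)) := by
    rw [igV_red_igJ]; exact transcendental_jqModC' (ZMod ℓ)
  have := (igV ℓ).red_mem_adjoin res hres (igJ ℓ) (igV_kM ℓ) htr x hx
  rwa [igV_red_igJ] at this

/-- **Core of the q-expansion principle**: under the degree inequality, the minimal polynomial
over `ℚ(j)` of an element of `F ∩ O` has coefficients in `O`. -/
theorem igusa_core
    (hdeg : IntermediateField.relrank (IntermediateField.adjoin ℚ {jq}) (modularFunctionFieldFull N)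
      ≤ IntermediateField.relrank (IntermediateField.adjoin (ZMod ℓ) {jqModC (ZMod ℓ)})
        (modularFunctionFieldFullC (ZMod ℓ) N))
    (hdeg_fin : IntermediateField.relrank (IntermediateField.adjoin ℚ {jq})
      (modularFunctionFieldFull N) < Cardinal.aleph0)
    {y : LaurentSeries ℚ} (hyF : y ∈ modularFunctionFieldFull N) (hyO : y ∈ igO ℓ) (i : ℕ) :
    (((minpoly (IntermediateField.adjoin ℚ {jq}) y).coeff i :
      IntermediateField.adjoin ℚ {jq}) : LaurentSeries ℚ) ∈ igO ℓ := by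
  classical
  have hKF := adjoin_jq_le_full N
  have hKFb := adjoin_jqModC_le_fullC N ℓ
  rw [IntermediateField.relrank_eq_rank_of_le hKF,
    IntermediateField.relrank_eq_rank_of_le hKFb] at hdeg
  rw [IntermediateField.relrank_eq_rank_of_le hKF] at hdeg_fin
  haveI hfinF : Module.Finite (IntermediateField.adjoin ℚ {jq})
      (IntermediateField.extendScalars hKF) := Module.rank_lt_aleph0_iff.mp hdeg_fin
  obtain ⟨n, hn⟩ : ∃ n, Module.finrank (IntermediateField.adjoin ℚ {jq})
      (IntermediateField.extendScalars hKF) = n := ⟨_, rfl⟩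
  have hnle : (n : Cardinal) ≤ Module.rank (IntermediateField.adjoin (ZMod ℓ) {jqModC (ZMod ℓ)})
      (IntermediateField.extendScalars hKFb) := by
    rw [← hn, Module.finrank_eq_rank]
    exact hdeg
  obtain ⟨yb, hyb⟩ := exists_linearIndependent_of_le_rank hnle
  have hlift : ∀ j, ∃ x : igO ℓ, (x : LaurentSeries ℚ) ∈ modularFunctionFieldFull N ∧
      igRed ℓ x = (yb j : LaurentSeries (ZMod ℓ)) := fun j =>
    exists_lift_of_mem_fullC ℓ N (y := (yb j : LaurentSeries (ZMod ℓ)))
      ((IntermediateField.mem_extendScalars hKFb).mp (yb j).2)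
  choose x hxF hxred using hlift
  have hK : ∀ c : IntermediateField.adjoin ℚ {jq},
      algebraMap (IntermediateField.adjoin ℚ {jq}) (LaurentSeries ℚ) c ∈ (igV ℓ).M := fun c =>
    modularFunctionFieldFull_le_igM N _ (hKF c.2)
  have hLI : ∀ c : Fin n → (igV ℓ).O,
      (∀ j, (c j : LaurentSeries ℚ) ∈
        (algebraMap (IntermediateField.adjoin ℚ {jq}) (LaurentSeries ℚ)).range) →
      ∑ j, (igV ℓ).Red (c j) * (igV ℓ).Red (x j) = 0 → ∀ j, (igV ℓ).Red (c j) = 0 := by
    intro c hc hsum j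
    have hcK : ∀ j, igRed ℓ (c j) ∈ IntermediateField.adjoin (ZMod ℓ) {jqModC (ZMod ℓ)} :=
      fun j => by
        obtain ⟨k, hk⟩ := hc j
        refine igRed_mem_adjoin ℓ (c j) ?_
        rw [← hk]
        exact k.2
    rw [Fintype.linearIndependent_iff] at hyb
    have h0 : ∑ j, (⟨igRed ℓ (c j), hcK j⟩ :
        IntermediateField.adjoin (ZMod ℓ) {jqModC (ZMod ℓ)}) • yb j = 0 := by
      have hsum' : ∑ j, igRed ℓ (c j) * igRed ℓ (x j) = 0 := hsum
      simp only [hxred] at hsum'
      have hcoe : ((∑ j, (⟨igRed ℓ (c j), hcK j⟩ :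
          IntermediateField.adjoin (ZMod ℓ) {jqModC (ZMod ℓ)}) • yb j :
          IntermediateField.extendScalars hKFb) : LaurentSeries (ZMod ℓ)) =
          ∑ j, igRed ℓ (c j) * (yb j : LaurentSeries (ZMod ℓ)) := by
        simp [Algebra.smul_def]
      exact Subtype.ext (hcoe.trans hsum')
    have := hyb _ h0 j
    exact congrArg Subtype.val this
  exact (igV ℓ).coeff_minpoly_mem hK x hLI (IntermediateField.extendScalars hKF).toSubalgebra hn hxF
    ((IntermediateField.mem_extendScalars hKF).mpr hyF) hyO i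



theorem coe_algebraMap_rat (r : ℚ) :
    ((algebraMap ℚ (modularFunctionFieldFull N) r : modularFunctionFieldFull N) : LaurentSeries ℚ)
      = algebraMap ℚ (LaurentSeries ℚ) r := by
  rw [eq_ratCast (algebraMap ℚ (modularFunctionFieldFull N)),
    eq_ratCast (algebraMap ℚ (LaurentSeries ℚ))]
  exact map_ratCast (algebraMap (modularFunctionFieldFull N) (LaurentSeries ℚ)) r

theorem coe_algebraMap_loc (r : GaloisRep.ratLocalizedAt ℓ) :
    ((algebraMap (GaloisRep.ratLocalizedAt ℓ) (modularFunctionFieldFull N) r :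
      modularFunctionFieldFull N) : LaurentSeries ℚ) = algebraMap ℚ (LaurentSeries ℚ) (r : ℚ) :=
  coe_algebraMap_rat N (r : ℚ)

theorem algebraMap_comp_rat :
    (algebraMap (modularFunctionFieldFull N) (LaurentSeries ℚ)).comp
      (algebraMap ℚ (modularFunctionFieldFull N)) = algebraMap ℚ (LaurentSeries ℚ) :=
  RingHom.ext fun r => coe_algebraMap_rat N r

theorem coe_aeval (tF : modularFunctionFieldFull N) (P : Polynomial ℚ) :
    ((Polynomial.aeval tF P : modularFunctionFieldFull N) : LaurentSeries ℚ) =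
      Polynomial.aeval (tF : LaurentSeries ℚ) P := by
  rw [Polynomial.aeval_def, Polynomial.aeval_def, ← algebraMap_comp_rat N]
  exact Polynomial.hom_eval₂ P (algebraMap ℚ (modularFunctionFieldFull N))
    (algebraMap (modularFunctionFieldFull N) (LaurentSeries ℚ)) tF

theorem rat_smul_eq_smul (tF : modularFunctionFieldFull N) (r : ℚ)
    (hr : r ∈ GaloisRep.ratLocalizedAt ℓ) :
    r • tF = (⟨r, hr⟩ : GaloisRep.ratLocalizedAt ℓ) • tF := by
  rw [Algebra.smul_def, Algebra.smul_def]
  rfl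

theorem aeval_mem_adjoin_of_coeff_mem (tF : modularFunctionFieldFull N) (P : Polynomial ℚ)
    (hP : ∀ k, P.coeff k ∈ GaloisRep.ratLocalizedAt ℓ) :
    Polynomial.aeval tF P ∈ Algebra.adjoin (GaloisRep.ratLocalizedAt ℓ) {tF} := by
  rw [Polynomial.aeval_eq_sum_range]
  refine Subalgebra.sum_mem _ fun k _ => ?_
  rw [rat_smul_eq_smul N ℓ _ _ (hP k)]
  have h1 : tF ∈ Algebra.adjoin (GaloisRep.ratLocalizedAt ℓ) {tF} :=
    Algebra.subset_adjoin (Set.mem_singleton _)
  have h2 : tF ^ k ∈ Algebra.adjoin (GaloisRep.ratLocalizedAt ℓ) {tF} := pow_mem h1 k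
  exact Subalgebra.smul_mem _ h2 _

theorem coe_mem_adjoin_rat (tF : modularFunctionFieldFull N)
    {a : modularFunctionFieldFull N}
    (ha : a ∈ Algebra.adjoin (GaloisRep.ratLocalizedAt ℓ) {tF}) :
    (a : LaurentSeries ℚ) ∈ Algebra.adjoin ℚ {(tF : LaurentSeries ℚ)} := by
  induction ha using Algebra.adjoin_induction with
  | mem x hx =>
    rw [Set.mem_singleton_iff.mp hx]
    exact Algebra.subset_adjoin (Set.mem_singleton _)
  | algebraMap r =>
    rw [coe_algebraMap_loc]
    exact Subalgebra.algebraMap_mem (Algebra.adjoin ℚ {(tF : LaurentSeries ℚ)}) (r : ℚ)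
  | add x y _ _ hx hy => exact add_mem hx hy
  | mul x y _ _ hx hy => exact mul_mem hx hy

/-- integrality over `ℚ[t]` (inside `ℚ((q))`) of an element integral over `ℤ_(ℓ)[t]` -/
theorem isIntegral_rat_of_mem_chartAlg (tF : modularFunctionFieldFull N)
    {f : modularFunctionFieldFull N} (hf : f ∈ chartAlg N ℓ {tF}) :
    IsIntegral (Algebra.adjoin ℚ {(tF : LaurentSeries ℚ)}) (f : LaurentSeries ℚ) := by
  obtain ⟨p, hpm, hp⟩ := (mem_chartAlg_iff N ℓ).mp hf
  let φ : Algebra.adjoin (GaloisRep.ratLocalizedAt ℓ) {tF} →+*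
      Algebra.adjoin ℚ {(tF : LaurentSeries ℚ)} :=
    ((algebraMap (modularFunctionFieldFull N) (LaurentSeries ℚ)).comp
      (algebraMap (Algebra.adjoin (GaloisRep.ratLocalizedAt ℓ) {tF})
        (modularFunctionFieldFull N))).codRestrict
      (Algebra.adjoin ℚ {(tF : LaurentSeries ℚ)}) fun a => coe_mem_adjoin_rat N ℓ tF a.2
  refine ⟨p.map φ, hpm.map _, ?_⟩
  rw [Polynomial.eval₂_map]
  have h := congrArg (algebraMap (modularFunctionFieldFull N) (LaurentSeries ℚ)) hp
  rw [Polynomial.hom_eval₂, map_zero] at h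
  exact h

end Fermat.Agent.H18
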