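import Mathlib
import Fermat.Prelude.Def_ModularCurve_IgusaScheme
import Fermat.Prelude.Def_ModularCurve_X0ModL
import Fermat.Agent.H18.IgusaCore

set_option autoImplicit false
set_option linter.style.haveILetI false
set_option linter.unusedSectionVars false

noncomputable section

open ModularCurve ModularCurve.IgusaScheme

namespace Fermat.Agent.H18

variable (N : ℕ) [NeZero N] (ℓ : ℕ) [Fact ℓ.Prime]

/-- the inclusion `ℚ(j) → F` as a ring homomorphism -/
def igIncl : IntermediateField.adjoin ℚ {jq} →+* modularFunctionFieldFull N :=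
  Subring.inclusion (S := (IntermediateField.adjoin ℚ {jq}).toSubring)
    (T := (modularFunctionFieldFull N).toSubring) (adjoin_jq_le_full N)

theorem coe_igIncl (c : IntermediateField.adjoin ℚ {jq}) :
    ((igIncl N c : modularFunctionFieldFull N) : LaurentSeries ℚ) = (c : LaurentSeries ℚ) := rfl

theorem algebraMap_full_apply (x : modularFunctionFieldFull N) :
    algebraMap (modularFunctionFieldFull N) (LaurentSeries ℚ) x = (x : LaurentSeries ℚ) := rfl

theorem algebraMap_adjoin_apply (x : IntermediateField.adjoin ℚ {jq}) :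
    algebraMap (IntermediateField.adjoin ℚ {jq}) (LaurentSeries ℚ) x = (x : LaurentSeries ℚ) := rfl

theorem algebraMap_comp_igIncl :
    (algebraMap (modularFunctionFieldFull N) (LaurentSeries ℚ)).comp (igIncl N) =
      algebraMap (IntermediateField.adjoin ℚ {jq}) (LaurentSeries ℚ) :=
  RingHom.ext fun c => by
    rw [RingHom.comp_apply, algebraMap_full_apply, algebraMap_adjoin_apply, coe_igIncl]

/-- Key step: division by `ℓ` inside a one-generator chart. -/
theorem mem_chartAlg_of_natCast_mul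
    (hdeg : IntermediateField.relrank (IntermediateField.adjoin ℚ {jq}) (modularFunctionFieldFull N)
      ≤ IntermediateField.relrank (IntermediateField.adjoin (ZMod ℓ) {jqModC (ZMod ℓ)})
        (modularFunctionFieldFullC (ZMod ℓ) N))
    (hdeg_fin : IntermediateField.relrank (IntermediateField.adjoin ℚ {jq})
      (modularFunctionFieldFull N) < Cardinal.aleph0)
    (tF : modularFunctionFieldFull N) (htO : (tF : LaurentSeries ℚ) ∈ igO ℓ)
    (hK₀ : IntermediateField.adjoin ℚ {jq} =
      IntermediateField.adjoin ℚ {(tF : LaurentSeries ℚ)})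
    (htrQ : Transcendental ℚ (tF : LaurentSeries ℚ))
    (htrF : Transcendental (ZMod ℓ) (igRed ℓ ⟨(tF : LaurentSeries ℚ), htO⟩))
    {f g : modularFunctionFieldFull N} (hf : f ∈ chartAlg N ℓ {tF})
    (hfg : f = (ℓ : modularFunctionFieldFull N) * g) (hgO : (g : LaurentSeries ℚ) ∈ igO ℓ) :
    g ∈ chartAlg N ℓ {tF} := by
  classical
  have hKF := adjoin_jq_le_full N
  have hℓ := natCast_ne_zero_laurentQ ℓ
  -- integrality over `ℚ[t]`
  have hfint := isIntegral_rat_of_mem_chartAlg N ℓ tF hf
  have hgL : (g : LaurentSeries ℚ) =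
      algebraMap ℚ (LaurentSeries ℚ) ((ℓ : ℚ)⁻¹) * (f : LaurentSeries ℚ) := by
    rw [hfg, map_inv₀, map_natCast]
    push_cast
    rw [← mul_assoc, inv_mul_cancel₀ hℓ, one_mul]
  have hcint : IsIntegral (Algebra.adjoin ℚ {(tF : LaurentSeries ℚ)})
      (algebraMap ℚ (LaurentSeries ℚ) ((ℓ : ℚ)⁻¹)) :=
    isIntegral_algebraMap (R := Algebra.adjoin ℚ {(tF : LaurentSeries ℚ)})
      (x := ⟨_, Subalgebra.algebraMap_mem _ ((ℓ : ℚ)⁻¹)⟩)
  have hgint : IsIntegral (Algebra.adjoin ℚ {(tF : LaurentSeries ℚ)}) (g : LaurentSeries ℚ) := by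
    rw [hgL]
    exact hcint.mul hfint
  -- integrality over `K₀`
  have hgK : IsIntegral (IntermediateField.adjoin ℚ {jq}) (g : LaurentSeries ℚ) := by
    obtain ⟨q, hqm, hq⟩ := hgint
    refine isIntegral_of_monic_coeff_mem (q.map (algebraMap _ (LaurentSeries ℚ))) (hqm.map _)
      (by rw [Polynomial.eval_map]; exact hq) fun i => ?_
    rw [Polynomial.coeff_map]
    have h1 : ((q.coeff i : Algebra.adjoin ℚ {(tF : LaurentSeries ℚ)}) : LaurentSeries ℚ) ∈
        IntermediateField.adjoin ℚ {jq} := by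
      rw [hK₀]
      exact IntermediateField.algebra_adjoin_le_adjoin ℚ _ (q.coeff i).2
    exact ⟨⟨_, h1⟩, rfl⟩
  obtain ⟨res, hres⟩ := (igV ℓ).exists_res (igV_hconst ℓ)
  -- the coefficients of the minimal polynomial
  have hcoeff : ∀ i, ∃ P : Polynomial ℚ, (∀ k, P.coeff k ∈ GaloisRep.ratLocalizedAt ℓ) ∧
      (((minpoly (IntermediateField.adjoin ℚ {jq}) (g : LaurentSeries ℚ)).coeff i :
        IntermediateField.adjoin ℚ {jq}) : LaurentSeries ℚ) =
        Polynomial.aeval (tF : LaurentSeries ℚ) P := by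
    intro i
    obtain ⟨P, hP⟩ := coeff_minpoly_mem_adjoin (IntermediateField.adjoin ℚ {jq}) hK₀ htrQ hgint i
    have hcO := igusa_core N ℓ hdeg hdeg_fin g.2 hgO i
    have hPc := (igV ℓ).coeff_mem_of_aeval_mem res hres ⟨(tF : LaurentSeries ℚ), htO⟩
      (igV_kM ℓ) htrF P (by rw [← hP]; exact hcO)
    exact ⟨P, fun k => mem_ratLocalizedAt_of_mem_igO ℓ (hPc k), hP⟩
  -- the polynomial over `F`
  have hμmonic : ((minpoly (IntermediateField.adjoin ℚ {jq}) (g : LaurentSeries ℚ)).map
      (igIncl N)).Monic := (minpoly.monic hgK).map _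
  have hμeval : ((minpoly (IntermediateField.adjoin ℚ {jq}) (g : LaurentSeries ℚ)).map
      (igIncl N)).eval g = 0 := by
    apply (algebraMap (modularFunctionFieldFull N) (LaurentSeries ℚ)).injective
    rw [Polynomial.eval_map, Polynomial.hom_eval₂, map_zero, algebraMap_comp_igIncl]
    exact minpoly.aeval (IntermediateField.adjoin ℚ {jq}) (g : LaurentSeries ℚ)
  refine (mem_chartAlg_iff N ℓ).mpr (isIntegral_of_monic_coeff_mem _ hμmonic hμeval fun i => ?_)
  obtain ⟨P, hPc, hP⟩ := hcoeff i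
  have hmem := aeval_mem_adjoin_of_coeff_mem N ℓ tF P hPc
  refine ⟨⟨Polynomial.aeval tF P, hmem⟩, ?_⟩
  apply Subtype.ext
  rw [Polynomial.coeff_map]
  show ((Polynomial.aeval tF P : modularFunctionFieldFull N) : LaurentSeries ℚ) = _
  rw [coe_aeval, ← hP]
  rfl

end Fermat.Agent.H18
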