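import Mathlib
import Fermat.Prelude.Def_ModularCurve_IgusaScheme
import Fermat.Prelude.Def_ModularCurve_X0ModL
import Fermat.Agent.H18.IgusaStep

set_option autoImplicit false
set_option linter.style.haveILetI false
set_option linter.unusedSectionVars false

noncomputable section

open ModularCurve ModularCurve.IgusaScheme

namespace Fermat.Agent.H18

variable (N : ℕ) [NeZero N] (ℓ : ℕ) [Fact ℓ.Prime]

/-! ### The two generators -/

theorem igRed_jq_ne_zero : igRed ℓ ⟨jq, jq_mem_igO ℓ⟩ ≠ 0 := by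
  rw [igRed_jq]
  exact jqModC_ne_zero_of_nontrivial (ZMod ℓ)

theorem jq_inv_mem_igO : jq⁻¹ ∈ igO ℓ := igO_inv_mem ℓ ⟨jq, jq_mem_igO ℓ⟩ (igRed_jq_ne_zero ℓ)

theorem igRed_jq_inv : igRed ℓ ⟨jq⁻¹, jq_inv_mem_igO ℓ⟩ = (jqModC (ZMod ℓ))⁻¹ := by
  have hone : (⟨jq, jq_mem_igO ℓ⟩ : igO ℓ) * ⟨jq⁻¹, jq_inv_mem_igO ℓ⟩ = 1 :=
    Subtype.ext (mul_inv_cancel₀ jq_ne_zero)
  have := congrArg (igRed ℓ) hone
  rw [map_mul, map_one, igRed_jq] at this
  exact eq_inv_of_mul_eq_one_right this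

theorem adjoin_jq_eq_adjoin_inv :
    IntermediateField.adjoin ℚ {jq} = IntermediateField.adjoin ℚ {jq⁻¹} := by
  apply le_antisymm
  · rw [IntermediateField.adjoin_simple_le_iff]
    have := inv_mem (IntermediateField.mem_adjoin_simple_self ℚ (jq⁻¹))
    rwa [inv_inv] at this
  · rw [IntermediateField.adjoin_simple_le_iff]
    exact inv_mem (IntermediateField.mem_adjoin_simple_self ℚ jq)

theorem coe_jFull_inv : (((jFull N)⁻¹ : modularFunctionFieldFull N) : LaurentSeries ℚ) = jq⁻¹ := rfl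

/-! ### The charts lie in the valuation ring -/

theorem coe_mem_igO_of_mem_adjoin {S : Set (modularFunctionFieldFull N)}
    (hS : ∀ s ∈ S, (s : LaurentSeries ℚ) ∈ igO ℓ) {a : modularFunctionFieldFull N}
    (ha : a ∈ Algebra.adjoin (GaloisRep.ratLocalizedAt ℓ) S) : (a : LaurentSeries ℚ) ∈ igO ℓ := by
  induction ha using Algebra.adjoin_induction with
  | mem x hx => exact hS x hx
  | algebraMap r =>
    rw [coe_algebraMap_loc]
    exact algebraMap_rat_mem_igO ℓ r.2
  | add x y _ _ hx hy => exact add_mem hx hy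
  | mul x y _ _ hx hy => exact mul_mem hx hy

theorem coe_mem_igO_of_mem_chartAlg {S : Set (modularFunctionFieldFull N)}
    (hS : ∀ s ∈ S, (s : LaurentSeries ℚ) ∈ igO ℓ) {f : modularFunctionFieldFull N}
    (hf : f ∈ chartAlg N ℓ S) : (f : LaurentSeries ℚ) ∈ igO ℓ := by
  obtain ⟨p, hpm, hp⟩ := (mem_chartAlg_iff N ℓ).mp hf
  refine (igV ℓ).mem_of_monic (modularFunctionFieldFull_le_igM N _ f.2)
    (p.map ((algebraMap (modularFunctionFieldFull N) (LaurentSeries ℚ)).comp
      (algebraMap (Algebra.adjoin (GaloisRep.ratLocalizedAt ℓ) S)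
        (modularFunctionFieldFull N)))) (hpm.map _) ?_ ?_
  · rw [Polynomial.eval_map]
    have h := congrArg (algebraMap (modularFunctionFieldFull N) (LaurentSeries ℚ)) hp
    rw [Polynomial.hom_eval₂, map_zero] at h
    exact h
  · intro i
    rw [Polynomial.coeff_map]
    exact coe_mem_igO_of_mem_adjoin N ℓ hS (p.coeff i).2

theorem hS_of_cases {S : Set (modularFunctionFieldFull N)}
    (hS : S = {jFull N} ∨ S = {(jFull N)⁻¹} ∨ S = {jFull N, (jFull N)⁻¹}) :
    ∀ s ∈ S, (s : LaurentSeries ℚ) ∈ igO ℓ := by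
  have h1 : ((jFull N : modularFunctionFieldFull N) : LaurentSeries ℚ) ∈ igO ℓ := jq_mem_igO ℓ
  have h2 : (((jFull N)⁻¹ : modularFunctionFieldFull N) : LaurentSeries ℚ) ∈ igO ℓ :=
    jq_inv_mem_igO ℓ
  rcases hS with rfl | rfl | rfl
  · intro s hs
    rw [Set.mem_singleton_iff.mp hs]; exact h1
  · intro s hs
    rw [Set.mem_singleton_iff.mp hs]; exact h2
  · intro s hs
    rcases hs with rfl | hs
    · exact h1
    · rw [Set.mem_singleton_iff.mp hs]; exact h2


/-! ### Division by `ℓ` in the three charts -/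

section Division

variable
    (hdeg : IntermediateField.relrank (IntermediateField.adjoin ℚ {jq}) (modularFunctionFieldFull N)
      ≤ IntermediateField.relrank (IntermediateField.adjoin (ZMod ℓ) {jqModC (ZMod ℓ)})
        (modularFunctionFieldFullC (ZMod ℓ) N))
    (hdeg_fin : IntermediateField.relrank (IntermediateField.adjoin ℚ {jq})
      (modularFunctionFieldFull N) < Cardinal.aleph0)

include hdeg hdeg_fin

theorem div_mem_chartAlgFin {f g : modularFunctionFieldFull N} (hf : f ∈ chartAlg N ℓ {jFull N})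
    (hfg : f = (ℓ : modularFunctionFieldFull N) * g) (hgO : (g : LaurentSeries ℚ) ∈ igO ℓ) :
    g ∈ chartAlg N ℓ {jFull N} := by
  refine mem_chartAlg_of_natCast_mul N ℓ hdeg hdeg_fin (jFull N) (jq_mem_igO ℓ) rfl
    transcendental_jq ?_ hf hfg hgO
  have h : igRed ℓ ⟨((jFull N : modularFunctionFieldFull N) : LaurentSeries ℚ), jq_mem_igO ℓ⟩ =
      jqModC (ZMod ℓ) := igRed_jq ℓ
  rw [h]
  exact transcendental_jqModC' (ZMod ℓ)

theorem div_mem_chartAlgInf {f g : modularFunctionFieldFull N}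
    (hf : f ∈ chartAlg N ℓ {(jFull N)⁻¹})
    (hfg : f = (ℓ : modularFunctionFieldFull N) * g) (hgO : (g : LaurentSeries ℚ) ∈ igO ℓ) :
    g ∈ chartAlg N ℓ {(jFull N)⁻¹} := by
  refine mem_chartAlg_of_natCast_mul N ℓ hdeg hdeg_fin (jFull N)⁻¹ (jq_inv_mem_igO ℓ)
    adjoin_jq_eq_adjoin_inv (transcendental_inv transcendental_jq) ?_ hf hfg hgO
  have h : igRed ℓ ⟨(((jFull N)⁻¹ : modularFunctionFieldFull N) : LaurentSeries ℚ),
      jq_inv_mem_igO ℓ⟩ = (jqModC (ZMod ℓ))⁻¹ := igRed_jq_inv ℓ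
  rw [h]
  exact transcendental_inv (transcendental_jqModC' (ZMod ℓ))

theorem div_mem_chartAlgMid {f g : modularFunctionFieldFull N}
    (hf : f ∈ chartAlg N ℓ {jFull N, (jFull N)⁻¹})
    (hfg : f = (ℓ : modularFunctionFieldFull N) * g) (hgO : (g : LaurentSeries ℚ) ∈ igO ℓ) :
    g ∈ chartAlg N ℓ {jFull N, (jFull N)⁻¹} := by
  have hf' : f ∈ chartAlg N ℓ (insert (jFull N)⁻¹ {jFull N}) := by
    rw [show insert (jFull N)⁻¹ ({jFull N} : Set (modularFunctionFieldFull N)) =
      {jFull N, (jFull N)⁻¹} from Set.pair_comm _ _]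
    exact hf
  obtain ⟨n, hn⟩ := exists_pow_mul_mem_chartAlg (Set.mem_singleton _) (jFull_ne_zero N) hf'
  have hfin : (jFull N) ^ n * g ∈ chartAlg N ℓ {jFull N} := by
    refine div_mem_chartAlgFin N ℓ hdeg hdeg_fin hn (by rw [hfg]; ring) ?_
    push_cast
    exact mul_mem (pow_mem (jq_mem_igO ℓ) n) hgO
  have hmid : (jFull N) ^ n * g ∈ chartAlg N ℓ {jFull N, (jFull N)⁻¹} :=
    chartAlg_mono N ℓ (sFin_subset N) hfin
  have hinv : (jFull N)⁻¹ ∈ chartAlg N ℓ {jFull N, (jFull N)⁻¹} :=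
    subset_chartAlg N ℓ _ (Set.mem_insert_of_mem _ rfl)
  have hg : g = ((jFull N)⁻¹) ^ n * ((jFull N) ^ n * g) := by
    rw [← mul_assoc, ← mul_pow, inv_mul_cancel₀ (jFull_ne_zero N), one_pow, one_mul]
  rw [hg]
  exact mul_mem (pow_mem hinv n) hmid

theorem div_mem_chartAlg {S : Set (modularFunctionFieldFull N)}
    (hS : S = {jFull N} ∨ S = {(jFull N)⁻¹} ∨ S = {jFull N, (jFull N)⁻¹})
    {f g : modularFunctionFieldFull N} (hf : f ∈ chartAlg N ℓ S)
    (hfg : f = (ℓ : modularFunctionFieldFull N) * g) (hgO : (g : LaurentSeries ℚ) ∈ igO ℓ) :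
    g ∈ chartAlg N ℓ S := by
  rcases hS with rfl | rfl | rfl
  · exact div_mem_chartAlgFin N ℓ hdeg hdeg_fin hf hfg hgO
  · exact div_mem_chartAlgInf N ℓ hdeg hdeg_fin hf hfg hgO
  · exact div_mem_chartAlgMid N ℓ hdeg hdeg_fin hf hfg hgO

end Division

/-! ### The reduction map on a chart -/

/-- the inclusion of a chart into the valuation ring -/
def chartToO {S : Set (modularFunctionFieldFull N)}
    (hS : ∀ s ∈ S, (s : LaurentSeries ℚ) ∈ igO ℓ) : chartAlg N ℓ S →+* igO ℓ :=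
  ((algebraMap (modularFunctionFieldFull N) (LaurentSeries ℚ)).comp
    (algebraMap (chartAlg N ℓ S) (modularFunctionFieldFull N))).codRestrict (igO ℓ)
    fun f => coe_mem_igO_of_mem_chartAlg N ℓ hS f.2

theorem coe_chartToO {S : Set (modularFunctionFieldFull N)}
    (hS : ∀ s ∈ S, (s : LaurentSeries ℚ) ∈ igO ℓ) (f : chartAlg N ℓ S) :
    ((chartToO N ℓ hS f : igO ℓ) : LaurentSeries ℚ) =
      ((f : modularFunctionFieldFull N) : LaurentSeries ℚ) := rfl

/-- **IG-C**: the q-expansion principle from the degree inequality. -/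
theorem igusa_exists_red (N : ℕ) [NeZero N] (ℓ : ℕ) [Fact ℓ.Prime]
    (hdeg : IntermediateField.relrank (IntermediateField.adjoin ℚ {jq}) (modularFunctionFieldFull N)
      ≤ IntermediateField.relrank (IntermediateField.adjoin (ZMod ℓ) {jqModC (ZMod ℓ)}) (modularFunctionFieldFullC (ZMod ℓ) N))
    (hdeg_fin : IntermediateField.relrank (IntermediateField.adjoin ℚ {jq}) (modularFunctionFieldFull N) < Cardinal.aleph0)
    (S : Set ↥(modularFunctionFieldFull N))
    (hS : S = {jFull N} ∨ S = {(jFull N)⁻¹} ∨ S = {jFull N, (jFull N)⁻¹}) :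
    ∃ red : ↥(chartAlg N ℓ S) →+* LaurentSeries (ZMod ℓ), RingHom.ker red = Ideal.span {(ℓ : ↥(chartAlg N ℓ S))} := by
  have hSO := hS_of_cases N ℓ hS
  refine ⟨(igRed ℓ).comp (chartToO N ℓ hSO), ?_⟩
  have hℓ := natCast_ne_zero_laurentQ ℓ
  ext f
  rw [RingHom.mem_ker, RingHom.comp_apply, Ideal.mem_span_singleton']
  constructor
  · intro hf
    obtain ⟨y, hy⟩ := (igRed_eq_zero_iff ℓ _).mp hf
    have hyL : ((f : modularFunctionFieldFull N) : LaurentSeries ℚ) =
        (ℓ : LaurentSeries ℚ) * (y : LaurentSeries ℚ) := by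
      have := congrArg (Subtype.val : igO ℓ → LaurentSeries ℚ) hy
      rw [coe_chartToO] at this
      rw [this]
      push_cast
      rfl
    have hℓF : ((ℓ : ℕ) : modularFunctionFieldFull N) ≠ 0 := by
      intro h0
      apply hℓ
      have := congrArg (Subtype.val : modularFunctionFieldFull N → LaurentSeries ℚ) h0
      simpa using this
    set g : modularFunctionFieldFull N := (ℓ : modularFunctionFieldFull N)⁻¹ * f with hg
    have hfg : (f : modularFunctionFieldFull N) = (ℓ : modularFunctionFieldFull N) * g := by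
      rw [hg, ← mul_assoc, mul_inv_cancel₀ hℓF, one_mul]
    have hgy : (g : LaurentSeries ℚ) = (y : LaurentSeries ℚ) := by
      have h1 : (ℓ : LaurentSeries ℚ) * (g : LaurentSeries ℚ) =
          (ℓ : LaurentSeries ℚ) * (y : LaurentSeries ℚ) := by
        rw [← hyL, hfg]
        push_cast
        rfl
      exact mul_left_cancel₀ hℓ h1
    have hgO : (g : LaurentSeries ℚ) ∈ igO ℓ := by rw [hgy]; exact y.2
    have hgmem := div_mem_chartAlg N ℓ hdeg hdeg_fin hS f.2 hfg hgO
    refine ⟨⟨g, hgmem⟩, Subtype.ext ?_⟩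
    push_cast
    rw [hfg]
    exact mul_comm _ _
  · rintro ⟨a, rfl⟩
    rw [map_mul, map_mul, map_natCast, map_natCast, natCast_laurentZMod, mul_zero]

end Fermat.Agent.H18
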