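import Mathlib
import Fermat.Agent.H18.RedSurj
import Fermat.Agent.H57.TorsionReduction
import Fermat.Agent.H87.ESD.CoreInterfaces

/-!
# CORE-cd glue: the leading-term statement

The Gauss ring `rvRing A π N` with its reduction `rvRed A π N` is, under `RvHyp A π N r`, a
`Fermat.Agent.H57.ReductionSetup`; hence `Fermat.Agent.H57.ReductionSetup.principal_of_torsion`
gives `Fermat.Agent.H87.ESD.LeadingTermStatement`.
-/

set_option autoImplicit false
set_option linter.unusedSectionVars false
set_option synthInstance.maxHeartbeats 400000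
set_option maxHeartbeats 1600000

noncomputable section

open ModularCurve AlgebraicCurve

namespace Fermat.Agent.H18

variable {L : Type*} [Field L] [Algebra ℚ L] {A : ValuationSubring L}
  {k : Type*} [Field k] {π : A →+* k} {N : ℕ}
  {r : Place L ↥(rvFL L N) → Place k ↥(rvFk k N)}

/-- the Gauss ring as a valuation subring -/
def RvHyp.valSubring (H : RvHyp A π N r) : ValuationSubring ↥(rvFL L N) :=
  { rvRing A π N with mem_or_inv_mem' := H.mem_or_inv_mem }

theorem RvHyp.mem_valSubring (H : RvHyp A π N r) {f : ↥(rvFL L N)} :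
    f ∈ H.valSubring ↔ f ∈ rvRing A π N := Iff.rfl

/-- the reduction on the valuation subring -/
def RvHyp.valRed (H : RvHyp A π N r) : H.valSubring →+* ↥(rvFk k N) :=
  (rvRed A π N).comp (Subring.inclusion (S := H.valSubring.toSubring) (T := rvRing A π N)
    (fun _ hx => hx))

theorem RvHyp.valRed_apply (H : RvHyp A π N r) (x : H.valSubring) :
    H.valRed x = rvRed A π N ⟨(x : ↥(rvFL L N)), x.2⟩ := rfl

theorem rv_isUnit_of_red_ne_zero (H : RvHyp A π N r) (x : H.valSubring)
    (hx : H.valRed x ≠ 0) : IsUnit x := by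
  have hinv : ((x : ↥(rvFL L N)))⁻¹ ∈ H.valSubring :=
    inv_mem_rvRing_of_red_ne_zero (f := ⟨(x : ↥(rvFL L N)), x.2⟩) hx
  have hx0 : (x : ↥(rvFL L N)) ≠ 0 := by
    intro h0
    apply hx
    have : x = 0 := Subtype.ext h0
    rw [this, map_zero]
  refine IsUnit.of_mul_eq_one (⟨_, hinv⟩ : H.valSubring) ?_
  apply Subtype.ext
  show (x : ↥(rvFL L N)) * ((x : ↥(rvFL L N)))⁻¹ = 1
  exact mul_inv_cancel₀ hx0

theorem rv_red_const (H : RvHyp A π N r) (a : L)
    (ha : algebraMap L ↥(rvFL L N) a ∈ rvRing A π N) :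
    ∃ b : k, rvRed A π N ⟨algebraMap L ↥(rvFL L N) a, ha⟩ = algebraMap k ↥(rvFk k N) b := by
  have key : ∀ (c : L) (hc : c ∈ A) (hc' : algebraMap L ↥(rvFL L N) c ∈ rvRing A π N),
      rvRed A π N ⟨algebraMap L ↥(rvFL L N) c, hc'⟩ = algebraMap k ↥(rvFk k N) (π ⟨c, hc⟩) :=
    fun c hc hc' => rvRed_algebraMap (A := A) (π := π) (N := N) ⟨c, hc⟩
  rcases eq_or_ne a 0 with rfl | ha0
  · exact ⟨π ⟨0, A.zero_mem⟩, key 0 A.zero_mem ha⟩
  rcases A.mem_or_inv_mem a with h | h
  · exact ⟨π ⟨a, h⟩, key a h ha⟩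
  · by_cases h0 : π ⟨a⁻¹, h⟩ = 0
    · exfalso
      have hinv : algebraMap L ↥(rvFL L N) a⁻¹ ∈ rvRing A π N :=
        rv_algebraMap_mem_rvRing (A := A) (π := π) (N := N) ⟨a⁻¹, h⟩
      have h1 : rvRed A π N ⟨algebraMap L ↥(rvFL L N) a⁻¹, hinv⟩ = 0 := by
        rw [key a⁻¹ h hinv, h0, map_zero]
      have hmul : (⟨algebraMap L ↥(rvFL L N) a, ha⟩ : rvRing A π N) *
          ⟨algebraMap L ↥(rvFL L N) a⁻¹, hinv⟩ = 1 := by
        apply Subtype.ext
        show algebraMap L ↥(rvFL L N) a * algebraMap L ↥(rvFL L N) a⁻¹ = 1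
        rw [← map_mul, mul_inv_cancel₀ ha0, map_one]
      have h2 := congrArg (rvRed A π N) hmul
      rw [map_mul, h1, mul_zero, map_one] at h2
      exact zero_ne_one h2
    · have hu : IsUnit (⟨a⁻¹, h⟩ : A) := by
        by_contra hn
        exact h0 ((H.hker _).mpr hn)
      obtain ⟨v, hv⟩ := hu.exists_right_inv
      have h1 : a⁻¹ * (v : L) = 1 := congrArg Subtype.val hv
      have hva : (v : L) = a := by
        have := congrArg (fun x => a * x) h1
        simp only [← mul_assoc, mul_inv_cancel₀ ha0, one_mul, mul_one] at this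
        exact this
      have ha' : a ∈ A := by
        rw [← hva]
        exact v.2
      exact ⟨π ⟨a, ha'⟩, key a ha' ha⟩

/-- The Gauss ring is a reduction setup in the sense of `Fermat.Agent.H57`. -/
def RvHyp.setup (H : RvHyp A π N r) :
    Fermat.Agent.H57.ReductionSetup L k ↥(rvFL L N) ↥(rvFk k N) where
  O := H.valSubring
  red := H.valRed
  red_eq_zero := by
    intro x
    constructor
    · intro h0 hu
      have := hu.map H.valRed
      rw [h0] at this
      exact not_isUnit_zero this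
    · intro hu
      by_contra h0
      exact hu (rv_isUnit_of_red_ne_zero H x h0)
  exists_scale := by
    intro y hy
    obtain ⟨c, u, hc0, hu, hyu⟩ := H.exists_normalize y hy
    have hU : IsUnit (⟨(u : ↥(rvFL L N)), u.2⟩ : H.valSubring) :=
      rv_isUnit_of_red_ne_zero H ⟨(u : ↥(rvFL L N)), u.2⟩ hu
    refine ⟨c, hc0, hU.unit, ?_⟩
    rw [hyu]
    rfl
  red_const := by
    intro a ha
    exact rv_red_const H a ha
  r := r
  ord_red := by
    intro u D hD Q
    have hu : H.valRed (u : H.valSubring) ≠ 0 := by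
      intro h0
      have := (u.isUnit).map H.valRed
      rw [h0] at this
      exact not_isUnit_zero this
    exact H.mapDomain_eq ⟨((u : H.valSubring) : ↥(rvFL L N)), (u : H.valSubring).2⟩ hu D hD Q

/-- **CORE-cd glue.** The leading-term statement. -/
theorem leadingTermStatement : Fermat.Agent.H87.ESD.LeadingTermStatement := by
  intro L _ _ A k _ π N r H _ hdeg T hRL hNS hcoord hP0 m hm D hD hmD hrD
  have hm' : ((m : ℕ) : ↥(rvFk k N)) ≠ 0 := by
    intro h0
    apply hm
    have h1 : algebraMap k ↥(rvFk k N) (m : k) = 0 := by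
      rw [map_natCast]
      exact h0
    exact (map_eq_zero _).mp h1
  exact H.setup.principal_of_torsion hdeg T hRL hNS hcoord hP0 m hm' D hD hmD hrD

end Fermat.Agent.H18
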