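import Mathlib
import Fermat.Agent.H18.RedLeading
import Fermat.Agent.H18.RedCoordStmt
import Fermat.Agent.H87.ESD.CoreGlue
import Fermat.Agent.H27.ESD.Interfaces1c

/-!
# ES-D-CORE: the S18 core statement (leading-term argument), unconditional

* `Fermat.Agent.H18.s18Core : Fermat.Agent.H27.ESD.S18CoreStatement`
* `Fermat.Agent.H18.s18CoreFF : Fermat.Agent.H27.ESD.S18CoreFFStatement`

Inputs: `coordStatement` (CORE-a, this seat), `leadingTermStatement` (helper57's abstract
leading-term argument `ReductionSetup.principal_of_torsion` instantiated at the Gauss ring) and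
helper87's glue `s18Core_of`.
-/

set_option autoImplicit false

namespace Fermat.Agent.H18

/-- **ES-D-CORE.** -/
theorem s18Core : Fermat.Agent.H27.ESD.S18CoreStatement :=
  Fermat.Agent.H87.ESD.s18Core_of coordStatement leadingTermStatement

/-- **ES-D-CORE**, function-field genus form. -/
theorem s18CoreFF : Fermat.Agent.H27.ESD.S18CoreFFStatement :=
  Fermat.Agent.H27.ESD.s18CoreFF_of s18Core

end Fermat.Agent.H18
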